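import Fermat.Agent.S55.GlobalInv91.Tower
import Fermat.Agent.S55.InfRes9.InfRes2

/-!
# S55 / 35-GLOBAL-INV (helper91): the tower lemma with helper9's inflation–restriction plugged in

`exists_fundamental_class_of_isZero` = `exists_fundamental_class` with `hmono`, `hexact`, `hH1Z`
discharged by `InfRes9.H2InfRes_mono`, `InfRes9.H2InfRes_exact`, `InfRes9.h1Vanishes_of_isZero`.
-/

set_option autoImplicit false
set_option linter.unusedSectionVars false

namespace Fermat.Agent.S55.GlobalInv91

open groupCohomology CategoryTheory Rep Limits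

universe u

variable {k Γ : Type u} [CommRing k] [Group Γ] (C : Rep.{u, u, u} k Γ) (N : Subgroup Γ) [N.Normal]
  {n : ℕ} [NeZero n]

/-- **The tower lemma** (unconditional form).  `N ⊴ Γ` with `H¹(N, C) = 0`;
`χ : Γ → ZMod n` with `χ s = 1` and `H¹(ker χ, C) = 0`; `a ∈ C^Γ` whose tower class dies on `N`
(`hd`) and which has exact order `n` modulo norms from the layer (`hc`); `|H²(Γ ⧸ N, C^N)| ∣ n`.
Then `H²(Γ ⧸ N, C^N)` is cyclic of order `n`, generated by the unique class `γ` whose inflation
is the tower class `δχ ∪ a`. -/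
theorem exists_fundamental_class_of_isZero
    (h1N : IsZero (groupCohomology (res N.subtype C) 1))
    (χ : Γ →* Multiplicative (ZMod n)) (s : Γ) (hs : chiVal χ s = 1)
    (h1Z : IsZero (groupCohomology (res χ.ker.subtype C) 1))
    (a : C.ρ.invariants)
    (hd : IsCob₂ (res N.subtype C) (carry (res N.subtype C) (χ.comp N.subtype) (a : C)))
    (hc : ∀ m : ℕ, (∃ b : C, (∀ z : Γ, χ z = 1 → C.ρ z b = b) ∧
      m • (a : C) = partialNorm C s b n) → n ∣ m)
    [Finite (H2 (C.quotientToInvariants N))]
    (hb : Nat.card (H2 (C.quotientToInvariants N)) ∣ n) :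
    ∃ γ : H2 (C.quotientToInvariants N), (infl₂ C N).hom γ = carryH2 C χ a ∧
      addOrderOf γ = n ∧ ∀ x : H2 (C.quotientToInvariants N), ∃ j : ℤ, x = j • γ := by
  have hmono : Function.Injective (infl₂ C N).hom := by
    have := InfRes9.H2InfRes_mono C N h1N
    exact (ModuleCat.mono_iff_injective _).1 this
  have hexact : ∀ x : H2 C, (res₂ C N).hom x = 0 → ∃ y, (infl₂ C N).hom y = x := by
    have := InfRes9.H2InfRes_exact C N h1N
    rw [ShortComplex.moduleCat_exact_iff_ker_sub_range] at this
    intro x hx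
    exact this (LinearMap.mem_ker.2 hx)
  have hH1Z : ∀ f : χ.ker → C, (∀ z w : χ.ker, f (z * w) = C.ρ (z : Γ) (f w) + f z) →
      ∃ y : C, ∀ z : χ.ker, f z = C.ρ (z : Γ) y - y := by
    intro f hf
    obtain ⟨y, hy⟩ := InfRes9.h1Vanishes_of_isZero (A := C) χ.ker h1Z f hf
    exact ⟨y, fun z => (hy z).symm⟩
  exact exists_fundamental_class C N hmono hexact χ s hs hH1Z a hd hc hb

/-- Uniqueness of the class with given inflation. -/
theorem fundamental_class_unique
    (h1N : IsZero (groupCohomology (res N.subtype C) 1))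
    {γ γ' : H2 (C.quotientToInvariants N)}
    (h : (infl₂ C N).hom γ = (infl₂ C N).hom γ') : γ = γ' :=
  (ModuleCat.mono_iff_injective _).1 (InfRes9.H2InfRes_mono C N h1N) h

end Fermat.Agent.S55.GlobalInv91
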