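import Fermat.Agent.S55.GlobalInv91.TowerP
import Fermat.Agent.S55.GlobalInv91.TowerFinal

/-!
# S55 / 35-GLOBAL-INV (helper91): (35-GEN), abstract form

`Γ` a finite group (`Gal(L·K_m / K)`), `E ⟶ J ⟶ C` the idele sequence of `Γ`-modules, `N ⊴ Γ`
(`Gal(L·K_m / L)`), `χ : Γ → ZMod n` the character of the tower layer `K_m / K`, `Z = ker χ`.
The sums of local invariants enter as additive maps `invJ : H²(Γ, J) → T`,
`invJN : H²(N, J) → T`.

* `carry_res_isCob₂_of_inv`: the tower class `δχ ∪ a` dies on `N` (base change of invariants +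
  the cyclic layer over `L`).
* `exists_fundamental_class_of_inv`: the `p`-primary part of `H²(Γ ⧸ N, C^N)` is cyclic of order
  `n`, generated by a class whose inflation is the tower class; every `p`-primary class becomes,
  after inflation, the image of an idele class (**(α)**).
* `reciprocity_of_tower`: reciprocity for all `p`-primary classes from reciprocity on the tower
  layer (**(β→)**).
* `hasse_of_tower`: Hasse realisation from the tower layer (**(β←)**).
-/

set_option autoImplicit false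
set_option linter.unusedSectionVars false

namespace Fermat.Agent.S55.GlobalInv91

open groupCohomology CategoryTheory Rep Limits

universe u

variable {k Γ : Type u} [CommRing k] [Group Γ]

section Nat

variable {A B : Rep.{u, u, u} k Γ} (f : A ⟶ B)

/-- Push-forward `H²(Γ, A) ⟶ H²(Γ, B)`. -/
noncomputable abbrev push₂ : H2 A ⟶ H2 B := map (MonoidHom.id Γ) f 2

/-- Push-forward on a subgroup. -/
noncomputable abbrev pushS₂ (S : Subgroup Γ) :
    H2 (res S.subtype A) ⟶ H2 (res S.subtype B) :=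
  map (MonoidHom.id S) ((resFunctor S.subtype).map f) 2

/-- Push-forward on a quotient. -/
noncomputable abbrev pushQ₂ (Z : Subgroup Γ) [Z.Normal] :
    H2 (A.quotientToInvariants Z) ⟶ H2 (B.quotientToInvariants Z) :=
  map (MonoidHom.id (Γ ⧸ Z)) ((quotientToInvariantsFunctor k Z).map f) 2

/-- restriction commutes with push-forward -/
theorem res₂_push₂ (S : Subgroup Γ) (x : H2 A) :
    (res₂ B S).hom ((push₂ f).hom x) = (pushS₂ f S).hom ((res₂ A S).hom x) := by
  have := (resNatTrans (k := k) S.subtype 2).naturality f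
  exact congrArg (fun φ => φ.hom x) this

/-- inflation commutes with push-forward -/
theorem push₂_infl₂ (Z : Subgroup Γ) [Z.Normal] (y : H2 (A.quotientToInvariants Z)) :
    (push₂ f).hom ((infl₂ A Z).hom y) = (infl₂ B Z).hom ((pushQ₂ f Z).hom y) := by
  have := (infNatTrans (k := k) Z 2).naturality f
  exact (congrArg (fun φ => φ.hom y) this).symm

end Nat

section A

variable {J C : Rep.{u, u, u} k Γ} (π : J ⟶ C) (N : Subgroup Γ) [N.Normal] {n : ℕ} [NeZero n]
  {T : Type*} [AddCommGroup T]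

/-- **The tower class dies on `N`.**  `invJ`, `invJN`: sums of local invariants over `K`, `L`
with the base change formula `hJ1`; `invCN`: the invariant of the cyclic layer over `L`
(injective, compatible with `invJN`); `n ∣ [Γ : N]`; the tower class `δχ ∪ a` is the image of an
idele class `c'` killed by `n`. -/
theorem carry_res_isCob₂_of_inv
    (invJ : H2 J →+ T) (invJN : H2 (res N.subtype J) →+ T)
    (hJ1 : ∀ y : H2 J, invJN ((res₂ J N).hom y) = N.index • invJ y)
    (invCN : H2 (res N.subtype C) →+ T) (hinjN : Function.Injective invCN)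
    (hcompN : ∀ x : H2 (res N.subtype J), invCN ((pushS₂ π N).hom x) = invJN x)
    (hidx : n ∣ N.index)
    (χ : Γ →* Multiplicative (ZMod n)) (a : C.ρ.invariants) (c' : H2 J) (hc' : n • c' = 0)
    (hπ : (push₂ π).hom c' = carryH2 C χ a) :
    IsCob₂ (res N.subtype C) (carry (res N.subtype C) (χ.comp N.subtype) (a : C)) := by
  have h0 : (res₂ C N).hom (carryH2 C χ a) = 0 := by
    apply hinjN
    rw [map_zero, ← hπ, res₂_push₂, hcompN, hJ1]
    obtain ⟨d, hd⟩ := hidx
    rw [hd, mul_comm, mul_smul, ← map_nsmul, hc', map_zero, smul_zero]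
  have := res₂_carryH2 C N χ a
  rw [show (res₂ C N).hom (carryH2 C χ a) = res₂ C N (carryH2 C χ a) from rfl] at h0
  rw [this, H2π_eq_zero_iff] at h0
  exact (isCob₂_iff_mem _ _).2 h0

/-- **(35-GEN), abstract.**  Hypotheses: `H¹(N, C) = 0` (`N` is a cyclic `p`-group in the
application), `H¹(ker χ, C)` killed by `m'` prime to `n = p ^ e`, the `p`-primary part of
`H²(Γ ⧸ N, C^N)` has order dividing `n` (dévissage 33); the invariants as in
`carry_res_isCob₂_of_inv`; `a` has exact order `n` modulo norms from the tower layer (`hc`,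
from the cyclic layer over `K`). -/
theorem exists_fundamental_class_of_inv (p : ℕ) {e : ℕ} (hn : n = p ^ e)
    (h1N : IsZero (groupCohomology (res N.subtype C) 1))
    (χ : Γ →* Multiplicative (ZMod n)) (s : Γ) (hs : chiVal χ s = 1)
    {m' : ℕ} (hm' : Nat.Coprime m' n)
    (hH1Z : ∀ f : χ.ker → C, (∀ z w : χ.ker, f (z * w) = C.ρ (z : Γ) (f w) + f z) →
      ∃ y : C, ∀ z : χ.ker, m' • f z = C.ρ (z : Γ) y - y)
    [Finite (InfRes9.pPrimary p (H2 (C.quotientToInvariants N)))]
    (hb : Nat.card (InfRes9.pPrimary p (H2 (C.quotientToInvariants N))) ∣ n)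
    (invJ : H2 J →+ T) (invJN : H2 (res N.subtype J) →+ T)
    (hJ1 : ∀ y : H2 J, invJN ((res₂ J N).hom y) = N.index • invJ y)
    (invCN : H2 (res N.subtype C) →+ T) (hinjN : Function.Injective invCN)
    (hcompN : ∀ x : H2 (res N.subtype J), invCN ((pushS₂ π N).hom x) = invJN x)
    (hidx : n ∣ N.index)
    (a : C.ρ.invariants) (c' : H2 J) (hc' : n • c' = 0)
    (hπ : (push₂ π).hom c' = carryH2 C χ a)
    (hc : ∀ m : ℕ, (∃ b : C, (∀ z : Γ, χ z = 1 → C.ρ z b = b) ∧
      m • (a : C) = partialNorm C s b n) → n ∣ m) :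
    ∃ γ : H2 (C.quotientToInvariants N), (infl₂ C N).hom γ = carryH2 C χ a ∧
      addOrderOf γ = n ∧
      (∀ x : H2 (C.quotientToInvariants N), (∃ j : ℕ, p ^ j • x = 0) → ∃ j : ℤ, x = j • γ) ∧
      ∀ x : H2 (C.quotientToInvariants N), (∃ j : ℕ, p ^ j • x = 0) →
        ∃ y : H2 J, n • y = 0 ∧ (push₂ π).hom y = (infl₂ C N).hom x := by
  have hmono : Function.Injective (infl₂ C N).hom :=
    (ModuleCat.mono_iff_injective _).1 (InfRes9.H2InfRes_mono C N h1N)
  have hexact : ∀ x : H2 C, (res₂ C N).hom x = 0 → ∃ y, (infl₂ C N).hom y = x := by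
    have := InfRes9.H2InfRes_exact C N h1N
    rw [ShortComplex.moduleCat_exact_iff_ker_sub_range] at this
    intro x hx
    exact this (LinearMap.mem_ker.2 hx)
  have hd := carry_res_isCob₂_of_inv π N invJ invJN hJ1 invCN hinjN hcompN hidx χ a c' hc' hπ
  obtain ⟨γ, hγ, hord, hgen⟩ := exists_fundamental_class_pPrimary C N p hn hmono hexact χ s hs
    hm' hH1Z a hd hc hb
  refine ⟨γ, hγ, hord, hgen, fun x hx => ?_⟩
  obtain ⟨j, rfl⟩ := hgen x hx
  refine ⟨j • c', ?_, ?_⟩
  · rw [smul_comm, hc', smul_zero]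
  · rw [map_zsmul, map_zsmul, hπ, hγ]

end A

section B

variable {E J : Rep.{u, u, u} k Γ} (i : E ⟶ J) (N Z : Subgroup Γ) [N.Normal] [Z.Normal]
  {T : Type*} [AddCommGroup T]

/-- **(β→) Reciprocity for all `p`-primary classes from the tower layer.**  `e` a `p`-primary
class of `H²(Γ ⧸ N, E^N)` whose idele class is split by the tower layer `Z` (`hsplit`: local
degrees); `H¹(Z, E) = 0` (Hilbert 90); the kernel of `H²(Z, E) → H²(Z, J)` is killed by `m'`
prime to `p` (it is a quotient of `H¹(Z, C)`); reciprocity on the layer `Γ ⧸ Z`. -/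
theorem reciprocity_of_tower (p : ℕ) {m' : ℕ} (hm' : Nat.Coprime m' p)
    (invJ : H2 J →+ T)
    (h1ZE : IsZero (groupCohomology (res Z.subtype E) 1))
    (hker : ∀ x : H2 (res Z.subtype E), (pushS₂ i Z).hom x = 0 → m' • x = 0)
    (hrecZ : ∀ y : H2 (E.quotientToInvariants Z),
      invJ ((push₂ i).hom ((infl₂ E Z).hom y)) = 0)
    (e : H2 (E.quotientToInvariants N)) {j : ℕ} (he : p ^ j • e = 0)
    (hsplit : (res₂ J Z).hom ((push₂ i).hom ((infl₂ E N).hom e)) = 0) :
    invJ ((push₂ i).hom ((infl₂ E N).hom e)) = 0 := by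
  set x : H2 E := (infl₂ E N).hom e with hx
  have hpx : p ^ j • x = 0 := by rw [hx, ← map_nsmul, he, map_zero]
  have h1 : (pushS₂ i Z).hom ((res₂ E Z).hom x) = 0 := by
    rw [← res₂_push₂]; exact hsplit
  have h2 : m' • (res₂ E Z).hom x = 0 := hker _ h1
  have h3 : p ^ j • (res₂ E Z).hom x = 0 := by rw [← map_nsmul, hpx, map_zero]
  have h4 : (res₂ E Z).hom x = 0 :=
    InfRes9.eq_zero_of_coprime_nsmul _ (Nat.Coprime.pow_right j hm') h2 h3
  have hexact := InfRes9.H2InfRes_exact E Z h1ZE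
  rw [ShortComplex.moduleCat_exact_iff_ker_sub_range] at hexact
  obtain ⟨y, hy⟩ := hexact (LinearMap.mem_ker.2 h4)
  have hy' : (infl₂ E Z).hom y = x := hy
  rw [← hy']
  exact hrecZ y

/-- **(β←) Hasse realisation from the tower layer.** -/
theorem hasse_of_tower (invJ : H2 J →+ T)
    (h1ZJ : IsZero (groupCohomology (res Z.subtype J) 1))
    (hhasseZ : ∀ y : H2 (J.quotientToInvariants Z), invJ ((infl₂ J Z).hom y) = 0 →
      ∃ e' : H2 (E.quotientToInvariants Z), (pushQ₂ i Z).hom e' = y)
    (x : H2 (J.quotientToInvariants N)) (hx : invJ ((infl₂ J N).hom x) = 0)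
    (hsplit : (res₂ J Z).hom ((infl₂ J N).hom x) = 0) :
    ∃ e : H2 E, (push₂ i).hom e = (infl₂ J N).hom x := by
  have hexact := InfRes9.H2InfRes_exact J Z h1ZJ
  rw [ShortComplex.moduleCat_exact_iff_ker_sub_range] at hexact
  obtain ⟨y, hy⟩ := hexact (LinearMap.mem_ker.2 hsplit)
  have hy' : (infl₂ J Z).hom y = (infl₂ J N).hom x := hy
  obtain ⟨e', he'⟩ := hhasseZ y (by rw [hy']; exact hx)
  refine ⟨(infl₂ E Z).hom e', ?_⟩
  rw [push₂_infl₂, he', hy']

end B

end Fermat.Agent.S55.GlobalInv91
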