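import Fermat.Agent.S55.GlobalInv91.TowerFinal

/-!
# S55 / 35-GLOBAL-INV (helper91): model-independent lemmas for the global invariant

* `exists_generator_of_res_eq_zero`: the crossing lemma in its most general form: a class
  `τ ∈ H²(Γ, C)` of exact order `n` dying on `N ⊴ Γ` (with `H¹(N, C) = 0`, `|H²(Γ ⧸ N, C^N)| ∣ n`)
  is inflated from a generator of `H²(Γ ⧸ N, C^N)`, which is cyclic of order `n`.
* `descInv`: if `E → J → C` is exact in the middle on `H²`, `H²(J) → H²(C)` is onto and the local
  invariant `invJ` kills the image of `H²(E)` (reciprocity), then `invJ` descends to `H²(C)`.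
-/

set_option autoImplicit false
set_option linter.unusedSectionVars false

namespace Fermat.Agent.S55.GlobalInv91

open groupCohomology CategoryTheory Rep Limits

universe u

section Crossing

variable {k Γ : Type u} [CommRing k] [Group Γ] (C : Rep.{u, u, u} k Γ) (N : Subgroup Γ) [N.Normal]

/-- **Crossing lemma, general form.** -/
theorem exists_generator_of_res_eq_zero
    (h1N : IsZero (groupCohomology (res N.subtype C) 1))
    (τ : H2 C) (hτ : (res₂ C N).hom τ = 0) {n : ℕ} (hord : addOrderOf τ = n)
    [Finite (H2 (C.quotientToInvariants N))]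
    (hb : Nat.card (H2 (C.quotientToInvariants N)) ∣ n) :
    ∃ γ : H2 (C.quotientToInvariants N), (infl₂ C N).hom γ = τ ∧
      addOrderOf γ = n ∧ ∀ x : H2 (C.quotientToInvariants N), ∃ j : ℤ, x = j • γ := by
  have hmono : Function.Injective (infl₂ C N).hom :=
    (ModuleCat.mono_iff_injective _).1 (InfRes9.H2InfRes_mono C N h1N)
  have hexact : ∀ x : H2 C, (res₂ C N).hom x = 0 → ∃ y, (infl₂ C N).hom y = x := by
    have := InfRes9.H2InfRes_exact C N h1N
    rw [ShortComplex.moduleCat_exact_iff_ker_sub_range] at this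
    intro x hx
    exact this (LinearMap.mem_ker.2 hx)
  obtain ⟨γ, hγ⟩ := hexact τ hτ
  have hordγ : addOrderOf γ = n := by
    rw [← hord, ← hγ]
    exact (addOrderOf_injective (infl₂ C N).hom.toAddMonoidHom hmono γ).symm
  refine ⟨γ, hγ, hordγ, ?_⟩
  have hcard : Nat.card (AddSubgroup.zmultiples γ) = n := by
    rw [Nat.card_zmultiples, hordγ]
  have hle : Nat.card (AddSubgroup.zmultiples γ) ∣ Nat.card (H2 (C.quotientToInvariants N)) :=
    AddSubgroup.card_addSubgroup_dvd_card _
  have heq : Nat.card (AddSubgroup.zmultiples γ) = Nat.card (H2 (C.quotientToInvariants N)) := by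
    rw [hcard] at hle ⊢
    exact Nat.dvd_antisymm hle hb
  have htop : AddSubgroup.zmultiples γ = ⊤ := AddSubgroup.eq_top_of_card_eq _ heq
  intro x
  have hx : x ∈ AddSubgroup.zmultiples γ := htop ▸ AddSubgroup.mem_top x
  obtain ⟨j, hj⟩ := AddSubgroup.mem_zmultiples_iff.1 hx
  exact ⟨j, hj.symm⟩

end Crossing

section Descent

variable {HE HJ HC T : Type*} [AddCommGroup HE] [AddCommGroup HJ] [AddCommGroup HC]
  [AddCommGroup T]

/-- Descent of the sum of local invariants to the class module: `i : H²(E) → H²(J)`,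
`π : H²(J) → H²(C)` exact in the middle, `π` onto, `invJ ∘ i = 0`. -/
theorem exists_descInv (i : HE →+ HJ) (π : HJ →+ HC) (invJ : HJ →+ T)
    (hex : ∀ c : HJ, π c = 0 → ∃ e, i e = c) (hsurj : Function.Surjective π)
    (hrec : ∀ e : HE, invJ (i e) = 0) :
    ∃! invC : HC →+ T, ∀ c : HJ, invC (π c) = invJ c := by
  have hker : π.ker ≤ invJ.ker := by
    intro c hc
    obtain ⟨e, rfl⟩ := hex c hc
    exact hrec e
  refine ⟨(QuotientAddGroup.lift π.ker invJ hker).comp
      (QuotientAddGroup.quotientKerEquivOfSurjective π hsurj).symm.toAddMonoidHom, ?_, ?_⟩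
  · intro c
    have : (QuotientAddGroup.quotientKerEquivOfSurjective π hsurj).symm (π c) =
        (QuotientAddGroup.mk c : HJ ⧸ π.ker) := by
      rw [AddEquiv.symm_apply_eq]
      rfl
    simp only [AddMonoidHom.coe_comp, Function.comp_apply, AddEquiv.coe_toAddMonoidHom, this]
    rfl
  · intro f hf
    ext x
    obtain ⟨c, rfl⟩ := hsurj x
    rw [hf c]
    have : (QuotientAddGroup.quotientKerEquivOfSurjective π hsurj).symm (π c) =
        (QuotientAddGroup.mk c : HJ ⧸ π.ker) := by
      rw [AddEquiv.symm_apply_eq]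
      rfl
    simp only [AddMonoidHom.coe_comp, Function.comp_apply, AddEquiv.coe_toAddMonoidHom, this]
    rfl

/-- The descended invariant is injective as soon as `invJ` only vanishes on `range i + ker π`
(e.g. `|H²(C)| = n` and `invJ` takes a value of order `n`). -/
theorem descInv_injective (π : HJ →+ HC) (invJ : HJ →+ T) (invC : HC →+ T)
    (hsurj : Function.Surjective π) (hcomp : ∀ c : HJ, invC (π c) = invJ c)
    (hinj : ∀ c : HJ, invJ c = 0 → π c = 0) : Function.Injective invC := by
  rw [injective_iff_map_eq_zero]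
  intro x hx
  obtain ⟨c, rfl⟩ := hsurj x
  exact hinj c ((hcomp c).symm.trans hx)

end Descent

end Fermat.Agent.S55.GlobalInv91
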