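import Mathlib

/-!
# S55 / 35-GLOBAL-INV (helper91): the carry cocycle `δχ ∪ a` on an arbitrary group

For a character `χ : Γ →* Multiplicative (ZMod n)` and a `Γ`-invariant element `a` of a
representation `C`, the function `(g, h) ↦ ((χ g).val + (χ h).val) / n • a` is a 2-cocycle
(it is the cup product of `δχ ∈ H²(Γ, ℤ)` with `a ∈ H⁰(Γ, C)`).  Pull-back along any group
homomorphism is `rfl`, so restriction and inflation are built in.
-/

set_option autoImplicit false
set_option linter.unusedSectionVars false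

namespace Fermat.Agent.S55.GlobalInv91

open groupCohomology

/-! ## Carries in `ZMod n` -/

section CarryNat

variable (n : ℕ) [NeZero n]

/-- The carry (0 or 1) of the addition of two residues mod `n`. -/
def carryNat (x y : ZMod n) : ℕ := (x.val + y.val) / n

lemma val_add_val (x y : ZMod n) : x.val + y.val = (x + y).val + n * carryNat n x y := by
  unfold carryNat
  rw [ZMod.val_add]
  exact (Nat.mod_add_div _ _).symm

lemma carryNat_le_one (x y : ZMod n) : carryNat n x y ≤ 1 := by
  unfold carryNat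
  have hx := ZMod.val_lt x
  have hy := ZMod.val_lt y
  have hn : 0 < n := Nat.pos_of_ne_zero (NeZero.ne n)
  have : (x.val + y.val) / n < 2 := by
    rw [Nat.div_lt_iff_lt_mul hn]
    omega
  omega

lemma carryNat_assoc (x y z : ZMod n) :
    carryNat n x y + carryNat n (x + y) z = carryNat n y z + carryNat n x (y + z) := by
  have h1 := val_add_val n x y
  have h2 := val_add_val n (x + y) z
  have h3 := val_add_val n y z
  have h4 := val_add_val n x (y + z)
  have hn : 0 < n := Nat.pos_of_ne_zero (NeZero.ne n)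
  rw [add_assoc] at h2
  have : n * (carryNat n x y + carryNat n (x + y) z) =
      n * (carryNat n y z + carryNat n x (y + z)) := by
    rw [mul_add, mul_add]; omega
  exact Nat.eq_of_mul_eq_mul_left hn this

lemma carryNat_zero_left (y : ZMod n) : carryNat n 0 y = 0 := by
  unfold carryNat
  rw [ZMod.val_zero, zero_add]
  exact Nat.div_eq_of_lt (ZMod.val_lt y)

lemma carryNat_zero_right (x : ZMod n) : carryNat n x 0 = 0 := by
  unfold carryNat
  rw [ZMod.val_zero, add_zero]
  exact Nat.div_eq_of_lt (ZMod.val_lt x)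

end CarryNat

/-! ## The carry cocycle -/

universe u

variable {k Γ : Type u} [CommRing k] [Group Γ] (C : Rep k Γ) {n : ℕ} [NeZero n]

/-- The value in `ZMod n` of a multiplicative character. -/
abbrev chiVal (χ : Γ →* Multiplicative (ZMod n)) (g : Γ) : ZMod n := Multiplicative.toAdd (χ g)

omit [NeZero n] in
lemma chiVal_mul (χ : Γ →* Multiplicative (ZMod n)) (g h : Γ) :
    chiVal χ (g * h) = chiVal χ g + chiVal χ h := by
  simp [chiVal]

omit [NeZero n] in
lemma chiVal_one (χ : Γ →* Multiplicative (ZMod n)) : chiVal χ 1 = 0 := by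
  simp [chiVal]

/-- The carry cocycle `δχ ∪ a`. -/
def carry (χ : Γ →* Multiplicative (ZMod n)) (a : C) : Γ × Γ → C :=
  fun p => carryNat n (chiVal χ p.1) (chiVal χ p.2) • a

lemma carry_apply (χ : Γ →* Multiplicative (ZMod n)) (a : C) (g h : Γ) :
    carry C χ a (g, h) = carryNat n (chiVal χ g) (chiVal χ h) • a := rfl

/-- (C1) The carry cocycle of an invariant element is a 2-cocycle. -/
theorem carry_mem_cocycles₂ (χ : Γ →* Multiplicative (ZMod n)) (a : C)
    (ha : ∀ g : Γ, C.ρ g a = a) : carry C χ a ∈ cocycles₂ C := by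
  rw [mem_cocycles₂_iff]
  intro g h j
  simp only [carry_apply, chiVal_mul, map_nsmul, ha, ← add_nsmul]
  congr 1
  have := carryNat_assoc n (chiVal χ g) (chiVal χ h) (chiVal χ j)
  omega

/-- (C2) additivity in `a`. -/
lemma carry_add (χ : Γ →* Multiplicative (ZMod n)) (a b : C) :
    carry C χ (a + b) = carry C χ a + carry C χ b := by
  funext p
  simp [carry, nsmul_add]

lemma carry_smul (χ : Γ →* Multiplicative (ZMod n)) (c : k) (a : C) :
    carry C χ (c • a) = c • carry C χ a := by
  funext p
  simp only [carry, Pi.smul_apply]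
  rw [smul_comm]

lemma carry_zero (χ : Γ →* Multiplicative (ZMod n)) : carry C χ (0 : C) = 0 := by
  funext p
  simp [carry]

lemma carry_nsmul (χ : Γ →* Multiplicative (ZMod n)) (m : ℕ) (a : C) :
    carry C χ (m • a) = m • carry C χ a := by
  funext p
  simp only [carry, Pi.smul_apply]
  rw [smul_comm]

/-- (C3) Pull-back along a group homomorphism is definitional. -/
theorem carry_comp {H : Type u} [Group H] (f : H →* Γ) (χ : Γ →* Multiplicative (ZMod n))
    (a : C) : carry C χ a ∘ Prod.map f f = carry (Rep.res f C) (χ.comp f) a := rfl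


/-! ## Elementary coboundaries -/

/-- Elementary form of `f ∈ coboundaries₂ C`. -/
def IsCob₂ (f : Γ × Γ → C) : Prop :=
  ∃ x : Γ → C, ∀ g h : Γ, C.ρ g (x h) - x (g * h) + x g = f (g, h)

lemma isCob₂_iff_mem (f : Γ × Γ → C) : IsCob₂ C f ↔ f ∈ coboundaries₂ C := by
  constructor
  · rintro ⟨x, hx⟩
    refine ⟨x, ?_⟩
    funext p
    rw [d₁₂_hom_apply]
    exact hx p.1 p.2
  · rintro ⟨x, hx⟩
    refine ⟨x, fun g h => ?_⟩
    have := congrFun hx (g, h)
    rw [d₁₂_hom_apply] at this
    exact this

/-! ## (C4) Norms from the layer die -/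

section Norms

variable (χ : Γ →* Multiplicative (ZMod n)) (s : Γ) (b : C)

/-- Partial norm sums `∑_{i < m} s^i • b`. -/
def partialNorm (m : ℕ) : C := ∑ i ∈ Finset.range m, C.ρ (s ^ i) b

variable {C χ s b}

lemma chiVal_pow (hs : chiVal χ s = 1) (i : ℕ) : chiVal χ (s ^ i) = (i : ZMod n) := by
  induction i with
  | zero => simp [chiVal]
  | succ i ih => rw [pow_succ, chiVal_mul, ih, hs]; push_cast; ring

lemma rho_pow_n (hs : chiVal χ s = 1) (hb : ∀ z : Γ, χ z = 1 → C.ρ z b = b) :
    C.ρ (s ^ n) b = b := by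
  apply hb
  have : chiVal χ (s ^ n) = 0 := by rw [chiVal_pow hs]; exact ZMod.natCast_self n
  exact this

lemma rho_rho_pow (hs : chiVal χ s = 1) (hb : ∀ z : Γ, χ z = 1 → C.ρ z b = b) (g : Γ) (i : ℕ) :
    C.ρ g (C.ρ (s ^ i) b) = C.ρ (s ^ ((chiVal χ g).val + i)) b := by
  set v := (chiVal χ g).val with hv
  set w : Γ := (s ^ (v + i))⁻¹ * (g * s ^ i) with hw
  have hχw : χ w = 1 := by
    have : chiVal χ w = 0 := by
      rw [hw, chiVal_mul, chiVal_mul, chiVal_pow hs]
      have h1 : chiVal χ ((s ^ (v + i))⁻¹) = -((v + i : ℕ) : ZMod n) := by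
        have := chiVal_mul χ ((s ^ (v + i))⁻¹) (s ^ (v + i))
        rw [inv_mul_cancel, chiVal_one, chiVal_pow hs] at this
        exact eq_neg_of_add_eq_zero_left this.symm
      rw [h1]
      push_cast
      rw [hv, ZMod.natCast_zmod_val]
      ring
    exact this
  have hg : g * s ^ i = s ^ (v + i) * w := by rw [hw]; group
  calc C.ρ g (C.ρ (s ^ i) b) = C.ρ (g * s ^ i) b := by rw [map_mul]; rfl
    _ = C.ρ (s ^ (v + i) * w) b := by rw [hg]
    _ = C.ρ (s ^ (v + i)) (C.ρ w b) := by rw [map_mul]; rfl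
    _ = C.ρ (s ^ (v + i)) b := by rw [hb w hχw]

lemma partialNorm_add (m m' : ℕ) :
    partialNorm C s b (m + m') =
      partialNorm C s b m + ∑ i ∈ Finset.range m', C.ρ (s ^ (m + i)) b := by
  unfold partialNorm
  rw [Finset.sum_range_add]

lemma rho_partialNorm (hs : chiVal χ s = 1) (hb : ∀ z : Γ, χ z = 1 → C.ρ z b = b) (g : Γ)
    (m : ℕ) :
    C.ρ g (partialNorm C s b m) + partialNorm C s b (chiVal χ g).val =
      partialNorm C s b ((chiVal χ g).val + m) := by
  rw [partialNorm_add, add_comm]
  congr 1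
  unfold partialNorm
  rw [map_sum]
  exact Finset.sum_congr rfl fun i _ => rho_rho_pow hs hb g i

lemma partialNorm_add_n (hs : chiVal χ s = 1) (hb : ∀ z : Γ, χ z = 1 → C.ρ z b = b) (m : ℕ) :
    partialNorm C s b (n + m) = partialNorm C s b n + partialNorm C s b m := by
  rw [partialNorm_add]
  congr 1
  unfold partialNorm
  refine Finset.sum_congr rfl fun i _ => ?_
  have : s ^ (n + i) = s ^ i * s ^ n := by rw [add_comm, pow_add]
  rw [this, map_mul]
  show C.ρ (s ^ i) (C.ρ (s ^ n) b) = _
  rw [rho_pow_n hs hb]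

lemma partialNorm_add_mul (hs : chiVal χ s = 1) (hb : ∀ z : Γ, χ z = 1 → C.ρ z b = b)
    (m c : ℕ) :
    partialNorm C s b (m + n * c) = partialNorm C s b m + c • partialNorm C s b n := by
  induction c with
  | zero => simp
  | succ c ih =>
    have : m + n * (c + 1) = n + (m + n * c) := by ring
    rw [this, partialNorm_add_n hs hb, ih, succ_nsmul]
    abel

/-- (C4) If `a = ∑_{i<n} s^i • b` is a norm from the layer cut out by `χ`, then the carry
cocycle of `a` is a coboundary. -/
theorem carry_isCob₂_of_norm (hs : chiVal χ s = 1) (hb : ∀ z : Γ, χ z = 1 → C.ρ z b = b) :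
    IsCob₂ C (carry C χ (partialNorm C s b n)) := by
  refine ⟨fun g => partialNorm C s b (chiVal χ g).val, fun g h => ?_⟩
  rw [carry_apply]
  have h1 := rho_partialNorm hs hb g (chiVal χ h).val
  have h2 := val_add_val n (chiVal χ g) (chiVal χ h)
  have h3 := partialNorm_add_mul hs hb (chiVal χ g + chiVal χ h).val
    (carryNat n (chiVal χ g) (chiVal χ h))
  rw [← h2] at h3
  rw [h3] at h1
  -- h1 : ρ g (S w) + S v = S (gh) + c • S n
  show C.ρ g (partialNorm C s b (chiVal χ h).val) - partialNorm C s b (chiVal χ (g * h)).val +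
      partialNorm C s b (chiVal χ g).val = _
  rw [chiVal_mul, sub_add_eq_add_sub, h1]
  abel

end Norms

/-! ## (C5) Converse: a carry cocycle that is a coboundary comes from a norm -/

section Converse

variable {C} {χ : Γ →* Multiplicative (ZMod n)} {s : Γ} {a : C}

lemma sum_carryNat_natCast_one (hn : n ≠ 1) :
    ∑ i ∈ Finset.range n, carryNat n ((i : ℕ) : ZMod n) 1 = 1 := by
  have hn0 : 0 < n := Nat.pos_of_ne_zero (NeZero.ne n)
  rw [Finset.sum_eq_single (n - 1)]
  · unfold carryNat
    rw [ZMod.val_natCast_of_lt (by omega), ZMod.val_one'' hn]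
    have : n - 1 + 1 = n := by omega
    rw [this, Nat.div_self hn0]
  · intro i hi hne
    unfold carryNat
    rw [Finset.mem_range] at hi
    rw [ZMod.val_natCast_of_lt hi, ZMod.val_one'' hn]
    exact Nat.div_eq_of_lt (by omega)
  · intro h
    exact absurd (Finset.mem_range.2 (by omega)) h

/-- (C5) If the carry cocycle of an invariant `a` is a coboundary and `H¹(ker χ, C) = 0`
(elementary form), then `a` is a norm from the `ker χ`-invariants. -/
theorem exists_norm_of_carry_isCob₂ (hs : chiVal χ s = 1)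
    (hH1 : ∀ f : χ.ker → C, (∀ z w : χ.ker, f (z * w) = C.ρ (z : Γ) (f w) + f z) →
      ∃ y : C, ∀ z : χ.ker, f z = C.ρ (z : Γ) y - y)
    (ha : ∀ g : Γ, C.ρ g a = a)
    (h : IsCob₂ C (carry C χ a)) :
    ∃ b : C, (∀ z : Γ, χ z = 1 → C.ρ z b = b) ∧ a = partialNorm C s b n := by
  by_cases hn : n = 1
  · subst hn
    refine ⟨a, fun z _ => ha z, ?_⟩
    simp [partialNorm]
  obtain ⟨x, hx⟩ := h
  simp only [carry_apply] at hx
  have hker : ∀ z : Γ, χ z = 1 → chiVal χ z = 0 := fun z hz => by
    show Multiplicative.toAdd (χ z) = 0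
    rw [hz]; rfl
  -- the restriction of `x` to the kernel is a 1-cocycle
  obtain ⟨y, hy⟩ := hH1 (fun z => x z) (fun z w => by
    have := hx z w
    rw [hker z z.2, hker w w.2, carryNat_zero_left, zero_smul] at this
    show x ((z : Γ) * (w : Γ)) = _
    rw [sub_add_eq_add_sub, sub_eq_zero] at this
    exact this.symm)
  set x' : Γ → C := fun g => x g - (C.ρ g y - y) with hx'def
  have hx' : ∀ g h : Γ, C.ρ g (x' h) - x' (g * h) + x' g =
      carryNat n (chiVal χ g) (chiVal χ h) • a := by
    intro g h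
    rw [← hx g h]
    simp only [hx'def, map_sub, map_mul, Module.End.mul_apply]
    abel
  have hx'Z : ∀ z : Γ, χ z = 1 → x' z = 0 := by
    intro z hz
    have := hy ⟨z, hz⟩
    simp only [hx'def]
    rw [sub_eq_zero]
    exact this
  have h3a : ∀ g z : Γ, χ z = 1 → x' (g * z) = x' g := by
    intro g z hz
    have := hx' g z
    rw [hker z hz, carryNat_zero_right, zero_smul, hx'Z z hz, map_zero, zero_sub,
      neg_add_eq_zero] at this
    exact this
  have h3b : ∀ z g : Γ, χ z = 1 → x' (z * g) = C.ρ z (x' g) := by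
    intro z g hz
    have := hx' z g
    rw [hker z hz, carryNat_zero_left, zero_smul, hx'Z z hz, add_zero, sub_eq_zero] at this
    exact this.symm
  have h4 : ∀ z g : Γ, χ z = 1 → C.ρ z (x' g) = x' g := by
    intro z g hz
    rw [← h3b z g hz]
    have hconj : χ (g⁻¹ * z * g) = 1 := by
      rw [map_mul, map_mul, hz, mul_one, map_inv, inv_mul_cancel]
    have : z * g = g * (g⁻¹ * z * g) := by group
    rw [this, h3a g _ hconj]
  refine ⟨x' s, fun z hz => h4 z s hz, ?_⟩
  -- sum the cocycle relation over `(s^i, s)`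
  have hsum : ∑ i ∈ Finset.range n, (C.ρ (s ^ i) (x' s) - x' (s ^ i * s) + x' (s ^ i)) =
      ∑ i ∈ Finset.range n, carryNat n ((i : ℕ) : ZMod n) 1 • a := by
    refine Finset.sum_congr rfl fun i _ => ?_
    rw [hx' (s ^ i) s, chiVal_pow hs, hs]
  rw [← Finset.sum_smul, sum_carryNat_natCast_one hn, one_smul] at hsum
  rw [← hsum]
  have htel : ∑ i ∈ Finset.range n, (x' (s ^ i) - x' (s ^ i * s)) = x' (s ^ 0) - x' (s ^ n) := by
    have := Finset.sum_range_sub' (fun i => x' (s ^ i)) n
    simp only [pow_succ] at this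
    exact this
  have hsn : χ (s ^ n) = 1 := by
    have : chiVal χ (s ^ n) = 0 := by rw [chiVal_pow hs]; exact ZMod.natCast_self n
    exact this
  have e1 : ∑ i ∈ Finset.range n, (C.ρ (s ^ i) (x' s) - x' (s ^ i * s) + x' (s ^ i)) =
      partialNorm C s (x' s) n + ∑ i ∈ Finset.range n, (x' (s ^ i) - x' (s ^ i * s)) := by
    unfold partialNorm
    rw [← Finset.sum_add_distrib]
    refine Finset.sum_congr rfl fun i _ => ?_
    abel
  rw [e1, htel, pow_zero, hx'Z 1 (map_one χ), hx'Z _ hsn, sub_zero, add_zero]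

end Converse

/-! ## (C6) Change of level -/

section Level

/-- (C6)(i) Composing `χ` with multiplication by `d : ZMod n → ZMod (d * n)` does not change the
carry cocycle. -/
theorem carry_eq_of_val_eq_mul {d : ℕ} [NeZero (d * n)] (χ : Γ →* Multiplicative (ZMod n))
    (χ' : Γ →* Multiplicative (ZMod (d * n)))
    (h : ∀ g : Γ, (chiVal χ' g).val = d * (chiVal χ g).val) (a : C) :
    carry C χ' a = carry C χ a := by
  funext p
  rw [carry, carry]
  congr 1
  unfold carryNat
  have hd : 0 < d := by
    rcases Nat.eq_zero_or_pos d with h0 | h0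
    · exfalso; exact NeZero.ne (d * n) (by rw [h0, zero_mul])
    · exact h0
  rw [h, h, ← mul_add, Nat.mul_div_mul_left _ _ hd]

/-- (C6)(ii) If `χ̃` (of level `n * n'`) lifts `χ` (of level `n`), then
`carry χ̃ (n' • a) - carry χ a` is a coboundary. -/
theorem carry_lift_sub_carry_isCob₂ {n' : ℕ} [NeZero (n * n')]
    (χ : Γ →* Multiplicative (ZMod n)) (χt : Γ →* Multiplicative (ZMod (n * n')))
    (h : ∀ g : Γ, (chiVal χ g).val = (chiVal χt g).val % n) (a : C)
    (ha : ∀ g : Γ, C.ρ g a = a) :
    IsCob₂ C (carry C χt (n' • a) - carry C χ a) := by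
  have hn : 0 < n := Nat.pos_of_ne_zero (NeZero.ne n)
  refine ⟨fun g => ((chiVal χt g).val / n) • a, fun g hh => ?_⟩
  simp only [Pi.sub_apply, carry_apply, map_nsmul, ha, chiVal_mul]
  set i := (chiVal χt g).val with hi
  set j := (chiVal χt hh).val with hj
  have hr : (chiVal χt g + chiVal χt hh).val = (i + j) % (n * n') := ZMod.val_add _ _
  have hc' : carryNat (n * n') (chiVal χt g) (chiVal χt hh) = (i + j) / (n * n') := rfl
  have hc : carryNat n (chiVal χ g) (chiVal χ hh) = (i % n + j % n) / n := by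
    unfold carryNat; rw [h g, h hh]
  rw [hr, hc', hc]
  -- the identity of natural numbers
  have E : j / n + i / n + (i % n + j % n) / n =
      (i + j) % (n * n') / n + n' * ((i + j) / (n * n')) := by
    have h1 : (i + j) / n = i / n + j / n + (i % n + j % n) / n := by
      rw [Nat.add_div hn]
      split_ifs with hif
      · have : (i % n + j % n) / n = 1 := by
          have h1 := Nat.mod_lt i hn
          have h2 := Nat.mod_lt j hn
          apply Nat.div_eq_of_lt_le <;> omega
        rw [this]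
      · have : (i % n + j % n) / n = 0 := Nat.div_eq_of_lt (by omega)
        rw [this]
    have h2 : i + j = (i + j) % (n * n') + n * (n' * ((i + j) / (n * n'))) := by
      rw [← mul_assoc]; exact (Nat.mod_add_div _ _).symm
    have h3 : (i + j) / n = (i + j) % (n * n') / n + n' * ((i + j) / (n * n')) := by
      conv_lhs => rw [h2]
      rw [Nat.add_mul_div_left _ _ hn]
    omega
  have E' := congrArg (fun m : ℕ => m • a) E
  simp only [add_smul, mul_smul] at E'
  rw [smul_comm ((i + j) / (n * n')) n' a]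
  rw [sub_add_eq_add_sub, sub_eq_sub_iff_add_eq_add]
  rw [E']
  abel

end Level

/-! ## Classes in `H²` -/

section H2

/-- The carry cocycle as an element of `cocycles₂ C`. -/
def carryCocycle (χ : Γ →* Multiplicative (ZMod n)) (a : C.ρ.invariants) : cocycles₂ C :=
  ⟨carry C χ a, carry_mem_cocycles₂ C χ a (fun g => a.2 g)⟩

@[simp] lemma carryCocycle_coe (χ : Γ →* Multiplicative (ZMod n)) (a : C.ρ.invariants) :
    ((carryCocycle C χ a : cocycles₂ C) : Γ × Γ → C) = carry C χ a := rfl

/-- (C2) The class `δχ ∪ a ∈ H²(Γ, C)`, `k`-linear in `a`. -/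
noncomputable def carryH2 (χ : Γ →* Multiplicative (ZMod n)) : C.ρ.invariants →ₗ[k] H2 C :=
  (H2π C).hom ∘ₗ
    { toFun := carryCocycle C χ
      map_add' := fun a b => Subtype.ext (carry_add C χ a b)
      map_smul' := fun c a => Subtype.ext (carry_smul C χ c a) }

lemma carryH2_apply (χ : Γ →* Multiplicative (ZMod n)) (a : C.ρ.invariants) :
    carryH2 C χ a = H2π C (carryCocycle C χ a) := rfl

lemma carryH2_eq_zero_iff (χ : Γ →* Multiplicative (ZMod n)) (a : C.ρ.invariants) :
    carryH2 C χ a = 0 ↔ IsCob₂ C (carry C χ a) := by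
  rw [carryH2_apply, H2π_eq_zero_iff, isCob₂_iff_mem]
  rfl

end H2

end Fermat.Agent.S55.GlobalInv91
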