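import Fermat.Agent.S55.GlobalInv91.Gen
import Fermat.Agent.S55.CycLayer9.Main
import Fermat.Agent.S55.IdeleCoh54.CyclicCarry
import Fermat.Agent.S55.Descent99

/-!
# S55 / 35-GLOBAL-INV (helper91): (35-CYC-INST) the tower layer

`Γ` a group, `χ : Γ → ZMod n` a character with `χ s = 1` (the tower character of the layer
`K_m / K`), `Z = ker χ`.  The quotient `Γ ⧸ Z` is cyclic of order `n`, generated by the class of
`s`; the induced character `χbar` is an isomorphism.

* `infl₂_carryH2`: the inflation of the carry class of the layer is the carry class of `Γ`.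
* `tower_layer`: from helper9's `cyclic_layer` for the sequence `E^Z → J^Z → C^Z` of
  `Γ ⧸ Z`-modules and helper54's `carryH2_surjective`: the hypotheses `hrecZ`, `hhasseZ`,
  `(a, c', hc', hπ, hc)` of `Gen.lean`, from
  (i) reciprocity on tower classes (34), (ii) `|H²(Γ ⧸ Z, C^Z)| ∣ n` (33), (iii) a class with
  invariant of exact order `n` (a place of full local degree), (iv) Hilbert 90.
-/

set_option autoImplicit false
set_option linter.unusedSectionVars false
set_option linter.style.haveILetI false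

namespace Fermat.Agent.S55.GlobalInv91

open groupCohomology CategoryTheory Rep Limits

universe u

variable {k Γ : Type u} [CommRing k] [Group Γ] {n : ℕ} [NeZero n]
  (χ : Γ →* Multiplicative (ZMod n))

/-! ### the cyclic quotient `Γ ⧸ ker χ` -/

/-- the induced (injective) character of `Γ ⧸ ker χ`. -/
noncomputable abbrev chiBar : Γ ⧸ χ.ker →* Multiplicative (ZMod n) := QuotientGroup.kerLift χ

lemma chiBar_mk (g : Γ) : chiBar χ (g : Γ ⧸ χ.ker) = χ g := QuotientGroup.kerLift_mk χ g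

lemma chiBar_injective : Function.Injective (chiBar χ) := QuotientGroup.kerLift_injective χ

lemma chiVal_chiBar_mk (g : Γ) : chiVal (chiBar χ) (g : Γ ⧸ χ.ker) = chiVal χ g := by
  show Multiplicative.toAdd (chiBar χ (g : Γ ⧸ χ.ker)) = Multiplicative.toAdd (χ g)
  rw [chiBar_mk]

/-- `Γ ⧸ ker χ` is commutative. -/
@[instance_reducible]
noncomputable def commQ : CommGroup (Γ ⧸ χ.ker) :=
  { (inferInstance : Group (Γ ⧸ χ.ker)) with
    mul_comm := fun a b => chiBar_injective χ (by rw [map_mul, map_mul, mul_comm]) }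

/-- `Γ ⧸ ker χ` is finite. -/
@[instance_reducible]
noncomputable def fintypeQ : Fintype (Γ ⧸ χ.ker) :=
  Fintype.ofInjective (chiBar χ) (chiBar_injective χ)

variable {χ} {s : Γ}

lemma chiBar_pow (hs : chiVal χ s = 1) (j : ℕ) :
    chiBar χ ((s : Γ ⧸ χ.ker) ^ j) = Multiplicative.ofAdd (j : ZMod n) := by
  rw [map_pow, chiBar_mk]
  have : χ s = Multiplicative.ofAdd (1 : ZMod n) := by
    apply Multiplicative.toAdd.injective
    exact hs
  rw [this, ← ofAdd_nsmul, nsmul_eq_mul, mul_one]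

lemma mem_zpowers_mk (hs : chiVal χ s = 1) (x : Γ ⧸ χ.ker) :
    x ∈ Subgroup.zpowers (s : Γ ⧸ χ.ker) := by
  refine ⟨((Multiplicative.toAdd (chiBar χ x)).val : ℤ), ?_⟩
  apply chiBar_injective χ
  show chiBar χ ((s : Γ ⧸ χ.ker) ^ ((Multiplicative.toAdd (chiBar χ x)).val : ℤ)) = chiBar χ x
  rw [zpow_natCast, chiBar_pow hs, ZMod.natCast_zmod_val]
  rfl

lemma mk_pow_n (hs : chiVal χ s = 1) : (s : Γ ⧸ χ.ker) ^ n = 1 := by
  apply chiBar_injective χ
  rw [chiBar_pow hs, map_one, ZMod.natCast_self]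
  rfl

lemma card_quot (hs : chiVal χ s = 1) : Nat.card (Γ ⧸ χ.ker) = n := by
  have hbij : Function.Bijective (chiBar χ) := by
    refine ⟨chiBar_injective χ, fun y => ?_⟩
    refine ⟨(s : Γ ⧸ χ.ker) ^ (Multiplicative.toAdd y).val, ?_⟩
    rw [chiBar_pow hs, ZMod.natCast_zmod_val]
    rfl
  rw [Nat.card_congr (Equiv.ofBijective _ hbij)]
  show Nat.card (ZMod n) = n
  rw [Nat.card_eq_fintype_card, ZMod.card]

/-! ### invariants of the layer -/

variable (χ)

/-- a `Γ`-invariant element as a `Γ ⧸ Z`-invariant element of `A^Z`. -/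
def toQInv (A : Rep.{u, u, u} k Γ) (a : A.ρ.invariants) :
    (A.quotientToInvariants χ.ker).ρ.invariants :=
  ⟨⟨(a : A), fun z => a.2 z⟩, fun g => by
    induction g using QuotientGroup.induction_on with
    | H g' => exact Subtype.ext (a.2 g')⟩

/-- a `Γ ⧸ Z`-invariant element of `A^Z` as a `Γ`-invariant element. -/
def ofQInv (A : Rep.{u, u, u} k Γ) (a : (A.quotientToInvariants χ.ker).ρ.invariants) :
    A.ρ.invariants :=
  ⟨((a : (A.quotientToInvariants χ.ker).V) : A.V), fun g => by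
    have := a.2 (g : Γ ⧸ χ.ker)
    exact congrArg (fun y : (A.quotientToInvariants χ.ker).V => (y : A.V)) this⟩

lemma toQInv_ofQInv (A : Rep.{u, u, u} k Γ) (a : (A.quotientToInvariants χ.ker).ρ.invariants) :
    toQInv χ A (ofQInv χ A a) = a := rfl

/-- **Inflation of the carry class of the layer.** -/
theorem infl₂_carryH2 (A : Rep.{u, u, u} k Γ) (a : A.ρ.invariants) :
    (infl₂ A χ.ker).hom (carryH2 (A.quotientToInvariants χ.ker) (chiBar χ) (toQInv χ A a)) =
      carryH2 A χ a := by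
  rw [carryH2_apply, carryH2_apply]
  erw [H2π_comp_map_apply]
  congr 1

/-! ### the tower layer -/

section Layer

open Fermat.Agent.S55.IdeleCoh54.CyclicCarry

variable {χ} {s : Γ}

lemma coe_partialNorm_quot (A : Rep.{u, u, u} k Γ) (b : (A.quotientToInvariants χ.ker).V)
    (m : ℕ) :
    ((partialNorm (A.quotientToInvariants χ.ker) (s : Γ ⧸ χ.ker) b m :
      (A.quotientToInvariants χ.ker).V) : A.V) = partialNorm A s (b : A.V) m := by
  unfold partialNorm
  rw [← Submodule.subtype_apply, map_sum]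
  refine Finset.sum_congr rfl fun i _ => ?_
  rw [← QuotientGroup.mk_pow]
  rfl

/-- **The tower layer.** -/
theorem tower_layer (hs : chiVal χ s = 1) (X : ShortComplex (Rep.{u, u, u} k Γ))
    (hXZ : (X.map (quotientToInvariantsFunctor k χ.ker)).ShortExact)
    {T : Type*} [AddCommGroup T] (invJ : H2 X.X₂ →+ T)
    (hrecT : ∀ b : X.X₁.ρ.invariants, invJ ((push₂ X.f).hom (carryH2 X.X₁ χ b)) = 0)
    (hH90 : IsZero (groupCohomology (X.X₁.quotientToInvariants χ.ker) 1))
    (hcard : Nat.card (H2 (X.X₃.quotientToInvariants χ.ker)) ∣ n)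
    (c₀ : H2 (X.X₂.quotientToInvariants χ.ker))
    (hc₀ : addOrderOf (invJ ((infl₂ X.X₂ χ.ker).hom c₀)) = n) :
    (∀ y : H2 (X.X₁.quotientToInvariants χ.ker),
      invJ ((push₂ X.f).hom ((infl₂ X.X₁ χ.ker).hom y)) = 0) ∧
    (∀ y : H2 (X.X₂.quotientToInvariants χ.ker), invJ ((infl₂ X.X₂ χ.ker).hom y) = 0 →
      ∃ e' : H2 (X.X₁.quotientToInvariants χ.ker), (pushQ₂ X.f χ.ker).hom e' = y) ∧
    ∃ (a : X.X₃.ρ.invariants) (c' : H2 X.X₂), n • c' = 0 ∧
      (push₂ X.g).hom c' = carryH2 X.X₃ χ a ∧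
      ∀ m : ℕ, (∃ b : X.X₃, (∀ z : Γ, χ z = 1 → X.X₃.ρ z b = b) ∧
        m • (a : X.X₃) = partialNorm X.X₃ s b n) → n ∣ m := by
  have hsbar : chiVal (chiBar χ) (s : Γ ⧸ χ.ker) = 1 := by rw [chiVal_chiBar_mk]; exact hs
  -- (O1) reciprocity on the layer
  have hO1 : ∀ y : H2 (X.X₁.quotientToInvariants χ.ker),
      invJ ((push₂ X.f).hom ((infl₂ X.X₁ χ.ker).hom y)) = 0 := by
    intro y
    obtain ⟨b, rfl⟩ := carryH2_surjective (X.X₁.quotientToInvariants χ.ker) (χ := chiBar χ)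
      (g := (s : Γ ⧸ χ.ker)) (mem_zpowers_mk hs) (mk_pow_n hs) hsbar y
    rw [← toQInv_ofQInv χ X.X₁ b, infl₂_carryH2]
    exact hrecT _
  refine ⟨hO1, ?_⟩
  letI : CommGroup (Γ ⧸ χ.ker) := commQ χ
  letI : Fintype (Γ ⧸ χ.ker) := fintypeQ χ
  let invJ' : H2 (X.X₂.quotientToInvariants χ.ker) →+ T :=
    invJ.comp (infl₂ X.X₂ χ.ker).hom.toAddMonoidHom
  have hrec' : ∀ e : H2 (X.X₁.quotientToInvariants χ.ker),
      invJ' ((pushQ₂ X.f χ.ker).hom e) = 0 := by
    intro e
    show invJ ((infl₂ X.X₂ χ.ker).hom ((pushQ₂ X.f χ.ker).hom e)) = 0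
    rw [← push₂_infl₂]
    exact hO1 e
  haveI hfin : Finite (H2 (X.X₃.quotientToInvariants χ.ker)) :=
    Nat.finite_of_card_ne_zero fun h0 => NeZero.ne n (by
      rw [h0] at hcard
      exact zero_dvd_iff.1 hcard)
  haveI : Finite (H2 (X.map (quotientToInvariantsFunctor k χ.ker)).X₃) := hfin
  obtain ⟨invC, hinvC, hinj, -, -, -, hhasse⟩ :=
    CycLayer9.cyclic_layer (X := X.map (quotientToInvariantsFunctor k χ.ker)) hXZ
      (s : Γ ⧸ χ.ker) (mem_zpowers_mk hs) hH90 invJ' hrec' hcard c₀ hc₀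
  refine ⟨fun y hy => (hhasse y).1 hy, ?_⟩
  -- (O3)
  set γ' : H2 (X.X₃.quotientToInvariants χ.ker) := (pushQ₂ X.g χ.ker).hom c₀ with hγ'
  obtain ⟨abar, habar⟩ := carryH2_surjective (X.X₃.quotientToInvariants χ.ker) (χ := chiBar χ)
    (g := (s : Γ ⧸ χ.ker)) (mem_zpowers_mk hs) (mk_pow_n hs) hsbar γ'
  have hinvγ : invC γ' = invJ ((infl₂ X.X₂ χ.ker).hom c₀) := hinvC c₀
  have hordγ : addOrderOf γ' = n := by
    have h := addOrderOf_injective invC hinj γ'
    rw [hinvγ] at h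
    exact h.symm.trans hc₀
  have hnc₀ : n • c₀ = 0 := by
    have h := InfRes9.card_smul_eq_zero_two (X.X₂.quotientToInvariants χ.ker) c₀
    rwa [card_quot hs] at h
  refine ⟨ofQInv χ X.X₃ abar, (infl₂ X.X₂ χ.ker).hom c₀, ?_, ?_, ?_⟩
  · rw [← map_nsmul, hnc₀, map_zero]
  · rw [push₂_infl₂, ← hγ', ← habar]
    have h := infl₂_carryH2 χ X.X₃ (ofQInv χ X.X₃ abar)
    rw [toQInv_ofQInv] at h
    exact h
  · rintro m ⟨b, hbZ, hmb⟩
    let bbar : (X.X₃.quotientToInvariants χ.ker).V := ⟨b, fun z => hbZ z z.2⟩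
    have hnorm : m • (abar : (X.X₃.quotientToInvariants χ.ker).V) =
        partialNorm (X.X₃.quotientToInvariants χ.ker) (s : Γ ⧸ χ.ker) bbar n := by
      apply Subtype.ext
      rw [coe_partialNorm_quot]
      exact hmb
    have hcob := carry_isCob₂_of_norm (C := X.X₃.quotientToInvariants χ.ker) (χ := chiBar χ)
      (s := (s : Γ ⧸ χ.ker)) (b := bbar) hsbar (fun z hz => by
        have : z = 1 := chiBar_injective χ (by rw [hz, map_one])
        rw [this, map_one]; rfl)
    rw [← hnorm] at hcob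
    have h0 : carryH2 (X.X₃.quotientToInvariants χ.ker) (chiBar χ) (m • abar) = 0 := by
      rw [carryH2_eq_zero_iff]
      exact hcob
    rw [map_nsmul, habar] at h0
    rw [← hordγ]
    exact addOrderOf_dvd_of_nsmul_eq_zero h0

/-- `H¹(Γ ⧸ S, A^S)` vanishes when `H¹(Γ, A)` does (inflation is injective in degree one). -/
theorem isZero_H1_quot (A : Rep.{u, u, u} k Γ) (S : Subgroup Γ) [S.Normal]
    (h : IsZero (groupCohomology A 1)) :
    IsZero (groupCohomology (A.quotientToInvariants S) 1) := by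
  have hs := ModuleCat.subsingleton_of_isZero h
  have hinj : Function.Injective (H1InfRes A S).f.hom :=
    (ModuleCat.mono_iff_injective (H1InfRes A S).f).1 inferInstance
  haveI : Subsingleton (groupCohomology (A.quotientToInvariants S) 1) :=
    ⟨fun x y => hinj (hs.elim _ _)⟩
  exact ModuleCat.isZero_of_subsingleton _

/-- if `p ^ m` kills `M`, then `M` is its own `p`-primary part. -/
theorem card_dvd_of_card_pPrimary_dvd {M : Type*} [AddCommGroup M] (p m : ℕ)
    (hkill : ∀ x : M, p ^ m • x = 0) {N : ℕ}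
    (h : Nat.card (InfRes9.pPrimary p M) ∣ N) : Nat.card M ∣ N := by
  have htop : InfRes9.pPrimary p M = ⊤ := by
    ext x
    exact ⟨fun _ => AddSubgroup.mem_top x, fun _ => ⟨m, hkill x⟩⟩
  rw [htop] at h
  rwa [Nat.card_congr (AddSubgroup.topEquiv (G := M)).toEquiv] at h

/-- **The tower layer**, with the exactness of the layer sequence and Hilbert 90 of the layer
derived from `H¹(Z, E) = 0`, `H¹(Γ, E) = 0`, and the bound on `H²` of the layer in `p`-primary
form (`n = p ^ m`). -/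
theorem tower_layer_of_shortExact (hs : chiVal χ s = 1) {X : ShortComplex (Rep.{u, u, u} k Γ)}
    (hX : X.ShortExact)
    (h1Z : IsZero (groupCohomology (Rep.res χ.ker.subtype X.X₁) 1))
    (h1 : IsZero (groupCohomology X.X₁ 1))
    {T : Type*} [AddCommGroup T] (invJ : H2 X.X₂ →+ T)
    (hrecT : ∀ b : X.X₁.ρ.invariants, invJ ((push₂ X.f).hom (carryH2 X.X₁ χ b)) = 0)
    (p m : ℕ) (hn : n = p ^ m)
    (hcard : Nat.card (InfRes9.pPrimary p (H2 (X.X₃.quotientToInvariants χ.ker))) ∣ n)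
    (c₀ : H2 (X.X₂.quotientToInvariants χ.ker))
    (hc₀ : addOrderOf (invJ ((infl₂ X.X₂ χ.ker).hom c₀)) = n) :
    (∀ y : H2 (X.X₁.quotientToInvariants χ.ker),
      invJ ((push₂ X.f).hom ((infl₂ X.X₁ χ.ker).hom y)) = 0) ∧
    (∀ y : H2 (X.X₂.quotientToInvariants χ.ker), invJ ((infl₂ X.X₂ χ.ker).hom y) = 0 →
      ∃ e' : H2 (X.X₁.quotientToInvariants χ.ker), (pushQ₂ X.f χ.ker).hom e' = y) ∧
    ∃ (a : X.X₃.ρ.invariants) (c' : H2 X.X₂), n • c' = 0 ∧
      (push₂ X.g).hom c' = carryH2 X.X₃ χ a ∧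
      ∀ m' : ℕ, (∃ b : X.X₃, (∀ z : Γ, χ z = 1 → X.X₃.ρ z b = b) ∧
        m' • (a : X.X₃) = partialNorm X.X₃ s b n) → n ∣ m' := by
  haveI : Finite (Γ ⧸ χ.ker) := Nat.finite_of_card_ne_zero (by
    rw [card_quot hs]; exact NeZero.ne n)
  refine tower_layer hs X (Descent99.invariants_shortExact χ.ker X hX h1Z) invJ hrecT
    (isZero_H1_quot X.X₁ χ.ker h1) ?_ c₀ hc₀
  refine card_dvd_of_card_pPrimary_dvd p m (fun x => ?_) hcard
  have h := InfRes9.card_smul_eq_zero_two (X.X₃.quotientToInvariants χ.ker) x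
  rw [card_quot hs] at h
  rw [← hn]
  exact h

end Layer

end Fermat.Agent.S55.GlobalInv91
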