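import Fermat.Agent.S55.GlobalInv91.Gen

/-!
# S55 / 35-GLOBAL-INV (helper91): from `p`-primary vanishing of `H¹` to the elementary weak form

The dévissage (33, `SubQuot99.subquot_pPart` / `Adapt77.pPart_of_out`) gives, for a finite group `Z`
which is not a `p`-group, only `∀ x : H¹(Z, A), (∃ j, p ^ j • x = 0) → x = 0`.  Since `H¹(Z, A)` is
killed by `|Z| = p ^ b * m'`, it is then killed by `m'`; in elementary form: `m' •` any 1-cocycle is
a coboundary.  This is the hypothesis `hH1Z` of `exists_fundamental_class_of_inv` / `alpha_trans`,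
and (through the long exact sequence) the hypothesis `hker` of `reciprocity_of_tower`.
-/

set_option autoImplicit false
set_option linter.unusedSectionVars false

namespace Fermat.Agent.S55.GlobalInv91

open groupCohomology CategoryTheory Rep Limits

universe u

variable {k : Type u} [CommRing k]

/-- `H¹(Z, A)` is killed by `m'` when its `p`-primary part vanishes and `|Z| = p ^ b * m'`. -/
theorem nsmul_H1_eq_zero_of_pPrimary {Z : Type u} [Group Z] [Finite Z] (A : Rep.{u, u, u} k Z)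
    (p : ℕ) {b m' : ℕ} (hcard : Nat.card Z = p ^ b * m')
    (h1 : ∀ x : H1 A, (∃ j : ℕ, p ^ j • x = 0) → x = 0) (x : H1 A) : m' • x = 0 := by
  apply h1
  refine ⟨b, ?_⟩
  rw [← mul_smul, ← hcard]
  exact InfRes9.card_smul_eq_zero_one A x

/-- **Elementary weak form**: `m' •` any 1-cocycle of `Z` is a coboundary. -/
theorem exists_nsmul_eq_coboundary_of_pPrimary {Z : Type u} [Group Z] [Finite Z]
    (A : Rep.{u, u, u} k Z) (p : ℕ) {b m' : ℕ} (hcard : Nat.card Z = p ^ b * m')
    (h1 : ∀ x : H1 A, (∃ j : ℕ, p ^ j • x = 0) → x = 0)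
    (f : Z → A) (hf : ∀ z w : Z, f (z * w) = A.ρ z (f w) + f z) :
    ∃ y : A, ∀ z : Z, m' • f z = A.ρ z y - y := by
  have hmem : f ∈ cocycles₁ A := by
    rw [mem_cocycles₁_iff]
    intro g h
    exact hf g h
  have h0 : m' • H1π A ⟨f, hmem⟩ = 0 :=
    nsmul_H1_eq_zero_of_pPrimary A p hcard h1 _
  rw [← map_nsmul, H1π_eq_zero_iff] at h0
  obtain ⟨y, hy⟩ := h0
  refine ⟨y, fun z => ?_⟩
  have := congrFun hy z
  simp only [d₀₁_hom_apply] at this
  rw [this]
  rfl

/-- The same for the kernel of a character of `Γ`, in the literal shape of the hypothesis `hH1Z`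
of `exists_fundamental_class_of_inv`. -/
theorem hH1Z_of_pPrimary {Γ : Type u} [Group Γ] (C : Rep.{u, u, u} k Γ) {n : ℕ}
    (χ : Γ →* Multiplicative (ZMod n)) [Finite χ.ker] (p : ℕ) {b m' : ℕ}
    (hcard : Nat.card χ.ker = p ^ b * m')
    (h1 : ∀ x : H1 (res χ.ker.subtype C), (∃ j : ℕ, p ^ j • x = 0) → x = 0) :
    ∀ f : χ.ker → C, (∀ z w : χ.ker, f (z * w) = C.ρ (z : Γ) (f w) + f z) →
      ∃ y : C, ∀ z : χ.ker, m' • f z = C.ρ (z : Γ) y - y :=
  fun f hf => exists_nsmul_eq_coboundary_of_pPrimary (res χ.ker.subtype C) p hcard h1 f hf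

/-- The kernel of `H²(Z, E) → H²(Z, J)` is killed by `m'` when `H¹(Z, C)` is: literal shape of the
hypothesis `hker` of `reciprocity_of_tower`, for a short exact sequence over the group `Z`. -/
theorem hker_of_shortExact {Z : Type u} [Group Z] {X : ShortComplex (Rep.{u, u, u} k Z)}
    (hX : X.ShortExact) {m' : ℕ} (h1 : ∀ x : H1 X.X₃, m' • x = 0)
    (x : H2 X.X₁) (hx : (map (MonoidHom.id Z) X.f 2).hom x = 0) : m' • x = 0 := by
  have hex := mapShortComplex₁_exact hX (i := 1) (j := 2) rfl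
  rw [ShortComplex.moduleCat_exact_iff_ker_sub_range] at hex
  obtain ⟨h, hh⟩ := hex (LinearMap.mem_ker.2 hx)
  let h' : H1 X.X₃ := h
  have hh' : (δ hX 1 2 rfl).hom h' = x := hh
  rw [← hh', ← map_nsmul, h1 h', map_zero]

/-- The same for a subgroup `Z` of `Γ` and a short exact sequence over `Γ`: literally `hker`. -/
theorem hker_res {Γ : Type u} [Group Γ] {X : ShortComplex (Rep.{u, u, u} k Γ)}
    (hX : X.ShortExact) (Z : Subgroup Γ) {m' : ℕ}
    (h1 : ∀ x : H1 (res Z.subtype X.X₃), m' • x = 0)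
    (x : H2 (res Z.subtype X.X₁)) (hx : (pushS₂ X.f Z).hom x = 0) : m' • x = 0 :=
  hker_of_shortExact (X := X.map (resFunctor Z.subtype)) ((shortExact_res Z.subtype).2 hX) h1 x hx

end Fermat.Agent.S55.GlobalInv91
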