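import Fermat.Agent.S55.GlobalInv91.Desc
import Fermat.Agent.S55.GlobalInv91.CycInst
import Fermat.Agent.S55.GlobalInv91.WeakH1

/-!
# S55 / 35-GLOBAL-INV (helper91): (35-GEN) at a finite level, in descent form

`Γ` a finite group (`Gal(L'/K)`), `Y : E ⟶ J ⟶ C` a short complex in `Rep k Γ` (the idele
sequence of `L'`), `χ : Γ → ZMod (p ^ m)` the tower character, `invJ` the sum of the local invariants
on `H²(Γ, J)`.  `FinLayerHyp Y p m χ invJ` = the arithmetic of the tower layer (the same fields as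
`TowerLayerHyp`, for the group `Γ` itself: no layer functor).

For a descent pair `q : Γ → Q` (`Q = Gal(L/K)`), `φ : Res_q B ⟶ Y.X_i` (`B = X_i(L)`), the three
statements of 35-GEN for classes of `H²(Q, B)` and the finite-level transition maps
`groupCohomology.map q φ 2`:

* `FinLayerHyp.beta_to_desc`, `FinLayerHyp.beta_from_desc`, `FinLayerHyp.alpha_desc`.

These are the hypotheses of helper99's `Pres.transfer_Bto / transfer_Bfrom / transfer_A` for
families of descent data (`LimDesc99.Family`, `trans₂_eq_map`).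
-/

set_option autoImplicit false
set_option linter.unusedSectionVars false
set_option linter.style.haveILetI false

namespace Fermat.Agent.S55.GlobalInv91

open groupCohomology CategoryTheory Rep Limits

universe u

variable {k Γ : Type u} [CommRing k] [Group Γ] (Y : ShortComplex (Rep.{u, u, u} k Γ))
  {T : Type*} [AddCommGroup T] (p : ℕ) [Fact p.Prime]

/-- The arithmetic of the tower layer `χ : Γ → ZMod (p ^ m)` over the finite group `Γ`. -/
structure FinLayerHyp (m : ℕ) (χ : Γ →* Multiplicative (ZMod (p ^ m)))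
    (invJ : H2 Y.X₂ →+ T) : Prop where
  /-- `Γ` is finite -/
  finite : Finite Γ
  /-- `0 → E → J → C → 0` is exact -/
  shortExact : Y.ShortExact
  /-- `χ` takes the value `1` -/
  exists_s : ∃ s : Γ, chiVal χ s = 1
  /-- Hilbert 90 -/
  h1E : IsZero (groupCohomology Y.X₁ 1)
  /-- Hilbert 90 on the kernel of the tower character -/
  h1ZE : IsZero (groupCohomology (res χ.ker.subtype Y.X₁) 1)
  /-- `H¹(Z, J) = 0` -/
  h1ZJ : IsZero (groupCohomology (res χ.ker.subtype Y.X₂) 1)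
  /-- the `p`-primary part of `H¹(Z, C)` vanishes (33) -/
  h1ZC : ∀ x : H1 (res χ.ker.subtype Y.X₃), (∃ j : ℕ, p ^ j • x = 0) → x = 0
  /-- reciprocity on the carry classes of the tower (34) -/
  recT : ∀ b : Y.X₁.ρ.invariants, invJ ((push₂ Y.f).hom (carryH2 Y.X₁ χ b)) = 0
  /-- the second inequality for the tower layer (32) -/
  cardZ : Nat.card (InfRes9.pPrimary p (H2 (Y.X₃.quotientToInvariants χ.ker))) ∣ p ^ m
  /-- a class of full local degree -/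
  fullDeg : ∃ c₀ : H2 (Y.X₂.quotientToInvariants χ.ker),
    addOrderOf (invJ ((infl₂ Y.X₂ χ.ker).hom c₀)) = p ^ m

namespace FinLayerHyp

variable {Y p} {m : ℕ} {χ : Γ →* Multiplicative (ZMod (p ^ m))} {invJ : H2 Y.X₂ →+ T}

/-- the prime-to-`p` part `m'` of `|Z|` kills `H¹(Z, C)`: the hypotheses `hH1Z` and `hker`. -/
theorem exists_coprime (h : FinLayerHyp Y p m χ invJ) :
    ∃ m' : ℕ, Nat.Coprime m' p ∧
      (∀ f : χ.ker → Y.X₃, (∀ z w : χ.ker, f (z * w) = Y.X₃.ρ (z : Γ) (f w) + f z) →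
        ∃ y : Y.X₃, ∀ z : χ.ker, m' • f z = Y.X₃.ρ (z : Γ) y - y) ∧
      (∀ x : H2 (res χ.ker.subtype Y.X₁), (pushS₂ Y.f χ.ker).hom x = 0 → m' • x = 0) := by
  haveI := h.finite
  have hp : p.Prime := Fact.out
  have hne : Nat.card χ.ker ≠ 0 := Nat.card_pos.ne'
  obtain ⟨b, m', hm', hcard⟩ := Nat.exists_eq_pow_mul_and_not_dvd hne p hp.ne_one
  have hcop : Nat.Coprime m' p := ((Nat.Prime.coprime_iff_not_dvd hp).2 hm').symm
  refine ⟨m', hcop, ?_, ?_⟩
  · exact hH1Z_of_pPrimary Y.X₃ χ p hcard h.h1ZC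
  · intro x hx
    exact hker_res h.shortExact χ.ker
      (fun y => nsmul_H1_eq_zero_of_pPrimary (res χ.ker.subtype Y.X₃) p hcard h.h1ZC y) x hx

/-- the outputs of the tower layer. -/
theorem layer (h : FinLayerHyp Y p m χ invJ) :
    (∀ y : H2 (Y.X₁.quotientToInvariants χ.ker),
      invJ ((push₂ Y.f).hom ((infl₂ Y.X₁ χ.ker).hom y)) = 0) ∧
    (∀ y : H2 (Y.X₂.quotientToInvariants χ.ker), invJ ((infl₂ Y.X₂ χ.ker).hom y) = 0 →
      ∃ e' : H2 (Y.X₁.quotientToInvariants χ.ker), (pushQ₂ Y.f χ.ker).hom e' = y) ∧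
    ∃ s : Γ, chiVal χ s = 1 ∧
    ∃ (a : Y.X₃.ρ.invariants) (c' : H2 Y.X₂), p ^ m • c' = 0 ∧
      (push₂ Y.g).hom c' = carryH2 Y.X₃ χ a ∧
      ∀ m' : ℕ, (∃ b : Y.X₃, (∀ z : Γ, χ z = 1 → Y.X₃.ρ z b = b) ∧
        m' • (a : Y.X₃) = partialNorm Y.X₃ s b (p ^ m)) → p ^ m ∣ m' := by
  obtain ⟨s, hs⟩ := h.exists_s
  obtain ⟨c₀, hc₀⟩ := h.fullDeg
  obtain ⟨h1, h2, h3⟩ := tower_layer_of_shortExact hs h.shortExact h.h1ZE h.h1E invJ h.recT
    p m rfl h.cardZ c₀ hc₀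
  exact ⟨h1, h2, s, hs, h3⟩

variable {Q : Type u} [Group Q] {q : Γ →* Q}

/-- **(β→)**, descent form. -/
theorem beta_to_desc (h : FinLayerHyp Y p m χ invJ) {B : Rep.{u, u, u} k Q}
    {φ : res q B ⟶ Y.X₁} (hd : IsDesc q φ) (e : H2 B) {j : ℕ} (he : p ^ j • e = 0)
    (hsplit : (res₂ Y.X₂ χ.ker).hom ((push₂ Y.f).hom ((map q φ 2).hom e)) = 0) :
    invJ ((push₂ Y.f).hom ((map q φ 2).hom e)) = 0 := by
  obtain ⟨m', hm', -, hker⟩ := h.exists_coprime
  rw [← hd.infl₂_descIso_inv_apply] at hsplit ⊢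
  exact reciprocity_of_tower Y.f q.ker χ.ker p hm' invJ h.h1ZE hker h.layer.1
    (hd.descIso.inv.hom e) (by rw [← map_nsmul, he, map_zero]) hsplit

/-- **(β←)**, descent form. -/
theorem beta_from_desc (h : FinLayerHyp Y p m χ invJ) {B : Rep.{u, u, u} k Q}
    {φ : res q B ⟶ Y.X₂} (hd : IsDesc q φ) (x : H2 B)
    (hx : invJ ((map q φ 2).hom x) = 0)
    (hsplit : (res₂ Y.X₂ χ.ker).hom ((map q φ 2).hom x) = 0) :
    ∃ e : H2 Y.X₁, (push₂ Y.f).hom e = (map q φ 2).hom x := by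
  rw [← hd.infl₂_descIso_inv_apply] at hx hsplit ⊢
  exact hasse_of_tower Y.f q.ker χ.ker invJ h.h1ZJ h.layer.2.1 (hd.descIso.inv.hom x) hx hsplit

/-- **(α)**, descent form; `p ^ m` the exact power of `p` in `|Q| = [Γ : N]`. -/
theorem alpha_desc (h : FinLayerHyp Y p m χ invJ) {B : Rep.{u, u, u} k Q}
    {φ : res q B ⟶ Y.X₃} (hd : IsDesc q φ)
    (hb : Nat.card (InfRes9.pPrimary p (H2 B)) ∣ p ^ m)
    (hidx : p ^ m ∣ q.ker.index)
    (h1N : IsZero (groupCohomology (res q.ker.subtype Y.X₃) 1))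
    (invJN : H2 (res q.ker.subtype Y.X₂) →+ T)
    (hJ1 : ∀ y : H2 Y.X₂, invJN ((res₂ Y.X₂ q.ker).hom y) = q.ker.index • invJ y)
    (invCN : H2 (res q.ker.subtype Y.X₃) →+ T) (hinjN : Function.Injective invCN)
    (hcompN : ∀ x : H2 (res q.ker.subtype Y.X₂),
      invCN ((pushS₂ Y.g q.ker).hom x) = invJN x) :
    (∃ (a : Y.X₃.ρ.invariants) (γ : H2 B),
      (map q φ 2).hom γ = carryH2 Y.X₃ χ a ∧ addOrderOf γ = p ^ m ∧
      ∀ x : H2 B, (∃ j : ℕ, p ^ j • x = 0) → ∃ j : ℤ, x = j • γ) ∧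
    ∀ x : H2 B, (∃ j : ℕ, p ^ j • x = 0) →
      ∃ y : H2 Y.X₂, p ^ m • y = 0 ∧ (push₂ Y.g).hom y = (map q φ 2).hom x := by
  obtain ⟨m', hm', hH1Z, -⟩ := h.exists_coprime
  obtain ⟨-, -, s, hs, a, c', hc', hπ, hc⟩ := h.layer
  have hb' : Nat.card (InfRes9.pPrimary p (H2 (Y.X₃.quotientToInvariants q.ker))) ∣ p ^ m := by
    rw [Nat.card_congr (hd.pPrimaryEquiv p)]; exact hb
  haveI : Finite (InfRes9.pPrimary p (H2 (Y.X₃.quotientToInvariants q.ker))) :=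
    Nat.finite_of_card_ne_zero fun h0 => NeZero.ne (p ^ m) (by
      rw [h0] at hb'
      exact zero_dvd_iff.1 hb')
  obtain ⟨γ', hγ1, hγ2, hγ3, h2⟩ := exists_fundamental_class_of_inv Y.g q.ker p rfl h1N χ s hs
    (Nat.Coprime.pow_right m hm') hH1Z hb' invJ invJN hJ1 invCN hinjN hcompN hidx a c' hc' hπ hc
  refine ⟨⟨a, hd.descIso.hom.hom γ', ?_, ?_, ?_⟩, ?_⟩
  · rw [← hd.infl₂_apply]; exact hγ1
  · rw [← hγ2]
    have hinj : Function.Injective (hd.descIso.hom.hom : _ → _) := fun x y hxy => by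
      rw [← hd.descIso_inv_hom_apply x, ← hd.descIso_inv_hom_apply y, hxy]
    exact addOrderOf_injective (hd.descIso.hom.hom : _ →ₗ[k] _).toAddMonoidHom hinj γ'
  · intro x ⟨j, hj⟩
    obtain ⟨j', hj'⟩ := hγ3 (hd.descIso.inv.hom x) ⟨j, by rw [← map_nsmul, hj, map_zero]⟩
    refine ⟨j', ?_⟩
    rw [← map_zsmul, ← hj', hd.descIso_hom_inv_apply]
  · intro x ⟨j, hj⟩
    obtain ⟨y, hy, hy'⟩ := h2 (hd.descIso.inv.hom x) ⟨j, by rw [← map_nsmul, hj, map_zero]⟩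
    exact ⟨y, hy, by rw [hy', hd.infl₂_descIso_inv_apply]⟩

end FinLayerHyp

end Fermat.Agent.S55.GlobalInv91
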