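import Fermat.Agent.S55.GlobalInv91.Desc
import Fermat.Agent.S55.LimDesc99.Datum

/-!
# S55 / 35-GLOBAL-INV (helper91): two descent data of helper99 form a descent pair

For two finite-level descent data `d`, `d'` (helper99 `LimDesc99.Datum`, helper79 `IsInvDescent`) of
the same module with `ker d'.p ≤ ker d.p`, the canonical pair `(Datum.q h, Datum.tHom h)` is a
descent pair in the sense of `GlobalInv91.IsDesc`: `d.B` is the module of `ker (q h)`-invariants of
`d'.B`.  Hence `FinLayerHyp.alpha_desc / beta_to_desc / beta_from_desc` at the level `d'` speak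
about `Datum.trans₂ h = groupCohomology.map (q h) (tHom h) 2` (`trans₂_eq_map_canonical`), i.e.
about the transition maps of `Family.presH2`.
-/

set_option autoImplicit false

namespace Fermat.Agent.S55.GlobalInv91

open groupCohomology CategoryTheory Rep
open Fermat.Agent.S55.Profin15 Fermat.Agent.S55.LimDesc99

universe u

variable {k Γ : Type u} [CommRing k] [Group Γ] {𝒰 : LevelStr Γ} {A : Rep.{u, u, u} k Γ}
  {d d' : Datum 𝒰 A} (h : d'.p.ker ≤ d.p.ker)

/-- **two data form a descent pair.** -/
theorem isDesc_datum : IsDesc (Datum.q h) (Datum.tHom h) where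
  surj x := by
    obtain ⟨g, rfl⟩ := d.surj x
    exact ⟨d'.p g, Datum.q_p h g⟩
  inj b b' hbb' := by
    apply d.desc.inj
    rw [← Datum.e_t h b, ← Datum.e_t h b']
    exact congrArg d'.e hbb'
  range a ha := by
    have hfix : ∀ s : Γ, d.p s = 1 → A.ρ s (d'.e a) = d'.e a := by
      intro s hs
      rw [d'.desc.equivariant, ha (d'.p s) (by rw [Datum.q_p, hs])]
    obtain ⟨b, hb⟩ := d.desc.exists_eq hfix
    refine ⟨b, ?_⟩
    apply d'.desc.inj
    rw [Datum.tHom_apply, Datum.e_t, hb]

/-- the transition map of the presentation is the map of the descent pair. -/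
theorem trans₂_eq_map_desc (x : H2 d.B) :
    Datum.trans₂ h x = (map (Datum.q h) (Datum.tHom h) 2).hom x :=
  Datum.trans₂_eq_map_canonical h x

end Fermat.Agent.S55.GlobalInv91
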