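import Fermat.Agent.S55.GlobalInv91.InstFin
import Fermat.Agent.S55.GlobalInv91.DescDatum
import Fermat.Agent.S55.LimDesc99.FormationFamily

/-!
# S55 / 35-GLOBAL-INV (helper91): 35-GEN + 35-LIM over a family of finite-level short complexes

`X : E ⟶ J ⟶ C` a short complex of (big, smooth) `Γ`-modules over a level structure `𝒰`.
An `SCDatum 𝒰 X` is a finite quotient `p : Γ ↠ Q` whose kernel is a level together with a short
complex `Y` of `Q`-modules descending `X` (`Y.X_i = (X.X_i)^{ker p}`, helper79's `IsInvDescent`):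
think `Q = Gal(Ω/K)`, `Y = ` the idele sequence `Ωˣ → J_S(Ω) × I^S(Ω) → C_S(Ω)`.
An `SCFamily` is a directed cofinal family of such data; it gives three families of helper99
(`LimDesc99.Family`) with the same groups.

`exists_invCp_of_scFamily`: if every `p`-primary class of `H²(Q_i, J_i)` is split by a tower layer
of a deeper datum satisfying `FinLayerHyp` (`hsplit`) and every datum has a deeper tower layer of
the right degree with the inputs of `(α)` (`halpha`), then the invariant on the `p`-primary part of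
level `H²(C)` exists, is compatible with `invJ` and injective.  All hypotheses are statements
about the FINITE-LEVEL modules (no layers of the limit modules).
-/

set_option autoImplicit false
set_option linter.unusedSectionVars false

open CategoryTheory groupCohomology Limits
open Fermat.Agent.S55.Profin15 Fermat.Agent.S55.CS79.InvDescent
open Fermat.Agent.S55.PrimaryExt14 Fermat.Agent.S55.LimDesc99

universe u

noncomputable section

namespace Fermat.Agent.S55.GlobalInv91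

variable {k Γ : Type u} [CommRing k] [Group Γ]

/-- a finite-level descent datum of a short complex. -/
structure SCDatum (𝒰 : LevelStr Γ) (X : ShortComplex (Rep.{u, u, u} k Γ)) where
  /-- the finite quotient -/
  Q : Type u
  [grp : Group Q]
  /-- the projection -/
  p : Γ →* Q
  surj : Function.Surjective p
  ker_mem : p.ker ∈ 𝒰.levels
  /-- the finite-level short complex -/
  Y : ShortComplex (Rep.{u, u, u} k Q)
  /-- the embeddings -/
  e₁ : Y.X₁ →ₗ[k] X.X₁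
  e₂ : Y.X₂ →ₗ[k] X.X₂
  e₃ : Y.X₃ →ₗ[k] X.X₃
  desc₁ : IsInvDescent X.X₁ p Y.X₁ e₁
  desc₂ : IsInvDescent X.X₂ p Y.X₂ e₂
  desc₃ : IsInvDescent X.X₃ p Y.X₃ e₃
  comm_f : ∀ b : Y.X₁, e₂ (Y.f.hom b) = X.f.hom (e₁ b)
  comm_g : ∀ b : Y.X₂, e₃ (Y.g.hom b) = X.g.hom (e₂ b)

attribute [instance] SCDatum.grp

namespace SCDatum

variable {𝒰 : LevelStr Γ} {X : ShortComplex (Rep.{u, u, u} k Γ)}

/-- the datum of `E`. -/
abbrev dat₁ (d : SCDatum 𝒰 X) : Datum 𝒰 X.X₁ :=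
  { Q := d.Q, p := d.p, B := d.Y.X₁, e := d.e₁, desc := d.desc₁, surj := d.surj,
    ker_mem := d.ker_mem }

/-- the datum of `J`. -/
abbrev dat₂ (d : SCDatum 𝒰 X) : Datum 𝒰 X.X₂ :=
  { Q := d.Q, p := d.p, B := d.Y.X₂, e := d.e₂, desc := d.desc₂, surj := d.surj,
    ker_mem := d.ker_mem }

/-- the datum of `C`. -/
abbrev dat₃ (d : SCDatum 𝒰 X) : Datum 𝒰 X.X₃ :=
  { Q := d.Q, p := d.p, B := d.Y.X₃, e := d.e₃, desc := d.desc₃, surj := d.surj,
    ker_mem := d.ker_mem }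

variable {d d' : SCDatum 𝒰 X} (h : d'.p.ker ≤ d.p.ker)

/-- the projection `Q' → Q`. -/
def q : d'.Q →* d.Q := Datum.q (d := d.dat₂) (d' := d'.dat₂) h

/-- the inclusions `Y.X_i → Y'.X_i`. -/
def φ₁ : Rep.res (q h) d.Y.X₁ ⟶ d'.Y.X₁ := Datum.tHom (d := d.dat₁) (d' := d'.dat₁) h

/-- the inclusions `Y.X_i → Y'.X_i`. -/
def φ₂ : Rep.res (q h) d.Y.X₂ ⟶ d'.Y.X₂ := Datum.tHom (d := d.dat₂) (d' := d'.dat₂) h

/-- the inclusions `Y.X_i → Y'.X_i`. -/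
def φ₃ : Rep.res (q h) d.Y.X₃ ⟶ d'.Y.X₃ := Datum.tHom (d := d.dat₃) (d' := d'.dat₃) h

theorem isDesc₁ : IsDesc (q h) (φ₁ h) := isDesc_datum (d := d.dat₁) (d' := d'.dat₁) h

theorem isDesc₂ : IsDesc (q h) (φ₂ h) := isDesc_datum (d := d.dat₂) (d' := d'.dat₂) h

theorem isDesc₃ : IsDesc (q h) (φ₃ h) := isDesc_datum (d := d.dat₃) (d' := d'.dat₃) h

theorem e_φ₁ (b : d.Y.X₁) : d'.e₁ ((φ₁ h).hom b) = d.e₁ b :=
  Datum.e_t (d := d.dat₁) (d' := d'.dat₁) h b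

theorem e_φ₂ (b : d.Y.X₂) : d'.e₂ ((φ₂ h).hom b) = d.e₂ b :=
  Datum.e_t (d := d.dat₂) (d' := d'.dat₂) h b

theorem e_φ₃ (b : d.Y.X₃) : d'.e₃ ((φ₃ h).hom b) = d.e₃ b :=
  Datum.e_t (d := d.dat₃) (d' := d'.dat₃) h b

/-- the transition maps. -/
abbrev tr₁ : H2 d.Y.X₁ ⟶ H2 d'.Y.X₁ := map (q h) (φ₁ h) 2

/-- the transition maps. -/
abbrev tr₂ : H2 d.Y.X₂ ⟶ H2 d'.Y.X₂ := map (q h) (φ₂ h) 2

/-- the transition maps. -/
abbrev tr₃ : H2 d.Y.X₃ ⟶ H2 d'.Y.X₃ := map (q h) (φ₃ h) 2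

theorem trans₂_eq_tr₁ (x : H2 d.Y.X₁) :
    Datum.trans₂ (d := d.dat₁) (d' := d'.dat₁) h x = (tr₁ h).hom x :=
  trans₂_eq_map_desc (d := d.dat₁) (d' := d'.dat₁) h x

theorem trans₂_eq_tr₂ (x : H2 d.Y.X₂) :
    Datum.trans₂ (d := d.dat₂) (d' := d'.dat₂) h x = (tr₂ h).hom x :=
  trans₂_eq_map_desc (d := d.dat₂) (d' := d'.dat₂) h x

theorem trans₂_eq_tr₃ (x : H2 d.Y.X₃) :
    Datum.trans₂ (d := d.dat₃) (d' := d'.dat₃) h x = (tr₃ h).hom x :=
  trans₂_eq_map_desc (d := d.dat₃) (d' := d'.dat₃) h x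

/-- the transition maps commute with the push-forward along `f`. -/
theorem tr₂_push₂ (x : H2 d.Y.X₁) :
    (tr₂ h).hom ((push₂ d.Y.f).hom x) = (push₂ d'.Y.f).hom ((tr₁ h).hom x) := by
  have h1 := (map_comp (A := d.Y.X₁) (B := d.Y.X₂) (C := d'.Y.X₂)
    (MonoidHom.id d.Q) (q h) d.Y.f (φ₂ h) 2).symm
  have h2 := (map_comp (A := d.Y.X₁) (B := d'.Y.X₁) (C := d'.Y.X₂)
    (q h) (MonoidHom.id d'.Q) (φ₁ h) d'.Y.f 2).symm
  have key : push₂ d.Y.f ≫ tr₂ h = tr₁ h ≫ push₂ d'.Y.f := by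
    refine h1.trans (Eq.trans ?_ h2.symm)
    refine map_congr ?_ ?_ 2
    · rfl
    · apply LinearMap.ext
      intro b
      apply d'.desc₂.inj
      show d'.e₂ ((φ₂ h).hom (d.Y.f.hom b)) = d'.e₂ (d'.Y.f.hom ((φ₁ h).hom b))
      rw [e_φ₂, d.comm_f, d'.comm_f, e_φ₁]
  exact congrArg (fun ψ => ψ.hom x) key

end SCDatum

/-- a directed cofinal family of finite-level short complexes. -/
structure SCFamily (𝒰 : LevelStr Γ) (X : ShortComplex (Rep.{u, u, u} k Γ)) (ι : Type*)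
    [Preorder ι] where
  /-- the data -/
  d : ι → SCDatum 𝒰 X
  mono : ∀ {i j : ι}, j ≤ i → (d j).p.ker ≤ (d i).p.ker
  nonempty : Nonempty ι
  directed : ∀ i j : ι, ∃ l, l ≤ i ∧ l ≤ j
  cofinal : ∀ V ∈ 𝒰.levels, ∀ i : ι, ∃ j, j ≤ i ∧ (d j).p.ker ≤ V

namespace SCFamily

variable {𝒰 : LevelStr Γ} {X : ShortComplex (Rep.{u, u, u} k Γ)} {ι : Type*} [Preorder ι]
  (F : SCFamily 𝒰 X ι)

/-- the family of `E`. -/
abbrev fam₁ : Family 𝒰 X.X₁ ι :=
  { d := fun i => (F.d i).dat₁, mono := F.mono, nonempty := F.nonempty,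
    directed := F.directed, cofinal := F.cofinal }

/-- the family of `J`. -/
abbrev fam₂ : Family 𝒰 X.X₂ ι :=
  { d := fun i => (F.d i).dat₂, mono := F.mono, nonempty := F.nonempty,
    directed := F.directed, cofinal := F.cofinal }

/-- the family of `C`. -/
abbrev fam₃ : Family 𝒰 X.X₃ ι :=
  { d := fun i => (F.d i).dat₃, mono := F.mono, nonempty := F.nonempty,
    directed := F.directed, cofinal := F.cofinal }

end SCFamily

namespace SCFamily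

variable {𝒰 : LevelStr Γ} {X : ShortComplex (Rep.{u, u, u} k Γ)} {ι : Type*} [Preorder ι]
  (F : SCFamily 𝒰 X ι)
  (hses : LevelStr.ShortExact (A := X.X₁) (B := X.X₂) (C := X.X₃)
    X.f.hom.toLinearMap X.g.hom.toLinearMap)
  (hJ : 𝒰.IsSmooth X.X₂) {T : Type*} [AddCommGroup T] (p : ℕ) [Fact p.Prime]

/-- inflation commutes with the push-forward along `f`. -/
theorem pushH2_f_infl₂ (i : ι) (x : H2 (F.d i).Y.X₁) :
    pushH2 (𝒰 := 𝒰) X.f ((F.d i).dat₁.infl₂ x) =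
      (F.d i).dat₂.infl₂ ((push₂ (F.d i).Y.f).hom x) :=
  Datum.H2map_infl₂ X.f.hom.toLinearMap (LevelStr.isEquivariant_hom X.f) (F.d i).dat₁ (F.d i).dat₂
    (MonoidHom.id (F.d i).Q) (fun _ => rfl) (F.d i).Y.f (F.d i).comm_f x

/-- inflation commutes with the push-forward along `g`. -/
theorem pushH2_g_infl₂ (i : ι) (x : H2 (F.d i).Y.X₂) :
    pushH2 (𝒰 := 𝒰) X.g ((F.d i).dat₂.infl₂ x) =
      (F.d i).dat₃.infl₂ ((push₂ (F.d i).Y.g).hom x) :=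
  Datum.H2map_infl₂ X.g.hom.toLinearMap (LevelStr.isEquivariant_hom X.g) (F.d i).dat₂ (F.d i).dat₃
    (MonoidHom.id (F.d i).Q) (fun _ => rfl) (F.d i).Y.g (F.d i).comm_g x

include hses hJ in
/-- **35-GEN + 35-LIM over a family of finite-level short complexes.** -/
theorem exists_invCp (invJ : 𝒰.H2 X.X₂ →+ T)
    (invJU : ∀ i : ι, H2 (F.d i).Y.X₂ →+ T)
    (hinvJ : ∀ (i : ι) (x : H2 (F.d i).Y.X₂), invJ ((F.d i).dat₂.infl₂ x) = invJU i x)
    (hsplit : ∀ (i : ι) (x : H2 (F.d i).Y.X₂) (n : ℕ), (p ^ n) • x = 0 →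
      ∃ (j : ι) (h : j ≤ i) (m : ℕ) (χ : (F.d j).Q →* Multiplicative (ZMod (p ^ m))),
        FinLayerHyp (F.d j).Y p m χ (invJU j) ∧
        (res₂ (F.d j).Y.X₂ χ.ker).hom ((SCDatum.tr₂ (F.mono h)).hom x) = 0)
    (halpha : ∀ i : ι,
      ∃ (j : ι) (h : j ≤ i) (m : ℕ) (χ : (F.d j).Q →* Multiplicative (ZMod (p ^ m))),
        FinLayerHyp (F.d j).Y p m χ (invJU j) ∧
        Nat.card (InfRes9.pPrimary p (H2 (F.d i).Y.X₃)) ∣ p ^ m ∧
        p ^ m ∣ (SCDatum.q (F.mono h)).ker.index ∧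
        IsZero (groupCohomology
          (Rep.res (SCDatum.q (F.mono h)).ker.subtype (F.d j).Y.X₃) 1) ∧
        ∃ invJN : H2 (Rep.res (SCDatum.q (F.mono h)).ker.subtype (F.d j).Y.X₂) →+ T,
          (∀ y : H2 (F.d j).Y.X₂,
            invJN ((res₂ (F.d j).Y.X₂ (SCDatum.q (F.mono h)).ker).hom y) =
              (SCDatum.q (F.mono h)).ker.index • invJU j y) ∧
          ∃ invCN : H2 (Rep.res (SCDatum.q (F.mono h)).ker.subtype (F.d j).Y.X₃) →+ T,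
            Function.Injective invCN ∧
            ∀ x : H2 (Rep.res (SCDatum.q (F.mono h)).ker.subtype (F.d j).Y.X₂),
              invCN ((pushS₂ (F.d j).Y.g (SCDatum.q (F.mono h)).ker).hom x) = invJN x) :
    ∃ invC : primary p (𝒰.H2 X.X₃) →+ T,
      (∀ y : primary p (𝒰.H2 X.X₂),
        invC (mapPrimary p (pushH2 (𝒰 := 𝒰) X.g) y) = invJ (y : 𝒰.H2 X.X₂)) ∧
      (∀ c : primary p (𝒰.H2 X.X₃), invC c = 0 → c = 0) := by
  have hE : 𝒰.IsSmooth X.X₁ := hses.smooth_left 𝒰 hJ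
  have hC : 𝒰.IsSmooth X.X₃ := hses.smooth_right 𝒰 hJ
  have hex := hses.exact_H2map_H2map 𝒰 hJ
  let PE := F.fam₁.presH2 hE
  let PJ := F.fam₂.presH2 hJ
  let PC := F.fam₃.presH2 hC
  refine LimAlg14.exists_invCp_of_total p (pushH2 (𝒰 := 𝒰) X.f) (pushH2 (𝒰 := 𝒰) X.g) ?_ ?_
    (H2_torsion15 X.X₁) invJ ?_ ?_ ?_
  · intro e
    exact (hex _).2 ⟨e, rfl⟩
  · intro y hy
    exact (hex y).1 hy
  · -- (A)
    rintro c ⟨n, hn⟩
    obtain ⟨i, x, hx, rfl⟩ := PC.exists_infl_eq_of_nsmul_eq_zero (p ^ n) c hn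
    obtain ⟨j, h, m, χ, hyp, hb, hidx, h1N, invJN, hJ1, invCN, hinjN, hcompN⟩ := halpha i
    obtain ⟨y, hy, hyx⟩ := (hyp.alpha_desc (SCDatum.isDesc₃ (F.mono h)) hb hidx h1N invJN hJ1
      invCN hinjN hcompN).2 x ⟨n, hx⟩
    refine ⟨(F.d j).dat₂.infl₂ y, ⟨m, by rw [← map_nsmul, hy, map_zero]⟩, ?_⟩
    rw [F.pushH2_g_infl₂, hyx, ← SCDatum.trans₂_eq_tr₃]
    exact PC.infl_trans h x
  · -- (B→)
    rintro e ⟨n, hn⟩
    obtain ⟨i, x, hx, rfl⟩ := PE.exists_infl_eq_of_nsmul_eq_zero (p ^ n) e hn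
    have hx' : (p ^ n) • (push₂ (F.d i).Y.f).hom x = 0 := by rw [← map_nsmul, hx, map_zero]
    obtain ⟨j, h, m, χ, hyp, hs⟩ := hsplit i _ n hx'
    rw [SCDatum.tr₂_push₂] at hs
    have h0 := hyp.beta_to_desc (SCDatum.isDesc₁ (F.mono h)) x hx hs
    have h1 : PE.infl i x = PE.infl j ((SCDatum.tr₁ (F.mono h)).hom x) := by
      rw [← SCDatum.trans₂_eq_tr₁]
      exact (PE.infl_trans h x).symm
    show invJ (pushH2 (𝒰 := 𝒰) X.f (PE.infl i x)) = 0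
    rw [h1]
    show invJ (pushH2 (𝒰 := 𝒰) X.f ((F.d j).dat₁.infl₂ _)) = 0
    rw [F.pushH2_f_infl₂, hinvJ]
    exact h0
  · -- (B←)
    rintro y ⟨n, hn⟩ h0
    obtain ⟨i, x, hx, rfl⟩ := PJ.exists_infl_eq_of_nsmul_eq_zero (p ^ n) y hn
    obtain ⟨j, h, m, χ, hyp, hs⟩ := hsplit i x n hx
    have h1 : PJ.infl i x = (F.d j).dat₂.infl₂ ((SCDatum.tr₂ (F.mono h)).hom x) := by
      rw [← SCDatum.trans₂_eq_tr₂]
      exact (PJ.infl_trans h x).symm
    have hx0 : invJU j ((SCDatum.tr₂ (F.mono h)).hom x) = 0 := by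
      rw [← hinvJ, ← h1]
      exact h0
    obtain ⟨e, he⟩ := hyp.beta_from_desc (SCDatum.isDesc₂ (F.mono h)) x hx0 hs
    refine ⟨(F.d j).dat₁.infl₂ e, ?_⟩
    rw [F.pushH2_f_infl₂, he, h1]

end SCFamily

end Fermat.Agent.S55.GlobalInv91
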