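import Fermat.Agent.S55.GlobalInv91.GenTrans
import Fermat.Agent.S55.GlobalInv91.CycInst
import Fermat.Agent.S55.GlobalInv91.WeakH1

/-!
# S55 / 35-GLOBAL-INV (helper91): (35-GEN) assembled per crossing

`G` any group, `X : E ⟶ J ⟶ C` a short complex in `Rep k G`, `V ≤ U` normal subgroups of `G`
(`U ↔ L`, `V ↔ L·K_m`), `χ : G ⧸ V → ZMod (p ^ m)` the tower character of depth `m` over the base,
`Z = ker χ`, `invJ` the sum of the local invariants on `H²(G ⧸ V, J^V)`.

`TowerLayerHyp X p V m χ invJ` bundles the arithmetic of the tower layer `(G ⧸ V) ⧸ Z`: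
Hilbert 90 (`h1E`, `h1ZE`, `h1ZJ`, `shortExact`), the `p`-primary vanishing of `H¹(Z, C^V)` (33),
the reciprocity law on the carry classes of the tower (34, `recT`), the bound of the second
inequality for the layer (32, `cardZ`), a class of full local degree (`fullDeg`).

* `TowerLayerHyp.beta_to`  : **(β→)** (= `reciprocity_trans`, hypotheses discharged);
* `TowerLayerHyp.beta_from`: **(β←)** (= `hasse_trans`);
* `TowerLayerHyp.alpha`    : **(α)**  (= `alpha_trans`), with the degree formula `hJ1` and the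
  injective invariant `invCN` of the cyclic layer `U ⧸ V` over `L` as the remaining inputs.
-/

set_option autoImplicit false
set_option linter.unusedSectionVars false
set_option linter.style.haveILetI false

namespace Fermat.Agent.S55.GlobalInv91

open groupCohomology CategoryTheory Rep Limits

universe u

variable {k G : Type u} [CommRing k] [Group G] (X : ShortComplex (Rep.{u, u, u} k G))
  {T : Type*} [AddCommGroup T] (p : ℕ) [Fact p.Prime]

/-- The arithmetic of the tower layer `χ : G ⧸ V → ZMod (p ^ m)`. -/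
structure TowerLayerHyp (V : Subgroup G) [V.Normal] (m : ℕ)
    (χ : G ⧸ V →* Multiplicative (ZMod (p ^ m)))
    (invJ : H2 (X.X₂.quotientToInvariants V) →+ T) : Prop where
  /-- `G ⧸ V` is finite -/
  finite : Finite (G ⧸ V)
  /-- `0 → E^V → J^V → C^V → 0` is exact (Hilbert 90 for `V`) -/
  shortExact : (X.map (quotientToInvariantsFunctor k V)).ShortExact
  /-- `χ` takes the value `1` -/
  exists_s : ∃ s : G ⧸ V, chiVal χ s = 1
  /-- Hilbert 90 -/
  h1E : IsZero (groupCohomology (X.X₁.quotientToInvariants V) 1)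
  /-- Hilbert 90 on the kernel of the tower character -/
  h1ZE : IsZero (groupCohomology (res χ.ker.subtype (X.X₁.quotientToInvariants V)) 1)
  /-- `H¹(Z, J^V) = 0` -/
  h1ZJ : IsZero (groupCohomology (res χ.ker.subtype (X.X₂.quotientToInvariants V)) 1)
  /-- the `p`-primary part of `H¹(Z, C^V)` vanishes (33) -/
  h1ZC : ∀ x : H1 (res χ.ker.subtype (X.X₃.quotientToInvariants V)),
    (∃ j : ℕ, p ^ j • x = 0) → x = 0
  /-- reciprocity on the carry classes of the tower (34) -/
  recT : ∀ b : (X.X₁.quotientToInvariants V).ρ.invariants,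
    invJ ((pushQ₂ X.f V).hom (carryH2 (X.X₁.quotientToInvariants V) χ b)) = 0
  /-- the second inequality for the tower layer (32) -/
  cardZ : Nat.card (InfRes9.pPrimary p
    (H2 ((X.X₃.quotientToInvariants V).quotientToInvariants χ.ker))) ∣ p ^ m
  /-- a class of full local degree -/
  fullDeg : ∃ c₀ : H2 ((X.X₂.quotientToInvariants V).quotientToInvariants χ.ker),
    addOrderOf (invJ ((infl₂ (X.X₂.quotientToInvariants V) χ.ker).hom c₀)) = p ^ m

namespace TowerLayerHyp

variable {X p} {V : Subgroup G} [V.Normal] {m : ℕ}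
  {χ : G ⧸ V →* Multiplicative (ZMod (p ^ m))}
  {invJ : H2 (X.X₂.quotientToInvariants V) →+ T}

/-- the prime-to-`p` part `m'` of `|Z|` kills `H¹(Z, C^V)`: the hypotheses `hH1Z` and `hker`. -/
theorem exists_coprime (h : TowerLayerHyp X p V m χ invJ) :
    ∃ m' : ℕ, Nat.Coprime m' p ∧
      (∀ f : χ.ker → X.X₃.quotientToInvariants V,
        (∀ z w : χ.ker, f (z * w) =
          (X.X₃.quotientToInvariants V).ρ (z : G ⧸ V) (f w) + f z) →
        ∃ y : X.X₃.quotientToInvariants V,
          ∀ z : χ.ker, m' • f z = (X.X₃.quotientToInvariants V).ρ (z : G ⧸ V) y - y) ∧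
      (∀ x : H2 (res χ.ker.subtype (X.X₁.quotientToInvariants V)),
        (pushS₂ ((quotientToInvariantsFunctor k V).map X.f) χ.ker).hom x = 0 → m' • x = 0) := by
  haveI := h.finite
  have hp : p.Prime := Fact.out
  have hne : Nat.card χ.ker ≠ 0 := Nat.card_pos.ne'
  obtain ⟨b, m', hm', hcard⟩ := Nat.exists_eq_pow_mul_and_not_dvd hne p hp.ne_one
  have hcop : Nat.Coprime m' p := ((Nat.Prime.coprime_iff_not_dvd hp).2 hm').symm
  refine ⟨m', hcop, ?_, ?_⟩
  · exact hH1Z_of_pPrimary (X.X₃.quotientToInvariants V) χ p hcard h.h1ZC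
  · intro x hx
    exact hker_res (X := X.map (quotientToInvariantsFunctor k V)) h.shortExact χ.ker
      (fun y => nsmul_H1_eq_zero_of_pPrimary
        (res χ.ker.subtype (X.X₃.quotientToInvariants V)) p hcard h.h1ZC y) x hx

/-- the outputs of the tower layer. -/
theorem layer (h : TowerLayerHyp X p V m χ invJ) :
    (∀ y : H2 ((X.X₁.quotientToInvariants V).quotientToInvariants χ.ker),
      invJ ((pushQ₂ X.f V).hom ((infl₂ (X.X₁.quotientToInvariants V) χ.ker).hom y)) = 0) ∧
    (∀ y : H2 ((X.X₂.quotientToInvariants V).quotientToInvariants χ.ker),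
      invJ ((infl₂ (X.X₂.quotientToInvariants V) χ.ker).hom y) = 0 →
      ∃ e' : H2 ((X.X₁.quotientToInvariants V).quotientToInvariants χ.ker),
        (pushQ₂ ((quotientToInvariantsFunctor k V).map X.f) χ.ker).hom e' = y) ∧
    ∃ s : G ⧸ V, chiVal χ s = 1 ∧
    ∃ (a : (X.X₃.quotientToInvariants V).ρ.invariants) (c' : H2 (X.X₂.quotientToInvariants V)),
      p ^ m • c' = 0 ∧
      (pushQ₂ X.g V).hom c' = carryH2 (X.X₃.quotientToInvariants V) χ a ∧
      ∀ m' : ℕ, (∃ b : X.X₃.quotientToInvariants V,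
        (∀ z : G ⧸ V, χ z = 1 → (X.X₃.quotientToInvariants V).ρ z b = b) ∧
        m' • (a : X.X₃.quotientToInvariants V) =
          partialNorm (X.X₃.quotientToInvariants V) s b (p ^ m)) → p ^ m ∣ m' := by
  obtain ⟨s, hs⟩ := h.exists_s
  obtain ⟨c₀, hc₀⟩ := h.fullDeg
  obtain ⟨h1, h2, h3⟩ := tower_layer_of_shortExact (X := X.map (quotientToInvariantsFunctor k V))
    hs h.shortExact h.h1ZE h.h1E invJ h.recT p m rfl h.cardZ c₀ hc₀
  exact ⟨h1, h2, s, hs, h3⟩

variable {U : Subgroup G} [U.Normal] (hVU : V ≤ U)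

/-- **(β→)** for the crossing `V ≤ U`. -/
theorem beta_to (h : TowerLayerHyp X p V m χ invJ)
    (e : H2 (X.X₁.quotientToInvariants U)) {j : ℕ} (he : p ^ j • e = 0)
    (hsplit : (res₂ (X.X₂.quotientToInvariants V) χ.ker).hom
      ((pushQ₂ X.f V).hom ((trans₂ X.X₁ hVU).hom e)) = 0) :
    invJ ((pushQ₂ X.f V).hom ((trans₂ X.X₁ hVU).hom e)) = 0 := by
  obtain ⟨m', hm', -, hker⟩ := h.exists_coprime
  exact reciprocity_trans hVU X.f χ.ker p hm' invJ h.h1ZE hker h.layer.1 e he hsplit

/-- **(β←)** for the crossing `V ≤ U`. -/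
theorem beta_from (h : TowerLayerHyp X p V m χ invJ)
    (x : H2 (X.X₂.quotientToInvariants U)) (hx : invJ ((trans₂ X.X₂ hVU).hom x) = 0)
    (hsplit : (res₂ (X.X₂.quotientToInvariants V) χ.ker).hom ((trans₂ X.X₂ hVU).hom x) = 0) :
    ∃ e : H2 (X.X₁.quotientToInvariants V),
      (pushQ₂ X.f V).hom e = (trans₂ X.X₂ hVU).hom x :=
  hasse_trans hVU X.f χ.ker invJ h.h1ZJ h.layer.2.1 x hx hsplit

/-- **(α)** for the crossing `V ≤ U`, `p ^ m` the exact power of `p` in `[G : U]`. -/
theorem alpha (h : TowerLayerHyp X p V m χ invJ)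
    (hb : Nat.card (InfRes9.pPrimary p (H2 (X.X₃.quotientToInvariants U))) ∣ p ^ m)
    (hidx : p ^ m ∣ (subQ U V).index)
    (h1N : IsZero (groupCohomology
      (res (subQ U V).subtype (X.X₃.quotientToInvariants V)) 1))
    (invJN : H2 (res (subQ U V).subtype (X.X₂.quotientToInvariants V)) →+ T)
    (hJ1 : ∀ y : H2 (X.X₂.quotientToInvariants V),
      invJN ((res₂ (X.X₂.quotientToInvariants V) (subQ U V)).hom y) =
        (subQ U V).index • invJ y)
    (invCN : H2 (res (subQ U V).subtype (X.X₃.quotientToInvariants V)) →+ T)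
    (hinjN : Function.Injective invCN)
    (hcompN : ∀ x : H2 (res (subQ U V).subtype (X.X₂.quotientToInvariants V)),
      invCN ((pushS₂ ((quotientToInvariantsFunctor k V).map X.g) (subQ U V)).hom x) =
        invJN x) :
    (∃ (a : (X.X₃.quotientToInvariants V).ρ.invariants)
        (γ : H2 (X.X₃.quotientToInvariants U)),
      (trans₂ X.X₃ hVU).hom γ = carryH2 (X.X₃.quotientToInvariants V) χ a ∧
      addOrderOf γ = p ^ m ∧
      ∀ x : H2 (X.X₃.quotientToInvariants U), (∃ j : ℕ, p ^ j • x = 0) → ∃ j : ℤ, x = j • γ) ∧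
    ∀ x : H2 (X.X₃.quotientToInvariants U), (∃ j : ℕ, p ^ j • x = 0) →
      ∃ y : H2 (X.X₂.quotientToInvariants V), p ^ m • y = 0 ∧
        (pushQ₂ X.g V).hom y = (trans₂ X.X₃ hVU).hom x := by
  obtain ⟨m', hm', hH1Z, -⟩ := h.exists_coprime
  obtain ⟨-, -, s, hs, a, c', hc', hπ, hc⟩ := h.layer
  haveI : Finite (InfRes9.pPrimary p (H2 (X.X₃.quotientToInvariants U))) :=
    Nat.finite_of_card_ne_zero fun h0 => NeZero.ne (p ^ m) (by
      rw [h0] at hb
      exact zero_dvd_iff.1 hb)
  obtain ⟨⟨γ, hγ1, hγ2, hγ3⟩, h2⟩ := alpha_trans hVU X.g p rfl h1N χ s hs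
    (Nat.Coprime.pow_right m hm') hH1Z hb invJ invJN hJ1 invCN hinjN hcompN hidx a c' hc' hπ hc
  exact ⟨⟨a, γ, hγ1, hγ2, hγ3⟩, h2⟩

end TowerLayerHyp

end Fermat.Agent.S55.GlobalInv91
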