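/-
S55 / 35-GLOBAL-INV (helper91): **D2 WIRING, part 1** — the finite-level total invariant `invJU`
on the concrete D2 family `LimDesc99.D2.scFamV`, the tower layer at every deep level
(`exists_level_finLayerHyp`, from helper37's `RecTSeam.finLayerHyp_D2` + helper87's level geometry)
and the hypothesis `hsplit` of `LimDesc99.D2.exists_invCp_V_fin` (with helper22's
`D2Hsplit.exists_level_res₂_tr₂_towerCharK`), UNCONDITIONALLY.
-/
import Mathlib
import Fermat.Agent.S55.CycloRecip37.RecTSeam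
import Fermat.Agent.S55.DegSum22.D2Hsplit
import Fermat.Agent.S55.CycloGlobal87.D2Level
import Fermat.Agent.S55.Adapt77.FinLayer33V
import Fermat.Agent.S55.LimDesc99.SCAdapter

set_option autoImplicit false
set_option linter.unusedSectionVars false

namespace Fermat.Agent.S55.GlobalInv91.D2Wire

open CategoryTheory groupCohomology
open Fermat.Agent.S55.Profin15 Fermat.Agent.S55.Idele73.Basic
open Fermat.Agent.S55.ESDiv20 hiding GQ Qb
open Fermat.Agent.S55.CS79.FamilyCS Fermat.Agent.S55.CS79.Limit Fermat.Agent.S55.CS79.LevelClass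
open Fermat.Agent.S55.LimDesc99 Fermat.Agent.S55.LimDesc99.D2 Fermat.Agent.S55.CD3
open Fermat.Agent.S55.GlobalInv91 Fermat.Agent.S55.CycloGlobal87
open Fermat.Agent.S55.CycloGlobal87.D2Level
open Fermat.Agent.S55.CycloRecip37 Fermat.Agent.S55.CycloRecip37.GSys
open Fermat.Agent.S55.CycloRecip37.SysH2 Fermat.Agent.S55.CycloRecip37.SysMore
open Fermat.Agent.S55.CycloRecip37.RecT Fermat.Agent.S55.CycloRecip37.Uncond
open Fermat.Agent.S55.CycloRecip37.TowerRecip (pp)
open Fermat.Agent.S55.IdeleVal44 Fermat.Agent.S55.QZ33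
open Fermat.Agent.S55.CLDescent35.Hilbert90
open Fermat.Agent.Lib.FrobeniusExists (isAlgebraic_Qb isAlgClosure_Qb isGalois_Qb)
open ExtCitation

attribute [local instance] isAlgebraic_Qb isAlgClosure_Qb isGalois_Qb
attribute [local instance] factPrimes44

variable (p : ℕ) [hp : Fact p.Prime] (hp2 : p ≠ 2) (S : Finset Nat.Primes)
  (hpS : (⟨p, hp.out⟩ : Nat.Primes) ∈ S) (V : Subgroup GQ)
  (hV : IsOpenSub (globalLevels S) V)

/-- **the finite-level total invariant** on `H²(Gal(Ω_i/K), J_S(Ω_i) × I^S(Ω_i))`. -/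
noncomputable def invJU (i : LevV S V) :
    H2 ((scFamV S V hV ⟨_, hpS⟩).d i).Y.X₂ →+ QZ :=
  toH2top (restrict (HV S V i) (totalSysU hp2 i.1.1 S))

theorem invJU_apply (i : LevV S V) (x : H2 ((scFamV S V hV ⟨_, hpS⟩).d i).Y.X₂) :
    invJU p hp2 S hpS V hV i x =
      toH2top (restrict (HV S V i) (totalSysU hp2 i.1.1 S)) x := rfl

/-! ### generic group theory -/

theorem normalCore_index_map_dvd {G G' : Type*} [Group G] [Group G'] (f : G →* G')
    (hf : Function.Surjective f) (W : Subgroup G) (hker : f.ker ≤ W) :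
    (W.map f).normalCore.index ∣ W.normalCore.index := by
  have hkn : f.ker ≤ W.normalCore :=
    (Subgroup.normal_le_normalCore (H := W) (N := f.ker)).2 hker
  have h1 : (W.normalCore.map f).index = W.normalCore.index :=
    Subgroup.index_map_eq _ hf hkn
  rw [← h1]
  apply Subgroup.index_dvd_of_le
  have : (W.normalCore.map f).Normal := Subgroup.Normal.map inferInstance f hf
  exact (Subgroup.normal_le_normalCore (H := W.map f) (N := W.normalCore.map f)).2
    (Subgroup.map_mono W.normalCore_le)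

theorem le_of_pow_dvd_of_ne_zero {q i n : ℕ} (hq : 1 < q) (hn : n ≠ 0) (h : q ^ i ∣ n) :
    i ≤ n := by
  have h1 : q ^ i ≤ n := Nat.le_of_dvd (Nat.pos_of_ne_zero hn) h
  have h2 : i < q ^ i := Nat.lt_pow_self hq
  omega

/-- the `p`-part of the degree of the Galois closure of `K` is bounded uniformly in the level. -/
theorem normalCore_bound (j : LevV S V) (i : ℕ)
    (h : p ^ i ∣ (HV S V j).normalCore.index) : i ≤ V.normalCore.index := by
  have hV0 : V.index ≠ 0 := index_ne_zero_of_levV S V j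
  have : V.FiniteIndex := ⟨hV0⟩
  have hn0 : V.normalCore.index ≠ 0 := Subgroup.FiniteIndex.index_ne_zero
  exact le_of_pow_dvd_of_ne_zero hp.out.one_lt hn0
    (h.trans (normalCore_index_map_dvd (resL j.1.1) (resL_surjective j.1.1) V j.2))

/-! ### the tower layer at every deep level -/

/-- **the tower layer of degree `p^e` (`e ≥ 1`) at every level `Ω_j ⊇ ℚ_M`, `M ≥ M₁(V, e)`**:
all ten fields of `FinLayerHyp` for the onto tower character over `K` and the total invariant. -/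
theorem exists_level_finLayerHyp (hmu : ∀ σ ∈ V, cycloChar p σ = 1) (e : ℕ) (he : 1 ≤ e) :
    ∃ M₁, ∀ M ≥ M₁, ∀ (j : LevV S V) (hM : towerField p M ≤ j.1.1),
      ∃ (j₀ : ℕ) (hje : j₀ + e ≤ M)
        (hj : ∀ g ∈ HV S V j, towerCharL p j.1.1 hp2 j₀
          ((towerField_mono p (Nat.le_add_right j₀ e)).trans
            ((towerField_mono p hje).trans hM)) g = 1),
        FinLayerHyp ((scFamV S V hV ⟨_, hpS⟩).d j).Y p e
          (towerCharK p hp2 j.1.1 (HV S V j) j₀ e ((towerField_mono p hje).trans hM) hj)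
          (invJU p hp2 S hpS V hV j) := by
  refine ⟨V.index + e + V.normalCore.index, fun M hM j hMj => ?_⟩
  obtain ⟨j₀, hj₀M, hj, hex⟩ := exists_towerLevel p hp2 j.1.1 (HV S V j) M hMj
  have hdvd : p ^ j₀ ∣ (HV S V j).index :=
    pow_dvd_index_of_towerCharL_eq_one p hp2 j.1.1 (HV S V j) j₀ _ hj
  rw [index_HV] at hdvd
  have hj₀ : j₀ ≤ V.index :=
    le_of_pow_dvd_of_ne_zero hp.out.one_lt (index_ne_zero_of_levV S V j) hdvd
  have hjes : j₀ + e + V.normalCore.index ≤ M := by omega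
  have hje : j₀ + e ≤ M := by omega
  obtain ⟨ζ, hζ⟩ := Fermat.Agent.S55.Adapt77.FinLayer33V.exists_primitiveRoot_of_ker_le
    (p := p) j.1.1 j.2 hmu
  have hS : S.Nonempty := ⟨_, hpS⟩
  have hunr : UnrOutside j.1.1 S := unrOutside S j.1.1 j.1.unr
  refine ⟨j₀, hje, hj, ?_⟩
  exact Fermat.Agent.S55.CycloRecip37.RecTSeam.finLayerHyp_D2 hp2 j.1.unr hunr hpS (HV S V j)
    (Fermat.Agent.S55.Adapt77.Leaf33Final.firstIneqOut_CS hS hp2 hunr) (H₁ := ⊤) le_top
    (Fermat.Agent.S55.Adapt77.Leaf33Final.secondIneqOut_top hpS hp2 j.1.unr hunr ζ hζ)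
    j₀ e V.normalCore.index ((towerField_mono p hjes).trans hMj) hj he
    (hex (by omega)) (fun i hi => normalCore_bound p S V j i hi)

/-! ### `hsplit` -/

/-- the local systems detect coboundaries (helper93). -/
theorem locSysU_inj (L : IntermediateField ℚ Qbar) [Normal ℚ L] [FiniteDimensional ℚ L]
    (q : InS S) (D : Subgroup (Fermat.Agent.S55.Idele73.Local.DE q.1.1 L))
    (f : Fermat.Agent.S55.Idele73.Local.DE q.1.1 L × Fermat.Agent.S55.Idele73.Local.DE q.1.1 L →
      Fermat.Agent.S55.Idele73.Local.EUnits q.1.1 L)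
    (hf : IsCocOn (Fermat.Agent.S55.Idele73.Local.EUnits q.1.1 L) D f)
    (h0 : (locSysU q.1 L).S D f = 0) :
    IsCobOn (Fermat.Agent.S55.Idele73.Local.EUnits q.1.1 L) D f :=
  Fermat.Agent.S55.CycloRecip37.WildInst.locSysE_inj
    (Fermat.Agent.S55.UnrExt93.invFamilyOfPres q.1 (Fermat.Agent.S55.KummerBr95.localPres q.1))
    hf h0

/-- **`hsplit` of `LimDesc99.D2.exists_invCp_V_fin`, UNCONDITIONALLY** (for `invJU`). -/
theorem hsplit_D2 (hmu : ∀ σ ∈ V, cycloChar p σ = 1) (i : LevV S V)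
    (x : H2 ((scFamV S V hV ⟨_, hpS⟩).d i).Y.X₂) (n : ℕ) (hx : (p ^ n) • x = 0) :
    ∃ (j : LevV S V) (h : j ≤ i) (m : ℕ)
      (χ : ((scFamV S V hV ⟨_, hpS⟩).d j).Q →* Multiplicative (ZMod (p ^ m))),
      FinLayerHyp ((scFamV S V hV ⟨_, hpS⟩).d j).Y p m χ (invJU p hp2 S hpS V hV j) ∧
      (res₂ ((scFamV S V hV ⟨_, hpS⟩).d j).Y.X₂ χ.ker).hom
        ((SCDatum.tr₂ ((scFamV S V hV ⟨_, hpS⟩).mono h)).hom x) = 0 := by
  obtain ⟨M₀, hM₀⟩ := Fermat.Agent.S55.DegSum22.D2.exists_level_res₂_tr₂_towerCharK (T := QZ)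
    S V hV ⟨_, hpS⟩ p hp2 i x n hx
  obtain ⟨M₁, hM₁⟩ := exists_level_finLayerHyp p hp2 S hpS V hV hmu (max M₀ 1)
    (le_max_right _ _)
  obtain ⟨j₀, hje, hj, hfin⟩ := hM₁ M₁ le_rfl (towerLevV p S hpS V i M₁)
    (towerField_le_towerLevV p S hpS V i M₁)
  refine ⟨towerLevV p S hpS V i M₁, towerLevV_le p S hpS V i M₁, max M₀ 1, _, hfin, ?_⟩
  exact hM₀ j₀ (max M₀ 1) (le_trans (le_max_left _ _) (Nat.le_add_left _ _))
    (towerLevV p S hpS V i M₁) (towerLevV_le p S hpS V i M₁) _ hj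
    (fun q => locSysU q.1 (towerLevV p S hpS V i M₁).1.1)
    (fun q D f hf h0 => locSysU_inj S (towerLevV p S hpS V i M₁).1.1 q D f hf h0)

end Fermat.Agent.S55.GlobalInv91.D2Wire
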