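import Fermat.Agent.S55.GlobalInv91.Gen
import Fermat.Agent.S55.CycLayer9.Main
import Fermat.Agent.S55.IdeleCoh54.CyclicCarry

/-!
# S55 / 35-GLOBAL-INV (helper91): the cyclic layer over `L` (input `invCN` of `(α)`)

`Γ` a group, `N ≤ Γ` a finite cyclic subgroup (`N = Gal(L·K_m / L)`), `X : E ⟶ J ⟶ C` a short
exact sequence of `Γ`-modules.  helper9's `cyclic_layer` for the group `N`:

* `cyclic_sub_layer`: Hilbert 90 for `N`, reciprocity on `H²(N, E)`, `|H²(N, C)| ∣ n`, a class of
  `H²(N, J)` whose invariant has exact order `n` ⟹ the invariant `invCN` on `H²(N, C)`, injective and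
  compatible with `invJN`: literally the binders `invCN hinjN hcompN` of
  `exists_fundamental_class_of_inv`, `alpha_trans`, `TowerLayerHyp.alpha`.
* `cyclic_sub_layer_of_carry`: the same with reciprocity only on the carry classes of a character
  `χN : N → ZMod n` with `χN g = 1` (the tower character over `L`, 34 over `L`).
-/

set_option autoImplicit false
set_option linter.unusedSectionVars false
set_option linter.style.haveILetI false

namespace Fermat.Agent.S55.GlobalInv91

open groupCohomology CategoryTheory Rep Limits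

universe u

variable {k Γ : Type u} [CommRing k] [Group Γ] {T : Type*} [AddCommGroup T]

/-- **The cyclic layer over `L`.** -/
theorem cyclic_sub_layer (N : Subgroup Γ) [Finite N] (g : N)
    (hg : ∀ x : N, x ∈ Subgroup.zpowers g)
    {X : ShortComplex (Rep.{u, u, u} k Γ)} (hX : X.ShortExact)
    (hH90 : IsZero (groupCohomology (res N.subtype X.X₁) 1))
    (invJN : H2 (res N.subtype X.X₂) →+ T)
    (hrecN : ∀ e : H2 (res N.subtype X.X₁), invJN ((pushS₂ X.f N).hom e) = 0)
    {n : ℕ} (hn : n ≠ 0) (hcardN : Nat.card (H2 (res N.subtype X.X₃)) ∣ n)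
    (c₀ : H2 (res N.subtype X.X₂)) (hc₀ : addOrderOf (invJN c₀) = n) :
    ∃ invCN : H2 (res N.subtype X.X₃) →+ T, Function.Injective invCN ∧
      ∀ x : H2 (res N.subtype X.X₂), invCN ((pushS₂ X.g N).hom x) = invJN x := by
  letI : CommGroup N :=
    { (inferInstance : Group N) with
      mul_comm := fun a b => by
        obtain ⟨i, rfl⟩ := Subgroup.mem_zpowers_iff.1 (hg a)
        obtain ⟨j, rfl⟩ := Subgroup.mem_zpowers_iff.1 (hg b)
        rw [← zpow_add, ← zpow_add, add_comm] }
  letI : Fintype N := Fintype.ofFinite N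
  haveI hfin : Finite (H2 (res N.subtype X.X₃)) :=
    Nat.finite_of_card_ne_zero fun h0 => hn (by
      rw [h0] at hcardN
      exact zero_dvd_iff.1 hcardN)
  haveI : Finite (H2 (X.map (resFunctor N.subtype)).X₃) := hfin
  obtain ⟨invC, hinvC, hinj, -⟩ := CycLayer9.cyclic_layer
    (X := X.map (resFunctor N.subtype)) ((shortExact_res N.subtype).2 hX) g hg hH90 invJN hrecN
    hcardN c₀ hc₀
  exact ⟨invC, hinj, hinvC⟩

open Fermat.Agent.S55.IdeleCoh54.CyclicCarry in
/-- **The cyclic layer over `L`**, reciprocity on carry classes only. -/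
theorem cyclic_sub_layer_of_carry (N : Subgroup Γ) [Finite N] (g : N)
    (hg : ∀ x : N, x ∈ Subgroup.zpowers g)
    {X : ShortComplex (Rep.{u, u, u} k Γ)} (hX : X.ShortExact)
    (hH90 : IsZero (groupCohomology (res N.subtype X.X₁) 1))
    (invJN : H2 (res N.subtype X.X₂) →+ T)
    {n : ℕ} [NeZero n] (χN : N →* Multiplicative (ZMod n)) (hgn : g ^ n = 1)
    (hs : chiVal χN g = 1)
    (hrecTN : ∀ b : (res N.subtype X.X₁).ρ.invariants,
      invJN ((pushS₂ X.f N).hom (carryH2 (res N.subtype X.X₁) χN b)) = 0)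
    (hcardN : Nat.card (H2 (res N.subtype X.X₃)) ∣ n)
    (c₀ : H2 (res N.subtype X.X₂)) (hc₀ : addOrderOf (invJN c₀) = n) :
    ∃ invCN : H2 (res N.subtype X.X₃) →+ T, Function.Injective invCN ∧
      ∀ x : H2 (res N.subtype X.X₂), invCN ((pushS₂ X.g N).hom x) = invJN x := by
  refine cyclic_sub_layer N g hg hX hH90 invJN (fun e => ?_) (NeZero.ne n) hcardN c₀ hc₀
  obtain ⟨b, rfl⟩ := carryH2_surjective (res N.subtype X.X₁) (χ := χN) (g := g) hg hgn hs e
  exact hrecTN b

end Fermat.Agent.S55.GlobalInv91
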