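import Fermat.Agent.S55.GlobalInv91.InstD2
import Fermat.Agent.S55.GlobalInv91.SubLayer

/-!
# S55 / 35-GLOBAL-INV (helper91): the extra inputs of `(α)` in the D2 model

* `fullDeg_of_carry`: the field `fullDeg` of `FinLayerHyp` from an INVARIANT idele `a` whose tower
  class `δχ ∪ a` has invariant of exact order `p ^ m` (the uniformizer idele at a place of full local
  degree: helper6 + helper54).
* `card_eq_of_generator`: a cyclic group with a generator `g`, `g ^ n = 1`, and a character with
  `χ g = 1` has order `n`.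
* `alpha_extras_sesRes`: for `N ⊴ H ≤ H₀ ≤ Gal(L/ℚ)` a cyclic `p`-group (`N = Gal(L/L₀)`,
  `L = L₀·ℚ_M`): `H¹(N, C_S(L)) = 0` and the injective invariant `invCN` on `H²(N, C_S(L))`
  compatible with `invJN` — the binders `h1N invCN hinjN hcompN` of `alpha_desc` /
  `SCFamily.exists_invCp` — from the two inequalities and the SAME two arithmetic inputs over `L₀`
  (reciprocity on the carry classes of `χN`, a carry class of full order).
-/

set_option autoImplicit false
set_option linter.unusedSectionVars false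

namespace Fermat.Agent.S55.GlobalInv91

open groupCohomology CategoryTheory Rep Limits
open Fermat.Agent.S55.Idele73.Basic Fermat.Agent.S55.IdeleVal44
open Fermat.Agent.S55.CLDescent35.Hilbert90
open Fermat.Agent.S55.Adapt77.HcycGlue Fermat.Agent.S55.Adapt77.SubQuotBelow

universe u

section Generic

variable {k Γ : Type u} [CommRing k] [Group Γ] {n : ℕ} [NeZero n]
  {T : Type*} [AddCommGroup T]

/-- `fullDeg` from an invariant element whose tower class has invariant of exact order `n`. -/
theorem fullDeg_of_carry (J : Rep.{u, u, u} k Γ) (χ : Γ →* Multiplicative (ZMod n))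
    (invJ : H2 J →+ T) (a : J.ρ.invariants) (ha : addOrderOf (invJ (carryH2 J χ a)) = n) :
    ∃ c₀ : H2 (J.quotientToInvariants χ.ker),
      addOrderOf (invJ ((infl₂ J χ.ker).hom c₀)) = n :=
  ⟨carryH2 (J.quotientToInvariants χ.ker) (chiBar χ) (toQInv χ J a), by
    rw [infl₂_carryH2]; exact ha⟩

/-- a group generated by `g` with `g ^ n = 1` and a character with `χ g = 1` has order `n`. -/
theorem card_eq_of_generator {N : Type*} [Group N] (g : N)
    (hg : ∀ x : N, x ∈ Subgroup.zpowers g) (hgn : g ^ n = 1)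
    (χ : N →* Multiplicative (ZMod n)) (hs : chiVal χ g = 1) : Nat.card N = n := by
  rw [← orderOf_eq_card_of_forall_mem_zpowers hg]
  apply Nat.dvd_antisymm (orderOf_dvd_of_pow_eq_one hgn)
  have h1 : χ g = Multiplicative.ofAdd (1 : ZMod n) := Multiplicative.toAdd.injective hs
  have h2 : χ (g ^ orderOf g) = 1 := by rw [pow_orderOf_eq_one, map_one]
  rw [map_pow, h1, ← ofAdd_nsmul, nsmul_eq_mul, mul_one] at h2
  have h3 : ((orderOf g : ℕ) : ZMod n) = 0 := Multiplicative.ofAdd.injective h2
  exact (ZMod.natCast_eq_zero_iff _ _).1 h3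

end Generic

variable (p : ℕ) [Fact p.Prime] {L : IntermediateField ℚ Qbar} [Normal ℚ L]
  [FiniteDimensional ℚ L] {S : Finset Nat.Primes} (h : UnrOutside L S) (hS : S.Nonempty)

include hS in
/-- **the extra inputs of `(α)` in the D2 model.** -/
theorem alpha_extras_sesRes {H₀ : Subgroup (GalL L)}
    (h31 : FirstIneqOut (CS h) H₀ p) (h32 : SecondIneqOut (CS h) H₀ p)
    (H : Subgroup (GalL L)) (hH : H ≤ H₀) (N : Subgroup H) (hN : IsPGroup p N)
    (g : N) (hg : ∀ x : N, x ∈ Subgroup.zpowers g) {n : ℕ} [NeZero n]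
    (χN : N →* Multiplicative (ZMod n)) (hgn : g ^ n = 1) (hs : chiVal χN g = 1)
    {T : Type*} [AddCommGroup T] (invJN : H2 (res N.subtype (sesRes h H).X₂) →+ T)
    (hrecTN : ∀ b : (res N.subtype (sesRes h H).X₁).ρ.invariants,
      invJN ((pushS₂ (sesRes h H).f N).hom (carryH2 (res N.subtype (sesRes h H).X₁) χN b)) = 0)
    (c₀ : H2 (res N.subtype (sesRes h H).X₂)) (hc₀ : addOrderOf (invJN c₀) = n) :
    IsZero (groupCohomology (res N.subtype (sesRes h H).X₃) 1) ∧
    ∃ invCN : H2 (res N.subtype (sesRes h H).X₃) →+ T, Function.Injective invCN ∧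
      ∀ x : H2 (res N.subtype (sesRes h H).X₂),
        invCN ((pushS₂ (sesRes h H).g N).hom x) = invJN x := by
  have h1N : IsZero (groupCohomology (res N.subtype (sesRes h H).X₃) 1) :=
    Adapt77.TowerInputs.isZero_H1_res_res h31 h32 H hH N hN
  refine ⟨h1N, ?_⟩
  have hcard : Nat.card (H2 (res N.subtype (sesRes h H).X₃)) ∣ n := by
    rw [← card_eq_of_generator g hg hgn χN hs]
    exact Adapt77.TowerInputs.card_H2_res_res_dvd h31 h32 H hH N hN
  exact cyclic_sub_layer_of_carry N g hg (sesRes_shortExact h hS H)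
    (isZero_H1_res_res_of_map (Lx L) H N (isZero_H1_Lx L _)) invJN χN hgn hs hrecTN hcard c₀ hc₀

end Fermat.Agent.S55.GlobalInv91
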