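/-
S55 / 35-GLOBAL-INV (helper91): evaluation of the invariant maps of a system (`CycloRecip37.GSys.Sys`)
on the tower classes of a subgroup `N` of a subgroup `H` (ambient group `↥H`, coefficient module
`Res_N Res_H C`): the `N`-side inputs `hrecTN`, `c₀` of `alpha_extras_sesRes` are values of the
system on carry cochains of the BIG group.
-/
import Mathlib
import Fermat.Agent.S55.CycloRecip37.SysH2

set_option autoImplicit false
set_option linter.unusedSectionVars false

namespace Fermat.Agent.S55.GlobalInv91.SysSub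

open groupCohomology CategoryTheory Fermat.Agent.S55.CycloRecip37.GSys
  Fermat.Agent.S55.CycloRecip37.SysMore Fermat.Agent.S55.CycloRecip37.SysH2
  Fermat.Agent.S55.GlobalInv91 Fermat.Agent.S55.CycloRecip37.DescendK
  Fermat.Agent.S55.ProfinGlobal22

universe u

variable {k G : Type u} [CommRing k] [Group G] {C : Rep.{u, u, u} k G} {T : Type*}
  [AddCommGroup T] {n n' : ℕ} [NeZero n] [NeZero n']

/-- the value of `toH2 (restrict H I) N` on a tower class of `N ≤ ↥H`: the value of the system at
`N.map H.subtype` on the carry cochain of the big group. -/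
theorem toH2_restrict_carryH2 (I : Sys C T) (H : Subgroup G) (N : Subgroup H)
    (χ'' : G →* Multiplicative (ZMod n')) (χN : N →* Multiplicative (ZMod n))
    (hcarry : ∀ a : C, carry (resH (resH C H) N) χN a =
      carry (resH (resH C H) N) ((χ''.comp H.subtype).comp N.subtype) a)
    (a : (resH (resH C H) N).ρ.invariants) :
    toH2 (restrict H I) N (carryH2 (resH (resH C H) N) χN a) =
      I.S (N.map H.subtype) (carry C χ'' (a : C)) := by
  rw [carryH2_apply, toH2_H2π, restrict_S]
  refine I.congr _ _ _ (fun g hg b hb => ?_)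
  obtain ⟨hg', hgN⟩ := (mem_map_subtype H).1 hg
  obtain ⟨hb', hbN⟩ := (mem_map_subtype H).1 hb
  rw [ext0_of_mem H _ hg' hb', ext0_of_mem N _ hgN hbN]
  show carry (resH (resH C H) N) χN (a : C) (⟨⟨g, hg'⟩, hgN⟩, ⟨⟨b, hb'⟩, hbN⟩) = _
  rw [hcarry]
  rfl

/-- the same after a push-forward along `Res_H φ`. -/
theorem toH2_restrict_pushS₂_carryH2 {M : Rep.{u, u, u} k G} (I : Sys M T) (φ : C ⟶ M)
    (H : Subgroup G) (N : Subgroup H)
    (χ'' : G →* Multiplicative (ZMod n')) (χN : N →* Multiplicative (ZMod n))
    (hcarry : ∀ a : C, carry (resH (resH C H) N) χN a =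
      carry (resH (resH C H) N) ((χ''.comp H.subtype).comp N.subtype) a)
    (a : (resH (resH C H) N).ρ.invariants) :
    toH2 (restrict H I) N ((pushS₂ ((Rep.resFunctor H.subtype).map φ) N).hom
      (carryH2 (resH (resH C H) N) χN a)) =
      (I.comap φ).S (N.map H.subtype) (carry C χ'' (a : C)) := by
  rw [toH2_pushS₂]
  have h := toH2_restrict_carryH2 (I.comap φ) H N χ'' χN hcarry a
  rw [← h]
  rw [carryH2_apply, toH2_H2π, toH2_H2π]
  exact restrict_comap H I φ N _

end Fermat.Agent.S55.GlobalInv91.SysSub
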