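/-
S55 / 35-GLOBAL-INV (helper91): **D2 WIRING, part 2** — the hypothesis `halpha` of
`LimDesc99.D2.exists_invCp_V_fin` for the total invariant `D2Wire.invJU`, from ONE Sys-level input:
reciprocity of the total system on the tower classes at EVERY level (no level condition),
`hrecN`.  Everything else (level geometry: helper87 `D2Level`; 33: helper77; full degree:
helper6/helper54; the cyclic sub-layer: `alpha_extras_sesRes`) is discharged here.
-/
import Mathlib
import Fermat.Agent.S55.GlobalInv91.D2Wire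
import Fermat.Agent.S55.GlobalInv91.InstD2Alpha
import Fermat.Agent.S55.GlobalInv91.SysSub
import Fermat.Agent.S55.Adapt77.FinLayer33

set_option autoImplicit false
set_option linter.unusedSectionVars false

namespace Fermat.Agent.S55.GlobalInv91.D2Alpha

open CategoryTheory groupCohomology
open Fermat.Agent.S55.Profin15 Fermat.Agent.S55.Idele73.Basic
open Fermat.Agent.S55.ESDiv20 hiding GQ Qb
open Fermat.Agent.S55.CS79.FamilyCS Fermat.Agent.S55.CS79.Limit Fermat.Agent.S55.CS79.LevelClass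
open Fermat.Agent.S55.LimDesc99 Fermat.Agent.S55.LimDesc99.D2 Fermat.Agent.S55.CD3
open Fermat.Agent.S55.GlobalInv91 Fermat.Agent.S55.CycloGlobal87
open Fermat.Agent.S55.CycloGlobal87.D2Level Fermat.Agent.S55.GlobalInv91.D2Wire
open Fermat.Agent.S55.GlobalInv91.SysSub
open Fermat.Agent.S55.CycloRecip37 Fermat.Agent.S55.CycloRecip37.GSys
open Fermat.Agent.S55.CycloRecip37.SysH2 Fermat.Agent.S55.CycloRecip37.SysMore
open Fermat.Agent.S55.CycloRecip37.RecT Fermat.Agent.S55.CycloRecip37.Uncond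
open Fermat.Agent.S55.CycloRecip37.DescendK
open Fermat.Agent.S55.IdeleVal44 Fermat.Agent.S55.QZ33
open Fermat.Agent.S55.CLDescent35.Hilbert90
open Fermat.Agent.S55.FrobSys98.Tame
open Fermat.Agent.Lib.FrobeniusExists (isAlgebraic_Qb isAlgClosure_Qb isGalois_Qb)
open ExtCitation

attribute [local instance] isAlgebraic_Qb isAlgClosure_Qb isGalois_Qb
attribute [local instance] factPrimes44

/-! ### generic: carry cochains for the modulus `1` -/

section Generic

universe u

variable {k Γ : Type u} [CommRing k] [Group Γ] (C : Rep.{u, u, u} k Γ)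

theorem carry_eq_zero_of_subsingleton {n : ℕ} [NeZero n] [Subsingleton (ZMod n)]
    (χ : Γ →* Multiplicative (ZMod n)) (a : C) : carry C χ a = 0 := by
  funext x
  rw [carry_apply, Subsingleton.elim (chiVal χ x.1) 0, carryNat_zero_left, zero_smul]
  rfl

theorem carryH2_eq_zero_of_subsingleton {n : ℕ} [NeZero n] [Subsingleton (ZMod n)]
    (χ : Γ →* Multiplicative (ZMod n)) (a : C.ρ.invariants) : carryH2 C χ a = 0 := by
  rw [carryH2_eq_zero_iff, carry_eq_zero_of_subsingleton]
  exact ⟨0, fun g h => by simp⟩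

end Generic

/-- `S` is non-empty (metavariable-free form of `⟨_, hpS⟩`). -/
theorem nonemptyS (p : ℕ) [hp : Fact p.Prime] (S : Finset Nat.Primes)
    (hpS : (⟨p, hp.out⟩ : Nat.Primes) ∈ S) : S.Nonempty := ⟨_, hpS⟩

variable (p : ℕ) [hp : Fact p.Prime] (hp2 : p ≠ 2) (S : Finset Nat.Primes)
  (hpS : (⟨p, hp.out⟩ : Nat.Primes) ∈ S) (V : Subgroup GQ)
  (hV : IsOpenSub (globalLevels S) V)

/-- the tower layer of degree `p^0`: the trivial character. -/
theorem finLayerHyp_zero (hmu : ∀ σ ∈ V, cycloChar p σ = 1) (j : LevV S V) :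
    FinLayerHyp ((scFamV S V hV ⟨_, hpS⟩).d j).Y p 0
      (1 : ↥(HV S V j) →* Multiplicative (ZMod (p ^ 0))) (invJU p hp2 S hpS V hV j) := by
  haveI : Subsingleton (ZMod (p ^ 0)) := by
    rw [pow_zero]; infer_instance
  obtain ⟨ζ, hζ⟩ := Fermat.Agent.S55.Adapt77.FinLayer33V.exists_primitiveRoot_of_ker_le
    (p := p) j.1.1 j.2 hmu
  have hS : S.Nonempty := ⟨_, hpS⟩
  have hunr : UnrOutside j.1.1 S := unrOutside S j.1.1 j.1.unr
  have key : FinLayerHyp (sesRes hunr (HV S V j)) p 0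
      (1 : ↥(HV S V j) →* Multiplicative (ZMod (p ^ 0)))
      (toH2top (restrict (HV S V j) (totalSysU hp2 j.1.1 S))) := by
    refine finLayerHyp_sesRes p hunr hS
      (Fermat.Agent.S55.Adapt77.Leaf33Final.firstIneqOut_CS hS hp2 hunr)
      (Fermat.Agent.S55.Adapt77.Leaf33Final.secondIneqOut_top hpS hp2 j.1.unr hunr ζ hζ)
      (HV S V j) le_top 1 (fun y => ⟨1, Subsingleton.elim _ _⟩) _ (fun b => ?_) ⟨0, ?_⟩
    · have h0 : carryH2 (sesRes hunr (HV S V j)).X₁
          (1 : ↥(HV S V j) →* Multiplicative (ZMod (p ^ 0))) b = 0 :=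
        carryH2_eq_zero_of_subsingleton _ _ b
      exact (congrArg (fun t => toH2top (restrict (HV S V j) (totalSysU hp2 j.1.1 S))
        ((push₂ (sesRes hunr (HV S V j)).f).hom t)) h0).trans
        ((congrArg _ (map_zero _)).trans (map_zero _))
    · exact (congrArg addOrderOf ((congrArg _ (map_zero _)).trans (map_zero _))).trans
        (addOrderOf_zero.trans (pow_zero p).symm)
  exact key

/-- **the Sys-level reciprocity input** of `halpha`: the total system kills the tower classes of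
every level `M` with `ℚ_M ⊆ Ω_j`, on every subgroup (NO level condition). -/
def RecN : Prop :=
  ∀ (j : LevV S V) (M : ℕ) (hM : towerField p M ≤ j.1.1) (N' : Subgroup (GalL j.1.1))
    (a : Lx j.1.1), (∀ g ∈ N', (Lx j.1.1).ρ g a = a) →
    ((totalSysU hp2 j.1.1 S).comap (deltaS (unrOutside S j.1.1 j.1.unr))).S N'
      (carry (Lx j.1.1) (towerCharL p j.1.1 hp2 M hM) a) = 0

section NSide

variable (j : LevV S V) (N : Subgroup ↥(HV S V j))

/-- `N` as a subgroup of `Gal(Ω_j/ℚ)`. -/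
noncomputable abbrev NL : Subgroup (GalL j.1.1) := N.map (HV S V j).subtype

/-- `N ≃ N.map subtype`. -/
noncomputable abbrev NE : ↥N ≃* ↥(NL S V j N) :=
  Subgroup.equivMapOfInjective _ _ (Subgroup.subtype_injective _)

/-- the carry cochains of a tower character of `N` (over the base `Ω_j^N`) are those of the global
tower character. -/
theorem carry_alpha_char {k : Type} [CommRing k]
    (C : Rep.{0, 0, 0} k (GalL j.1.1)) (j₁ e₁ : ℕ)
    (hh : towerField p (j₁ + e₁) ≤ j.1.1)
    (hj₁ : ∀ g ∈ NL S V j N, towerCharL p j.1.1 hp2 j₁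
        ((towerField_mono p (Nat.le_add_right j₁ e₁)).trans hh) g = 1) (a : C) :
    carry (resH (resH C (HV S V j)) N)
      ((towerCharK p hp2 j.1.1 (NL S V j N) j₁ e₁ hh hj₁).comp (NE S V j N).toMonoidHom) a =
    carry (resH (resH C (HV S V j)) N)
      (((towerCharL p j.1.1 hp2 (j₁ + e₁) hh).comp (HV S V j).subtype).comp N.subtype) a := by
  funext x
  have h1 := congrFun (carry_towerCharL_comp_subtype p hp2 j.1.1 (NL S V j N) j₁ e₁ hh hj₁
    (resH C (NL S V j N)) a) (NE S V j N x.1, NE S V j N x.2)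
  exact h1.symm

include hpS in
/-- **the `N`-side of `halpha`** (`h1N`, `invCN`, `hinjN`, `hcompN`) for a cyclic `p`-subgroup
`N ≤ Gal(Ω_j/K)` on which a tower character over the base `Ω_j^N` is an isomorphism, with
`invJN := toH2 (restrict H_j (totalSysU …)) N`. -/
theorem nside (hmu : ∀ σ ∈ V, cycloChar p σ = 1) (hrecN : RecN p hp2 S V)
    (hN : IsPGroup p N) (j₁ e₁ : ℕ) (hh : towerField p (j₁ + e₁) ≤ j.1.1)
    (hj₁ : ∀ g ∈ NL S V j N, towerCharL p j.1.1 hp2 j₁
        ((towerField_mono p (Nat.le_add_right j₁ e₁)).trans hh) g = 1)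
    (hsurj : Function.Surjective (towerCharK p hp2 j.1.1 (NL S V j N) j₁ e₁ hh hj₁))
    (g : N) (hg : ∀ x : N, x ∈ Subgroup.zpowers g) (hgn : g ^ (p ^ e₁) = 1)
    (hs : chiVal ((towerCharK p hp2 j.1.1 (NL S V j N) j₁ e₁ hh hj₁).comp
      (NE S V j N).toMonoidHom) g = 1) :
    Limits.IsZero (groupCohomology (Rep.res N.subtype
      (sesRes (unrOutside S j.1.1 j.1.unr) (HV S V j)).X₃) 1) ∧
    ∃ invCN : H2 (Rep.res N.subtype
        (sesRes (unrOutside S j.1.1 j.1.unr) (HV S V j)).X₃) →+ QZ,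
      Function.Injective invCN ∧
      ∀ x : H2 (Rep.res N.subtype (sesRes (unrOutside S j.1.1 j.1.unr) (HV S V j)).X₂),
        invCN ((pushS₂ (sesRes (unrOutside S j.1.1 j.1.unr) (HV S V j)).g N).hom x) =
          toH2 (restrict (HV S V j) (totalSysU hp2 j.1.1 S)) N x := by
  have hex := Fermat.Agent.S55.Adapt77.FinLayer33V.exists_primitiveRoot_of_ker_le
    (p := p) j.1.1 j.2 hmu
  have hS : S.Nonempty := nonemptyS p S hpS
  -- reciprocity on `N`
  have hrecTN : ∀ b : (Rep.res N.subtype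
      (sesRes (unrOutside S j.1.1 j.1.unr) (HV S V j)).X₁).ρ.invariants,
      toH2 (restrict (HV S V j) (totalSysU hp2 j.1.1 S)) N
        ((pushS₂ (sesRes (unrOutside S j.1.1 j.1.unr) (HV S V j)).f N).hom
          (carryH2 (Rep.res N.subtype (sesRes (unrOutside S j.1.1 j.1.unr) (HV S V j)).X₁)
            ((towerCharK p hp2 j.1.1 (NL S V j N) j₁ e₁ hh hj₁).comp
              (NE S V j N).toMonoidHom) b)) = 0 := by
    intro b
    have h1 := toH2_restrict_pushS₂_carryH2 (totalSysU hp2 j.1.1 S)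
      (deltaS (unrOutside S j.1.1 j.1.unr)) (HV S V j) N
      (towerCharL p j.1.1 hp2 (j₁ + e₁) hh) _
      (carry_alpha_char p hp2 S V j N (Lx j.1.1) j₁ e₁ hh hj₁) b
    refine h1.trans ?_
    refine hrecN j (j₁ + e₁) hh _ _ (fun x hx => ?_)
    obtain ⟨y, hy, rfl⟩ := hx
    exact b.2 ⟨y, hy⟩
  -- a class of full degree on `N`
  have hc₀ : ∃ c₀ : H2 (Rep.res N.subtype (sesRes (unrOutside S j.1.1 j.1.unr) (HV S V j)).X₂),
      addOrderOf (toH2 (restrict (HV S V j) (totalSysU hp2 j.1.1 S)) N c₀) = p ^ e₁ := by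
    by_cases he : e₁ = 0
    · refine ⟨0, ?_⟩
      exact (congrArg addOrderOf (map_zero _)).trans
        (addOrderOf_zero.trans (by rw [he, pow_zero]))
    · have hzex := Fermat.Agent.S55.FullDeg6.exists_idealSys_carry_addOrderOf p j.1.1 S
        j.1.unr qzProj qzProj_one (fun _ => rfl) (NL S V j N) j₁ e₁ rfl he
        (towerCharMulL p j.1.1 hp2 j₁ e₁ hh)
        (towerCharK p hp2 j.1.1 (NL S V j N) j₁ e₁ hh hj₁) hsurj
        (val_towerCharMulL_eq p hp2 j.1.1 (NL S V j N) j₁ e₁ hh hj₁)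
      refine Exists.elim hzex (fun z hz' => ?_)
      have hz := hz'.1
      have hord := hz'.2
      have hinv : ∀ g : N, (Rep.res N.subtype
          (sesRes (unrOutside S j.1.1 j.1.unr) (HV S V j)).X₂).ρ g
          ((prodRep.inr (JS j.1.1 S) (IS j.1.1 S)).hom z) =
          (prodRep.inr (JS j.1.1 S) (IS j.1.1 S)).hom z := by
        intro g
        change (JIS j.1.1 S).ρ ((g : ↥(HV S V j)) : GalL j.1.1) _ = _
        rw [← Rep.hom_comm_apply]
        exact congrArg _ (hz _ ⟨g.1, g.2, rfl⟩)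
      refine ⟨carryH2 _ ((towerCharK p hp2 j.1.1 (NL S V j N) j₁ e₁ hh hj₁).comp
        (NE S V j N).toMonoidHom) ⟨(prodRep.inr (JS j.1.1 S) (IS j.1.1 S)).hom z, hinv⟩, ?_⟩
      have h2 := toH2_restrict_carryH2 (totalSysU hp2 j.1.1 S) (HV S V j) N
        (towerCharL p j.1.1 hp2 (j₁ + e₁) hh) _
        (carry_alpha_char p hp2 S V j N (JIS j.1.1 S) j₁ e₁ hh hj₁)
        ⟨(prodRep.inr (JS j.1.1 S) (IS j.1.1 S)).hom z, hinv⟩
      have h3 : carry (JIS j.1.1 S) (towerCharL p j.1.1 hp2 (j₁ + e₁) hh)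
          ((prodRep.inr (JS j.1.1 S) (IS j.1.1 S)).hom z) =
          fun x => (prodRep.inr (JS j.1.1 S) (IS j.1.1 S)).hom
            (carry (IS j.1.1 S) (towerCharL p j.1.1 hp2 (j₁ + e₁) hh) z x) := by
        funext x
        simp only [carry, map_nsmul]
      refine (congrArg addOrderOf (h2.trans ?_)).trans hord
      exact (congrArg (fun f => (totalSysU hp2 j.1.1 S).S (NL S V j N) f) h3).trans
        ((Fermat.Agent.S55.CycloRecip37.RecTSeam.totalSysU_comap_inr hp2 (NL S V j N) _).trans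
          (congrArg _ (carry_towerCharMulL p hp2 j.1.1 j₁ e₁ hh (IS j.1.1 S) z).symm))
  refine Exists.elim hc₀ (fun c₀ hc₀' => ?_)
  exact alpha_extras_sesRes p (unrOutside S j.1.1 j.1.unr) hS
    (Fermat.Agent.S55.Adapt77.Leaf33Final.firstIneqOut_CS hS hp2 (unrOutside S j.1.1 j.1.unr))
    (Fermat.Agent.S55.Adapt77.Leaf33Final.secondIneqOut_top hpS hp2 j.1.unr
      (unrOutside S j.1.1 j.1.unr) hex.choose hex.choose_spec)
    (HV S V j) le_top N hN g hg _ hgn hs _ hrecTN c₀ hc₀'

end NSide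

/-- the trivial layer, for an exponent known to be `0`. -/
theorem finLayerHyp_triv (hmu : ∀ σ ∈ V, cycloChar p σ = 1) (e : ℕ) (he : e = 0)
    (j : LevV S V) :
    FinLayerHyp ((scFamV S V hV (nonemptyS p S hpS)).d j).Y p e
      (1 : ↥(HV S V j) →* Multiplicative (ZMod (p ^ e))) (invJU p hp2 S hpS V hV j) := by
  subst he
  exact finLayerHyp_zero p hp2 S hpS V hV hmu j

/-- a tower layer of ANY degree `p^e` at a level `towerLevV i M`. -/
theorem exists_layer (hmu : ∀ σ ∈ V, cycloChar p σ = 1) (i : LevV S V) (e : ℕ) :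
    ∃ (M : ℕ) (χ : ↥(HV S V (towerLevV p S hpS V i M)) →* Multiplicative (ZMod (p ^ e))),
      FinLayerHyp ((scFamV S V hV (nonemptyS p S hpS)).d (towerLevV p S hpS V i M)).Y p e χ
        (invJU p hp2 S hpS V hV (towerLevV p S hpS V i M)) := by
  by_cases he : e = 0
  · exact ⟨0, 1, finLayerHyp_triv p hp2 S hpS V hV hmu e he _⟩
  · have h1 := exists_level_finLayerHyp p hp2 S hpS V hV hmu e (Nat.one_le_iff_ne_zero.2 he)
    refine Exists.elim h1 (fun M₁ hM₁ => ?_)
    have h2 := hM₁ M₁ le_rfl (towerLevV p S hpS V i M₁) (towerField_le_towerLevV p S hpS V i M₁)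
    refine Exists.elim h2 (fun j₀ h3 => Exists.elim h3 (fun hje h4 => Exists.elim h4
      (fun hj hfin => ⟨M₁, _, hfin⟩)))

/-- **`halpha` of `LimDesc99.D2.exists_invCp_V_fin`** for `invJU`, from the Sys-level reciprocity
`RecN` (no level condition) alone. -/
theorem halpha_D2_of_recN (hmu : ∀ σ ∈ V, cycloChar p σ = 1) (hrecN : RecN p hp2 S V)
    (i : LevV S V) :
    ∃ (j : LevV S V) (h : j ≤ i) (m : ℕ)
      (χ : ((scFamV S V hV (nonemptyS p S hpS)).d j).Q →* Multiplicative (ZMod (p ^ m))),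
      FinLayerHyp ((scFamV S V hV (nonemptyS p S hpS)).d j).Y p m χ
        (invJU p hp2 S hpS V hV j) ∧
      Nat.card (Fermat.Agent.S55.InfRes9.pPrimary p
        (H2 ((scFamV S V hV (nonemptyS p S hpS)).d i).Y.X₃)) ∣ p ^ m ∧
      p ^ m ∣ (SCDatum.q ((scFamV S V hV (nonemptyS p S hpS)).mono h)).ker.index ∧
      Limits.IsZero (groupCohomology
        (Rep.res (SCDatum.q ((scFamV S V hV (nonemptyS p S hpS)).mono h)).ker.subtype
          ((scFamV S V hV (nonemptyS p S hpS)).d j).Y.X₃) 1) ∧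
      ∃ invJN : H2 (Rep.res (SCDatum.q ((scFamV S V hV (nonemptyS p S hpS)).mono h)).ker.subtype
          ((scFamV S V hV (nonemptyS p S hpS)).d j).Y.X₂) →+ QZ,
        (∀ y : H2 ((scFamV S V hV (nonemptyS p S hpS)).d j).Y.X₂,
          invJN ((res₂ ((scFamV S V hV (nonemptyS p S hpS)).d j).Y.X₂
            (SCDatum.q ((scFamV S V hV (nonemptyS p S hpS)).mono h)).ker).hom y) =
            (SCDatum.q ((scFamV S V hV (nonemptyS p S hpS)).mono h)).ker.index •
              invJU p hp2 S hpS V hV j y) ∧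
        ∃ invCN : H2 (Rep.res
            (SCDatum.q ((scFamV S V hV (nonemptyS p S hpS)).mono h)).ker.subtype
            ((scFamV S V hV (nonemptyS p S hpS)).d j).Y.X₃) →+ QZ,
          Function.Injective invCN ∧
          ∀ x : H2 (Rep.res
              (SCDatum.q ((scFamV S V hV (nonemptyS p S hpS)).mono h)).ker.subtype
              ((scFamV S V hV (nonemptyS p S hpS)).d j).Y.X₂),
            invCN ((pushS₂ ((scFamV S V hV (nonemptyS p S hpS)).d j).Y.g
              (SCDatum.q ((scFamV S V hV (nonemptyS p S hpS)).mono h)).ker).hom x) =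
              invJN x := by
  have hlay := exists_layer p hp2 S hpS V hV hmu i ((Nat.card ↥(HV S V i)).factorization p)
  refine Exists.elim hlay (fun M h1 => Exists.elim h1 (fun χ hfin => ?_))
  have hex := Fermat.Agent.S55.Adapt77.FinLayer33V.exists_primitiveRoot_of_ker_le
    (p := p) i.1.1 i.2 hmu
  have hal := exists_alpha_char p hp2 S hpS V hV (nonemptyS p S hpS) i M
  refine Exists.elim hal (fun j₁ h2 => Exists.elim h2 (fun e₁ h3 => Exists.elim h3
    (fun _ h4 => Exists.elim h4 (fun hh h5 => Exists.elim h5 (fun hj₁ h6 =>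
      Exists.elim h6.2 (fun g hg => ?_))))))
  have hns := nside p hp2 S hpS V (towerLevV p S hpS V i M)
    (SCDatum.q ((scFamV S V hV (nonemptyS p S hpS)).mono (towerLevV_le p S hpS V i M))).ker
    hmu hrecN (isPGroup_ker_q p hp2 S hpS V hV (nonemptyS p S hpS) i M) j₁ e₁ hh hj₁
    (fun y => Exists.elim (h6.1.2 y) (fun x hx =>
      ⟨kerQEquiv p S hpS V hV (nonemptyS p S hpS) i M x, hx⟩))
    g hg.1 hg.2.1 hg.2.2
  refine ⟨towerLevV p S hpS V i M, towerLevV_le p S hpS V i M, _, χ, hfin, ?_, ?_, hns.1,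
    toH2 (restrict (HV S V (towerLevV p S hpS V i M))
      (totalSysU hp2 (towerLevV p S hpS V i M).1.1 S)) _,
    fun y => toH2_res₂ (restrict (HV S V (towerLevV p S hpS V i M))
      (totalSysU hp2 (towerLevV p S hpS V i M).1.1 S)) _ y, hns.2⟩
  · exact Fermat.Agent.S55.Adapt77.FinLayer33.hb hpS hp2 i.1.unr (unrOutside S i.1.1 i.1.unr)
      hex.choose hex.choose_spec (HV S V i) rfl
  · rw [index_ker_q S V hV (nonemptyS p S hpS) (towerLevV_le p S hpS V i M)]
    exact Nat.ordProj_dvd _ _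

end Fermat.Agent.S55.GlobalInv91.D2Alpha
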