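import Fermat.Agent.S55.GlobalInv91.InstFin
import Fermat.Agent.S55.CLDescent35.Hilbert90
import Fermat.Agent.S55.Idele73.InfSum
import Fermat.Agent.S55.Adapt77.TowerInputsP

/-!
# S55 / 35-GLOBAL-INV (helper91): `FinLayerHyp` in the D2 model

`L` a finite Galois level unramified outside `S`, `H ≤ Gal(L/ℚ)` (`K = L^H`),
`Y = sesRes h H = Res_H (Lˣ → J_S(L) × I^S(L) → C_S(L))` (helper44 `sesJIS`, helper35 `sesRes`),
`χ : H → ZMod (p ^ m)` onto (helper87 `towerCharK`).

`finLayerHyp_sesRes`: all the fields of `FinLayerHyp Y p m χ invJ` except the two arithmetic ones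
(`recT`: reciprocity on the tower classes, 34; `fullDeg`: a class of full local degree) are
discharged: exactness (helper44), Hilbert 90 for `Lˣ` (helper35/helper73), `H¹(Z, J_S × I^S) = 0`
(helper73), the `p`-part of `H¹(Z, C_S)` and the bound on `H²` of the tower layer from the two
inequalities (31-OUT, 32-OUT through helper77's `Adapt77.TowerInputsP`).
-/

set_option autoImplicit false
set_option linter.unusedSectionVars false

namespace Fermat.Agent.S55.GlobalInv91

open groupCohomology CategoryTheory Rep Limits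
open Fermat.Agent.S55.Idele73.Basic Fermat.Agent.S55.IdeleVal44
open Fermat.Agent.S55.CLDescent35.Hilbert90
open Fermat.Agent.S55.Adapt77.HcycGlue Fermat.Agent.S55.Adapt77.SubQuotBelow

universe u

section Generic

variable {k G : Type u} [CommRing k] [Group G]

/-- `H¹` of an iterated restriction. -/
theorem isZero_H1_res_res_of_map (A : Rep.{u, u, u} k G) (H : Subgroup G) (Z : Subgroup H)
    (h : IsZero (groupCohomology (res (Z.map H.subtype).subtype A) 1)) :
    IsZero (groupCohomology (res Z.subtype (res H.subtype A)) 1) := by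
  let e : Z ≃* Z.map H.subtype := Z.equivMapOfInjective H.subtype H.subtype_injective
  refine h.of_iso (mapIso (A := res (Z.map H.subtype).subtype A)
    (B := res Z.subtype (res H.subtype A)) e (LinearEquiv.refl k A.V) (fun g => ?_) 1)
  apply LinearMap.ext
  intro x
  rfl

/-- a surjective character takes the value `1`. -/
theorem exists_chiVal_eq_one {Γ : Type*} [Group Γ] {n : ℕ}
    (χ : Γ →* Multiplicative (ZMod n)) (hχ : Function.Surjective χ) :
    ∃ s : Γ, chiVal χ s = 1 := by
  obtain ⟨s, hs⟩ := hχ (Multiplicative.ofAdd 1)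
  exact ⟨s, by rw [chiVal, hs, toAdd_ofAdd]⟩

end Generic

variable (p : ℕ) [Fact p.Prime] {L : IntermediateField ℚ Qbar} [Normal ℚ L]
  [FiniteDimensional ℚ L] {S : Finset Nat.Primes} (h : UnrOutside L S) (hS : S.Nonempty)

include hS in
/-- **`FinLayerHyp` in the D2 model, up to the two arithmetic fields.** -/
theorem finLayerHyp_sesRes {H₀ : Subgroup (GalL L)}
    (h31 : FirstIneqOut (CS h) H₀ p) (h32 : SecondIneqOut (CS h) H₀ p)
    (H : Subgroup (GalL L)) (hH : H ≤ H₀) {m : ℕ}
    (χ : H →* Multiplicative (ZMod (p ^ m))) (hχ : Function.Surjective χ)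
    {T : Type*} [AddCommGroup T] (invJ : H2 (sesRes h H).X₂ →+ T)
    (hrecT : ∀ b : (sesRes h H).X₁.ρ.invariants,
      invJ ((push₂ (sesRes h H).f).hom (carryH2 (sesRes h H).X₁ χ b)) = 0)
    (hfull : ∃ c₀ : H2 ((sesRes h H).X₂.quotientToInvariants χ.ker),
      addOrderOf (invJ ((infl₂ (sesRes h H).X₂ χ.ker).hom c₀)) = p ^ m) :
    FinLayerHyp (sesRes h H) p m χ invJ where
  finite := inferInstance
  shortExact := sesRes_shortExact h hS H
  exists_s := exists_chiVal_eq_one χ hχ
  h1E := isZero_H1_Lx L H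
  h1ZE := isZero_H1_res_res_of_map (Lx L) H χ.ker (isZero_H1_Lx L _)
  h1ZJ := isZero_H1_res_res_of_map (JIS L S) H χ.ker
    (Idele73.InfSum.isZero_H1_res_JIS L _ S)
  h1ZC := (Adapt77.TowerInputsP.pPart_res_of_below h31 h32
    (Adapt77.TowerInputsP.isSubQuotBelow_res H hH) χ.ker).1
  recT := hrecT
  cardZ := by
    have hs := exists_chiVal_eq_one χ hχ
    obtain ⟨s, hs⟩ := hs
    have hcard : Nat.card (H ⧸ χ.ker) = p ^ m := card_quot hs
    have := Adapt77.TowerInputsP.card_pPrimary_H2_quot_of_below h31 h32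
      (Adapt77.TowerInputsP.isSubQuotBelow_res H hH) χ.ker
    rwa [hcard, Nat.Prime.factorization_pow Fact.out, Finsupp.single_eq_same] at this
  fullDeg := hfull

end Fermat.Agent.S55.GlobalInv91
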