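import Fermat.Agent.S55.GlobalInv91.Carry

/-!
# S55 / 35-GLOBAL-INV (helper91): the abstract tower lemma

`Γ` a group, `C : Rep k Γ`, `N ⊴ Γ` (think `Γ = Gal(L·K_n/K)`, `N = Gal(L·K_n/L)`),
`χ : Γ → ZMod n` the character of the distinguished cyclic layer `K_n/K` (`ker χ = Gal(L·K_n/K_n)`).
If the tower class `δχ ∪ a` dies on `N` then it is inflated from `Γ ⧸ N`; if moreover `a` has exact
order `n` modulo norms from the layer and `|H²(Γ ⧸ N, C^N)|` divides `n`, the class it comes from
is a generator of exact order `n`: the fundamental class.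

The degree-2 inflation–restriction sequence (helper38, `Devissage38.InfRes2`) enters through the
two named hypotheses `hmono` and `hexact`.
-/

set_option autoImplicit false
set_option linter.unusedSectionVars false

namespace Fermat.Agent.S55.GlobalInv91

open groupCohomology CategoryTheory Rep

universe u

variable {k Γ : Type u} [CommRing k] [Group Γ] (C : Rep k Γ) (N : Subgroup Γ) [N.Normal]

/-- Inflation `H²(Γ ⧸ N, C^N) ⟶ H²(Γ, C)` (the map `f` of helper38's `H2InfRes`). -/
noncomputable abbrev infl₂ : H2 (C.quotientToInvariants N) ⟶ H2 C :=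
  map (QuotientGroup.mk' N) (ofHom <| C.ρ.quotientToInvariants_lift N) 2

/-- Restriction `H²(Γ, C) ⟶ H²(N, C)` (the map `g` of helper38's `H2InfRes`). -/
noncomputable abbrev res₂ (S : Subgroup Γ) : H2 C ⟶ H2 (res S.subtype C) :=
  map S.subtype (𝟙 _) 2

variable {n : ℕ} [NeZero n]

/-- Restriction of a tower class is the tower class of the restricted character. -/
theorem res₂_carryH2 (S : Subgroup Γ) (χ : Γ →* Multiplicative (ZMod n)) (a : C.ρ.invariants) :
    res₂ C S (carryH2 C χ a) =
      H2π (res S.subtype C) ⟨carry (res S.subtype C) (χ.comp S.subtype) (a : C),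
        carry_mem_cocycles₂ (res S.subtype C) (χ.comp S.subtype) (a : C)
          (fun g => a.2 (g : Γ))⟩ := by
  rw [carryH2_apply]
  erw [H2π_comp_map_apply]
  congr 1


/-- `n • a` is the norm of the invariant element `a` itself. -/
lemma partialNorm_self_of_invariant (s : Γ) (a : C) (ha : ∀ g : Γ, C.ρ g a = a) (m : ℕ) :
    partialNorm C s a m = m • a := by
  unfold partialNorm
  rw [Finset.sum_congr rfl (fun i _ => ha (s ^ i)), Finset.sum_const, Finset.card_range]

/-- **The tower lemma.**  Hypotheses: `hmono`/`hexact` = degree-2 inflation–restriction for `N`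
(helper38 `H2InfRes_mono`/`H2InfRes_exact`, valid when `H¹(N, C) = 0`); `hH1Z` = `H¹(ker χ, C) = 0`
in elementary form; `hd` = the tower class of `a` dies on `N`; `hc` = `a` has exact order `n`
modulo norms from the layer; `hb` = `|H²(Γ ⧸ N, C^N)|` divides `n`. -/
theorem exists_fundamental_class
    (hmono : Function.Injective (infl₂ C N).hom)
    (hexact : ∀ x : H2 C, (res₂ C N).hom x = 0 → ∃ y, (infl₂ C N).hom y = x)
    (χ : Γ →* Multiplicative (ZMod n)) (s : Γ) (hs : chiVal χ s = 1)
    (hH1Z : ∀ f : χ.ker → C, (∀ z w : χ.ker, f (z * w) = C.ρ (z : Γ) (f w) + f z) →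
      ∃ y : C, ∀ z : χ.ker, f z = C.ρ (z : Γ) y - y)
    (a : C.ρ.invariants)
    (hd : IsCob₂ (res N.subtype C) (carry (res N.subtype C) (χ.comp N.subtype) (a : C)))
    (hc : ∀ m : ℕ, (∃ b : C, (∀ z : Γ, χ z = 1 → C.ρ z b = b) ∧
      m • (a : C) = partialNorm C s b n) → n ∣ m)
    [Finite (H2 (C.quotientToInvariants N))]
    (hb : Nat.card (H2 (C.quotientToInvariants N)) ∣ n) :
    ∃ γ : H2 (C.quotientToInvariants N), (infl₂ C N).hom γ = carryH2 C χ a ∧
      addOrderOf γ = n ∧ ∀ x : H2 (C.quotientToInvariants N), ∃ j : ℤ, x = j • γ := by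
  have hres : (res₂ C N).hom (carryH2 C χ a) = 0 := by
    have := res₂_carryH2 C N χ a
    rw [show (res₂ C N).hom (carryH2 C χ a) = res₂ C N (carryH2 C χ a) from rfl, this,
      H2π_eq_zero_iff]
    exact (isCob₂_iff_mem _ _).1 hd
  obtain ⟨γ, hγ⟩ := hexact _ hres
  have hzero : ∀ m : ℕ, m • γ = 0 ↔ n ∣ m := by
    intro m
    constructor
    · intro hm
      apply hc m
      have h1 : carryH2 C χ (m • a) = 0 := by
        rw [map_nsmul, ← hγ, ← map_nsmul, hm, map_zero]
      rw [carryH2_eq_zero_iff] at h1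
      obtain ⟨b, hb1, hb2⟩ := exists_norm_of_carry_isCob₂ (C := C) hs hH1Z
        (fun g => (m • a).2 g) h1
      exact ⟨b, hb1, hb2⟩
    · rintro ⟨c, rfl⟩
      apply hmono
      rw [map_nsmul, hγ, map_zero, mul_nsmul']
      have h2 : carryH2 C χ (n • a) = 0 := by
        rw [carryH2_eq_zero_iff]
        have := carry_isCob₂_of_norm (C := C) (χ := χ) (s := s) (b := (a : C)) hs
          (fun z _ => a.2 z)
        rw [partialNorm_self_of_invariant C s (a : C) (fun g => a.2 g)] at this
        exact this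
      rw [smul_comm, ← map_nsmul, h2, smul_zero]
  have hord : addOrderOf γ = n := by
    apply Nat.dvd_antisymm
    · exact addOrderOf_dvd_of_nsmul_eq_zero ((hzero n).2 dvd_rfl)
    · exact (hzero _).1 (addOrderOf_nsmul_eq_zero γ)
  refine ⟨γ, hγ, hord, ?_⟩
  -- generation by counting
  have hcard : Nat.card (AddSubgroup.zmultiples γ) = n := by
    rw [Nat.card_zmultiples, hord]
  have hle : Nat.card (AddSubgroup.zmultiples γ) ∣ Nat.card (H2 (C.quotientToInvariants N)) :=
    AddSubgroup.card_addSubgroup_dvd_card _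
  have hn0 : 0 < n := Nat.pos_of_ne_zero (NeZero.ne n)
  have heq : Nat.card (AddSubgroup.zmultiples γ) = Nat.card (H2 (C.quotientToInvariants N)) := by
    rw [hcard] at hle ⊢
    exact Nat.dvd_antisymm hle hb
  have htop : AddSubgroup.zmultiples γ = ⊤ := AddSubgroup.eq_top_of_card_eq _ heq
  intro x
  have hx : x ∈ AddSubgroup.zmultiples γ := htop ▸ AddSubgroup.mem_top x
  obtain ⟨j, hj⟩ := AddSubgroup.mem_zmultiples_iff.1 hx
  exact ⟨j, hj.symm⟩

end Fermat.Agent.S55.GlobalInv91
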