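import Fermat.Agent.S55.GlobalInv91.Tower

/-!
# S55 / 35-GLOBAL-INV (helper91): the norm criterion for carry classes, `p`-primary form

The dévissage (33) only gives the `p`-primary vanishing of `H¹(Z, C)` when `Z` is not a `p`-group:
`H¹(Z, C)` is killed by some `m'` prime to `p`.  This is enough for the converse norm criterion
when the layer `Γ ⧸ ker χ` has `p`-power order `n`: if `δχ ∪ a` is a coboundary then `a` is a norm.

* `exists_norm_of_carry_eq_d`: the core (the restriction of the primitive to `ker χ` is given as a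
  coboundary).
* `exists_norm_of_carry_isCob₂_of_coprime`: `m' • (1-cocycles of ker χ)` are coboundaries,
  `m'` coprime to `n`.
-/

set_option autoImplicit false
set_option linter.unusedSectionVars false

namespace Fermat.Agent.S55.GlobalInv91

open groupCohomology

universe u

variable {k Γ : Type u} [CommRing k] [Group Γ] {C : Rep k Γ} {n : ℕ} [NeZero n]
  {χ : Γ →* Multiplicative (ZMod n)} {s : Γ} {a : C}

/-- Core of the converse norm criterion: a primitive `x` of the carry cocycle of `a` whose
restriction to `ker χ` is the coboundary of `y`. -/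
theorem exists_norm_of_carry_eq_d (hs : chiVal χ s = 1) (ha : ∀ g : Γ, C.ρ g a = a)
    (x : Γ → C)
    (hx : ∀ g h : Γ, C.ρ g (x h) - x (g * h) + x g = carry C χ a (g, h))
    (y : C) (hy : ∀ z : Γ, χ z = 1 → x z = C.ρ z y - y) :
    ∃ b : C, (∀ z : Γ, χ z = 1 → C.ρ z b = b) ∧ a = partialNorm C s b n := by
  by_cases hn : n = 1
  · subst hn
    refine ⟨a, fun z _ => ha z, ?_⟩
    simp [partialNorm]
  simp only [carry_apply] at hx
  have hker : ∀ z : Γ, χ z = 1 → chiVal χ z = 0 := fun z hz => by
    show Multiplicative.toAdd (χ z) = 0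
    rw [hz]; rfl
  set x' : Γ → C := fun g => x g - (C.ρ g y - y) with hx'def
  have hx' : ∀ g h : Γ, C.ρ g (x' h) - x' (g * h) + x' g =
      carryNat n (chiVal χ g) (chiVal χ h) • a := by
    intro g h
    rw [← hx g h]
    simp only [hx'def, map_sub, map_mul, Module.End.mul_apply]
    abel
  have hx'Z : ∀ z : Γ, χ z = 1 → x' z = 0 := by
    intro z hz
    have := hy z hz
    simp only [hx'def]
    rw [sub_eq_zero]
    exact this
  have h3a : ∀ g z : Γ, χ z = 1 → x' (g * z) = x' g := by
    intro g z hz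
    have := hx' g z
    rw [hker z hz, carryNat_zero_right, zero_smul, hx'Z z hz, map_zero, zero_sub,
      neg_add_eq_zero] at this
    exact this
  have h3b : ∀ z g : Γ, χ z = 1 → x' (z * g) = C.ρ z (x' g) := by
    intro z g hz
    have := hx' z g
    rw [hker z hz, carryNat_zero_left, zero_smul, hx'Z z hz, add_zero, sub_eq_zero] at this
    exact this.symm
  have h4 : ∀ z g : Γ, χ z = 1 → C.ρ z (x' g) = x' g := by
    intro z g hz
    rw [← h3b z g hz]
    have hconj : χ (g⁻¹ * z * g) = 1 := by
      rw [map_mul, map_mul, hz, mul_one, map_inv, inv_mul_cancel]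
    have : z * g = g * (g⁻¹ * z * g) := by group
    rw [this, h3a g _ hconj]
  refine ⟨x' s, fun z hz => h4 z s hz, ?_⟩
  have hsum : ∑ i ∈ Finset.range n, (C.ρ (s ^ i) (x' s) - x' (s ^ i * s) + x' (s ^ i)) =
      ∑ i ∈ Finset.range n, carryNat n ((i : ℕ) : ZMod n) 1 • a := by
    refine Finset.sum_congr rfl fun i _ => ?_
    rw [hx' (s ^ i) s, chiVal_pow hs, hs]
  rw [← Finset.sum_smul, sum_carryNat_natCast_one hn, one_smul] at hsum
  rw [← hsum]
  have htel : ∑ i ∈ Finset.range n, (x' (s ^ i) - x' (s ^ i * s)) = x' (s ^ 0) - x' (s ^ n) := by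
    have := Finset.sum_range_sub' (fun i => x' (s ^ i)) n
    simp only [pow_succ] at this
    exact this
  have hsn : χ (s ^ n) = 1 := by
    have : chiVal χ (s ^ n) = 0 := by rw [chiVal_pow hs]; exact ZMod.natCast_self n
    exact this
  have e1 : ∑ i ∈ Finset.range n, (C.ρ (s ^ i) (x' s) - x' (s ^ i * s) + x' (s ^ i)) =
      partialNorm C s (x' s) n + ∑ i ∈ Finset.range n, (x' (s ^ i) - x' (s ^ i * s)) := by
    unfold partialNorm
    rw [← Finset.sum_add_distrib]
    refine Finset.sum_congr rfl fun i _ => ?_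
    abel
  rw [e1, htel, pow_zero, hx'Z 1 (map_one χ), hx'Z _ hsn, sub_zero, add_zero]

/-- `partialNorm` is additive in the element. -/
lemma partialNorm_add_right (s : Γ) (b b' : C) (m : ℕ) :
    partialNorm C s (b + b') m = partialNorm C s b m + partialNorm C s b' m := by
  unfold partialNorm
  rw [← Finset.sum_add_distrib]
  exact Finset.sum_congr rfl fun i _ => map_add _ _ _

lemma partialNorm_zsmul_right (s : Γ) (j : ℤ) (b : C) (m : ℕ) :
    partialNorm C s (j • b) m = j • partialNorm C s b m := by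
  unfold partialNorm
  rw [Finset.smul_sum]
  exact Finset.sum_congr rfl fun i _ => map_zsmul _ _ _

/-- **Converse norm criterion, `p`-primary form**: if `m' • (1-cocycles of ker χ)` are
coboundaries for some `m'` coprime to `n`, and the carry cocycle of the invariant element `a` is a
coboundary, then `a` is a norm from the layer. -/
theorem exists_norm_of_carry_isCob₂_of_coprime (hs : chiVal χ s = 1) {m' : ℕ}
    (hm' : Nat.Coprime m' n)
    (hH1 : ∀ f : χ.ker → C, (∀ z w : χ.ker, f (z * w) = C.ρ (z : Γ) (f w) + f z) →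
      ∃ y : C, ∀ z : χ.ker, m' • f z = C.ρ (z : Γ) y - y)
    (ha : ∀ g : Γ, C.ρ g a = a) (h : IsCob₂ C (carry C χ a)) :
    ∃ b : C, (∀ z : Γ, χ z = 1 → C.ρ z b = b) ∧ a = partialNorm C s b n := by
  obtain ⟨x, hx⟩ := h
  have hker : ∀ z : Γ, χ z = 1 → chiVal χ z = 0 := fun z hz => by
    show Multiplicative.toAdd (χ z) = 0
    rw [hz]; rfl
  obtain ⟨y, hy⟩ := hH1 (fun z => x z) (fun z w => by
    have := hx z w
    rw [carry_apply, hker z z.2, hker w w.2, carryNat_zero_left, zero_smul] at this
    show x ((z : Γ) * (w : Γ)) = _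
    rw [sub_add_eq_add_sub, sub_eq_zero] at this
    exact this.symm)
  -- apply the core to `m' • a`, `m' • x`
  obtain ⟨b₀, hb₀, hab₀⟩ := exists_norm_of_carry_eq_d (C := C) (χ := χ) (s := s) (a := m' • a) hs
    (fun g => by rw [map_nsmul, ha g]) (fun g => m' • x g)
    (fun g h => by
      rw [carry_nsmul, Pi.smul_apply, ← hx g h, map_nsmul]
      simp only [smul_add, smul_sub])
    y (fun z hz => hy ⟨z, hz⟩)
  -- Bézout
  have hcop : IsCoprime (m' : ℤ) (n : ℤ) := Nat.isCoprime_iff_coprime.2 hm'
  obtain ⟨u, v, huv⟩ := hcop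
  refine ⟨u • b₀ + v • a, fun z hz => ?_, ?_⟩
  · rw [map_add, map_zsmul, map_zsmul, hb₀ z hz, ha z]
  · rw [partialNorm_add_right, partialNorm_zsmul_right, partialNorm_zsmul_right, ← hab₀,
      partialNorm_self_of_invariant C s a ha]
    have h1 : (u * (m' : ℤ) + v * (n : ℤ)) • a = a := by rw [huv, one_smul]
    rw [add_smul, mul_smul, mul_smul, natCast_zsmul, natCast_zsmul] at h1
    exact h1.symm

end Fermat.Agent.S55.GlobalInv91
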