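import Mathlib

/-!
# S55 / 35-GLOBAL-INV (helper91): (35-CYC) the invariant of a cyclic layer, abstract algebra

`HE = H²(G', L'ˣ)`, `HJ = H²(G', J_{L'})`, `HC = H²(G', C_{L'})` for a cyclic layer `L'/K` of degree
`n`; `i`, `π` the maps of the long exact sequence; `invJ = Σ_v inv_v`.  Hypotheses: exactness in
the middle, `π` onto (`H³(G', L'ˣ) = 0`), reciprocity `invJ ∘ i = 0`, `|HC| ∣ n` (second inequality
/ dévissage), and some idele class with invariant of exact order `n` (a place of full local degree).
Conclusions: `invJ` descends to an injective `invC` with image the cyclic group generated by an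
element of order `n`; `|HC| = n`; and the Hasse realisation `ker invJ = range i`.
-/

set_option autoImplicit false

namespace Fermat.Agent.S55.GlobalInv91

variable {HE HJ HC T : Type*} [AddCommGroup HE] [AddCommGroup HJ] [AddCommGroup HC]
  [AddCommGroup T]

/-- **(35-CYC), abstract.** -/
theorem cyclic_layer_inv (i : HE →+ HJ) (π : HJ →+ HC) (invJ : HJ →+ T)
    (hex : ∀ c : HJ, π c = 0 → ∃ e, i e = c) (hsurj : Function.Surjective π)
    (hrec : ∀ e : HE, invJ (i e) = 0)
    {n : ℕ} (hn : 0 < n) [Finite HC] (hcard : Nat.card HC ∣ n)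
    (c₀ : HJ) (hc₀ : addOrderOf (invJ c₀) = n) :
    ∃ invC : HC →+ T, (∀ c : HJ, invC (π c) = invJ c) ∧ Function.Injective invC ∧
      Nat.card HC = n ∧ invC.range = AddSubgroup.zmultiples (invJ c₀) ∧
      ∀ c : HJ, invJ c = 0 → ∃ e, i e = c := by
  -- descend
  have hker : π.ker ≤ invJ.ker := by
    intro c hc
    obtain ⟨e, rfl⟩ := hex c hc
    exact hrec e
  let q := QuotientAddGroup.quotientKerEquivOfSurjective π hsurj
  let invC : HC →+ T := (QuotientAddGroup.lift π.ker invJ hker).comp q.symm.toAddMonoidHom
  have hcomp : ∀ c : HJ, invC (π c) = invJ c := by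
    intro c
    have : q.symm (π c) = (QuotientAddGroup.mk c : HJ ⧸ π.ker) := by
      rw [AddEquiv.symm_apply_eq]; rfl
    show (QuotientAddGroup.lift π.ker invJ hker) (q.symm (π c)) = invJ c
    rw [this]; rfl
  -- the image contains an element of order n
  have hmem : invJ c₀ ∈ invC.range := ⟨π c₀, hcomp c₀⟩
  have hle : AddSubgroup.zmultiples (invJ c₀) ≤ invC.range :=
    AddSubgroup.zmultiples_le_of_mem hmem
  have : Finite invC.range := Finite.of_surjective invC.rangeRestrict invC.rangeRestrict_surjective
  have hcz : Nat.card (AddSubgroup.zmultiples (invJ c₀)) = n := by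
    rw [Nat.card_zmultiples, hc₀]
  have h1 : n ≤ Nat.card invC.range := by
    rw [← hcz]
    exact Nat.card_le_card_of_injective (AddSubgroup.inclusion hle)
      (AddSubgroup.inclusion_injective hle)
  have h2 : Nat.card invC.range ≤ Nat.card HC :=
    Nat.card_le_card_of_surjective invC.rangeRestrict invC.rangeRestrict_surjective
  have hHCpos : 0 < Nat.card HC := Nat.card_pos
  have h3 : Nat.card HC ≤ n := Nat.le_of_dvd hn hcard
  have hHC : Nat.card HC = n := by omega
  have hrange : Nat.card invC.range = n := by omega
  have hbij : Function.Bijective invC.rangeRestrict :=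
    (Nat.bijective_iff_surjective_and_card _).2
      ⟨invC.rangeRestrict_surjective, by rw [hHC, hrange]⟩
  have hinj : Function.Injective invC := by
    intro x y hxy
    apply hbij.1
    exact Subtype.ext hxy
  have hrangeEq : invC.range = AddSubgroup.zmultiples (invJ c₀) := by
    symm
    apply AddSubgroup.eq_of_le_of_card_ge hle
    rw [hcz, hrange]
  refine ⟨invC, hcomp, hinj, hHC, hrangeEq, ?_⟩
  intro c hc
  apply hex
  apply hinj
  rw [hcomp, hc, map_zero]

end Fermat.Agent.S55.GlobalInv91
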