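/-
S55 / 35-GLOBAL-INV (helper91): **`HAlpha` CLOSED** — the named Prop `LimDesc99.A3.HAlpha` of
helper99's `AllCoreFinal` (the binder `halpha` of `SCFamily.exists_invCp` at `D2.scFamV` for the
total invariants `invJUU`), UNCONDITIONALLY (`p` odd, `p ∈ S`, `V` fixing `μ_p`):
`D2Alpha.halpha_D2_of_recN` + helper37's level-free reciprocity
`RecTInfl.totalSysU_carry_eq_zero'` + helper54's `ToH2Bridge.toH2top_restrict`.
Also `hSplit'` (the same for `HSplit`, from `D2Wire.hsplit_D2`).
-/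
import Mathlib
import Fermat.Agent.S55.GlobalInv91.D2Alpha
import Fermat.Agent.S55.CycloRecip37.RecTInfl
import Fermat.Agent.S55.IdeleCoh54.ToH2Bridge
import Fermat.Agent.S55.LimDesc99.AllCoreFinal

set_option autoImplicit false
set_option linter.unusedSectionVars false

namespace Fermat.Agent.S55.GlobalInv91.D2HAlpha

open CategoryTheory groupCohomology
open Fermat.Agent.S55.Profin15 Fermat.Agent.S55.Idele73.Basic
open Fermat.Agent.S55.ESDiv20 hiding GQ Qb
open Fermat.Agent.S55.CS79.FamilyCS Fermat.Agent.S55.CS79.Limit Fermat.Agent.S55.CS79.LevelClass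
open Fermat.Agent.S55.LimDesc99 Fermat.Agent.S55.LimDesc99.D2 Fermat.Agent.S55.CD3
open Fermat.Agent.S55.GlobalInv91 Fermat.Agent.S55.CycloGlobal87
open Fermat.Agent.S55.GlobalInv91.D2Wire Fermat.Agent.S55.GlobalInv91.D2Alpha
open Fermat.Agent.S55.CycloRecip37 Fermat.Agent.S55.CycloRecip37.GSys
open Fermat.Agent.S55.CycloRecip37.SysH2 Fermat.Agent.S55.CycloRecip37.SysMore
open Fermat.Agent.S55.CycloRecip37.RecT
open Fermat.Agent.S55.IdeleVal44 Fermat.Agent.S55.QZ33
open Fermat.Agent.Lib.FrobeniusExists (isAlgebraic_Qb isAlgClosure_Qb isGalois_Qb)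
open ExtCitation

attribute [local instance] isAlgebraic_Qb isAlgClosure_Qb isGalois_Qb
attribute [local instance] factPrimes44

variable {p : ℕ} [hp : Fact p.Prime] (hp2 : p ≠ 2) (S : Finset Nat.Primes)
  (hpS : (⟨p, hp.out⟩ : Nat.Primes) ∈ S) (V : Subgroup GQ)
  (hV : IsOpenSub (globalLevels S) V)

include hpS in
/-- **reciprocity of the total systems on the tower classes at every level** (helper37). -/
theorem recN : RecN p hp2 S V := fun j M hM N' a ha =>
  Fermat.Agent.S55.CycloRecip37.RecTInfl.totalSysU_carry_eq_zero' hp2 j.1.unr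
    (unrOutside S j.1.1 j.1.unr) hpS M hM N' a ha

/-- the two normal forms of the finite-level total invariant agree (helper54). -/
theorem invJU_eq_invJUU (j : LevV S V) :
    invJU p hp2 S hpS V hV j = A3.invJUU hp2 S V hV (nonemptyS p S hpS) j :=
  Fermat.Agent.S55.IdeleCoh54.ToH2Bridge.toH2top_restrict _ _

/-- **`HAlpha` (helper99's named Prop), UNCONDITIONALLY.** -/
theorem hAlpha (hmu : ∀ σ ∈ V, cycloChar p σ = 1) :
    A3.HAlpha hp2 S V hV (nonemptyS p S hpS) := by
  intro i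
  have h := halpha_D2_of_recN p hp2 S hpS V hV hmu (recN hp2 S hpS V) i
  refine Exists.elim h (fun j h1 => Exists.elim h1 (fun hji h2 => Exists.elim h2
    (fun m h3 => Exists.elim h3 (fun χ h4 => ?_))))
  have e := invJU_eq_invJUU hp2 S hpS V hV j
  refine ⟨j, hji, m, χ, e ▸ h4.1, h4.2.1, h4.2.2.1, h4.2.2.2.1, ?_⟩
  refine Exists.elim h4.2.2.2.2 (fun invJN h5 => ⟨invJN, fun y => ?_, h5.2⟩)
  exact (h5.1 y).trans (congrArg (fun f => _ • f y) e)

/-- **`HSplit` (helper99's named Prop), UNCONDITIONALLY** (twin of `A3.hSplit`). -/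
theorem hSplit' (hmu : ∀ σ ∈ V, cycloChar p σ = 1) :
    A3.HSplit hp2 S V hV (nonemptyS p S hpS) := by
  intro i x n hx
  have h := hsplit_D2 p hp2 S hpS V hV hmu i x n hx
  refine Exists.elim h (fun j h1 => Exists.elim h1 (fun hji h2 => Exists.elim h2
    (fun m h3 => Exists.elim h3 (fun χ h4 => ?_))))
  have e := invJU_eq_invJUU hp2 S hpS V hV j
  exact ⟨j, hji, m, χ, e ▸ h4.1, h4.2⟩

end Fermat.Agent.S55.GlobalInv91.D2HAlpha
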