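/-
S55 / 35-GLOBAL-INV (helper91): the ideal support does not grow under the transition maps of the
concrete D2 family `LimDesc99.D2.scFamV` (no explicit form of the transition map is needed: only
`e₂ ∘ φ₂ = e₂`, the componentwise shape of `mIncl` and the injectivity of `levelIncl`).
-/
import Fermat.Agent.S55.LimDesc99.SCAdapter
import Fermat.Agent.S55.IdeleVal44.Class

set_option autoImplicit false
set_option linter.unusedSectionVars false

open CategoryTheory groupCohomology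

noncomputable section

namespace Fermat.Agent.S55.GlobalInv91.D2Supp

open Fermat.Agent.S55.Profin15 Fermat.Agent.S55.Idele73.Basic
open Fermat.Agent.S55.ESDiv20 hiding GQ Qb
open Fermat.Agent.S55.ESRep20
open Fermat.Agent.S55.CS79.InvDescent Fermat.Agent.S55.CS79.Limit
open Fermat.Agent.S55.CS79.DivLimit Fermat.Agent.S55.CS79.LevelClass
open Fermat.Agent.S55.CS79.ClassSeq Fermat.Agent.S55.CS79.CofinalCS
open Fermat.Agent.S55.CS79.FamilyCS
open Fermat.Agent.S55.GlobalMod94.JS Fermat.Agent.S55.CD3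
open Fermat.Agent.S55.PrimaryExt14
open Fermat.Agent.S55.LimDesc99 Fermat.Agent.S55.LimDesc99.D2
open Fermat.Agent.S55.GlobalInv91
open Fermat.Agent.S55.IdeleVal44
open Fermat.Agent.Lib.FrobeniusExists (isAlgebraic_Qb isAlgClosure_Qb isGalois_Qb)

attribute [local instance] isAlgebraic_Qb isAlgClosure_Qb isGalois_Qb

variable (S : Finset Nat.Primes) (V : Subgroup GQ) (hV : IsOpenSub (globalLevels S) V)
  (hS : S.Nonempty)

/-- the ideal part of `mIncl` is componentwise -/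
theorem toDS_p2_mIncl (L : IntermediateField ℚ Qbar) [Normal ℚ L]
    (hL : L.IsUnramifiedOutside S) (b : IdeleVal44.JIS L S) (ℓ : OutS S) :
    dsRep.toDS _ (prodRep.p2 (JSp S) (ISlim S) (mIncl S L hL b)) ℓ =
      levelIncl S (ℓ.1 : ℕ) L hL (trivZ (ℓ.1 : ℕ))
        (dsRep.toDS _ (prodRep.p2 (IdeleVal44.JS L S) (IdeleVal44.IS L S) b) ℓ) := by
  rfl

/-- **the ideal support does not grow under the transition maps of the D2 family** -/
theorem toDS_p2_φ₂_eq_zero {i j : LevV S V} (h : j ≤ i)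
    (b : ((scFamV S V hV hS).d i).Y.X₂) (ℓ : OutS S)
    (hb : dsRep.toDS _ (prodRep.p2 (IdeleVal44.JS i.1.1 S) (IdeleVal44.IS i.1.1 S) b) ℓ = 0) :
    dsRep.toDS _ (prodRep.p2 (IdeleVal44.JS j.1.1 S) (IdeleVal44.IS j.1.1 S)
      ((SCDatum.φ₂ ((scFamV S V hV hS).mono h)).hom b)) ℓ = 0 := by
  have h1 := SCDatum.e_φ₂ ((scFamV S V hV hS).mono h) b
  have h2 := congrArg (fun x => dsRep.toDS _ (prodRep.p2 (JSp S) (ISlim S) x) ℓ) h1
  have h3 : levelIncl S (ℓ.1 : ℕ) j.1.1 j.1.unr (trivZ (ℓ.1 : ℕ))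
      (dsRep.toDS _ (prodRep.p2 (IdeleVal44.JS j.1.1 S) (IdeleVal44.IS j.1.1 S)
        ((SCDatum.φ₂ ((scFamV S V hV hS).mono h)).hom b)) ℓ) =
      levelIncl S (ℓ.1 : ℕ) i.1.1 i.1.unr (trivZ (ℓ.1 : ℕ))
        (dsRep.toDS _ (prodRep.p2 (IdeleVal44.JS i.1.1 S) (IdeleVal44.IS i.1.1 S) b) ℓ) := h2
  apply (isInvDescent_levelIncl S (ℓ.1 : ℕ) j.1.1 j.1.unr (trivZ (ℓ.1 : ℕ))).inj
  exact h3.trans ((congrArg _ hb).trans ((map_zero _).trans (map_zero _).symm))

end Fermat.Agent.S55.GlobalInv91.D2Supp
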