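import Fermat.Agent.S55.GlobalInv91.Gen

/-!
# S55 / 35-GLOBAL-INV (helper91): descent pairs

`q : Γ →* Q` onto with kernel `N`, `A : Rep k Γ`, `B : Rep k Q`, `φ : Res_q B ⟶ A` injective with
image `A^N` (`IsDesc q φ`; think `Γ = Gal(L'/K)`, `Q = Gal(L/K)`, `A = X(L')`, `B = X(L)`,
`φ` the inclusion).  Then `H²(Q, B) ≅ H²(Γ ⧸ N, A^N)` (`descIso`), and inflation corresponds to
the finite-level transition map `groupCohomology.map q φ 2` (`infl₂_descIso`): the statements of
`Gen.lean` can be read on `H²(Q, B)` directly.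
-/

set_option autoImplicit false
set_option linter.unusedSectionVars false

namespace Fermat.Agent.S55.GlobalInv91

open groupCohomology CategoryTheory Rep Limits

universe u

variable {k Γ Q : Type u} [CommRing k] [Group Γ] [Group Q]

/-- `B` is the `Q`-module of `ker q`-invariants of `A`, embedded by `φ`. -/
structure IsDesc (q : Γ →* Q) {A : Rep.{u, u, u} k Γ} {B : Rep.{u, u, u} k Q}
    (φ : res q B ⟶ A) : Prop where
  surj : Function.Surjective q
  inj : Function.Injective φ.hom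
  range : ∀ a : A, (∀ s : Γ, q s = 1 → A.ρ s a = a) → ∃ b : B, φ.hom b = a

namespace IsDesc

variable {q : Γ →* Q} {A : Rep.{u, u, u} k Γ} {B : Rep.{u, u, u} k Q} {φ : res q B ⟶ A}

omit [Group Q] in
lemma hom_equivariant [Group Q] {q : Γ →* Q} {B : Rep.{u, u, u} k Q} (φ : res q B ⟶ A)
    (g : Γ) (b : B) : A.ρ g (φ.hom b) = φ.hom (B.ρ (q g) b) :=
  (hom_comm_apply φ g b).symm

lemma hom_fixed (φ : res q B ⟶ A) (b : B) (s : q.ker) : A.ρ (s : Γ) (φ.hom b) = φ.hom b := by
  rw [hom_equivariant φ, MonoidHom.mem_ker.1 s.2, map_one]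
  rfl

variable (φ) in
/-- `b ↦ φ b` as an element of `A^N`. -/
def toInv : B.V →ₗ[k] (A.quotientToInvariants q.ker).V where
  toFun b := ⟨φ.hom b, fun s => hom_fixed φ b s⟩
  map_add' x y := Subtype.ext (map_add φ.hom x y)
  map_smul' c x := Subtype.ext (map_smul φ.hom c x)

@[simp] lemma toInv_coe (b : B) : ((toInv φ b : (A.quotientToInvariants q.ker).V) : A.V) = φ.hom b :=
  rfl

/-- `B ≃ A^N`. -/
noncomputable def linEquiv (h : IsDesc q φ) : B.V ≃ₗ[k] (A.quotientToInvariants q.ker).V :=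
  LinearEquiv.ofBijective (toInv φ)
    ⟨fun x y hxy => h.inj (congrArg (fun z : (A.quotientToInvariants q.ker).V => (z : A.V)) hxy),
     fun x => by
      obtain ⟨b, hb⟩ := h.range (x : A.V) (fun s hs => x.2 ⟨s, MonoidHom.mem_ker.2 hs⟩)
      exact ⟨b, Subtype.ext hb⟩⟩

@[simp] lemma linEquiv_coe (h : IsDesc q φ) (b : B) :
    ((h.linEquiv b : (A.quotientToInvariants q.ker).V) : A.V) = φ.hom b := rfl

/-- `Γ ⧸ N ≃* Q`. -/
noncomputable abbrev grpEquiv (h : IsDesc q φ) : Γ ⧸ q.ker ≃* Q :=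
  QuotientGroup.quotientKerEquivOfSurjective q h.surj

@[simp] lemma grpEquiv_mk (h : IsDesc q φ) (g : Γ) : h.grpEquiv (g : Γ ⧸ q.ker) = q g := rfl

lemma linEquiv_comm (h : IsDesc q φ) (g : Γ ⧸ q.ker) :
    h.linEquiv.symm.toLinearMap ∘ₗ (A.quotientToInvariants q.ker).ρ g =
      B.ρ (h.grpEquiv g) ∘ₗ h.linEquiv.symm.toLinearMap := by
  induction g using QuotientGroup.induction_on with
  | H g' =>
    apply LinearMap.ext
    intro x
    obtain ⟨b, rfl⟩ := h.linEquiv.surjective x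
    apply h.linEquiv.injective
    show h.linEquiv (h.linEquiv.symm ((A.quotientToInvariants q.ker).ρ (g' : Γ ⧸ q.ker)
      (h.linEquiv b))) = h.linEquiv (B.ρ (q g') (h.linEquiv.symm (h.linEquiv b)))
    rw [LinearEquiv.apply_symm_apply, LinearEquiv.symm_apply_apply]
    apply Subtype.ext
    exact hom_equivariant φ g' b

/-- **`H²(Γ ⧸ N, A^N) ≅ H²(Q, B)`.** -/
noncomputable def descIso (h : IsDesc q φ) : H2 (A.quotientToInvariants q.ker) ≅ H2 B :=
  mapIso h.grpEquiv h.linEquiv.symm h.linEquiv_comm 2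

/-- **inflation is the transition map.** -/
theorem descIso_inv_infl₂ (h : IsDesc q φ) :
    h.descIso.inv ≫ infl₂ A q.ker = map q φ 2 := by
  unfold descIso
  rw [mapIso_inv, ← map_comp]
  refine map_congr ?_ ?_ 2
  · ext g
    rfl
  · apply LinearMap.ext
    intro x
    rfl

theorem infl₂_descIso_inv_apply (h : IsDesc q φ) (x : H2 B) :
    (infl₂ A q.ker).hom (h.descIso.inv.hom x) = (map q φ 2).hom x := by
  rw [← h.descIso_inv_infl₂]
  rfl

theorem descIso_hom_inv_apply (h : IsDesc q φ) (x : H2 B) :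
    h.descIso.hom.hom (h.descIso.inv.hom x) = x := by
  have := h.descIso.inv_hom_id
  exact congrArg (fun ψ => ψ.hom x) this

theorem descIso_inv_hom_apply (h : IsDesc q φ) (y : H2 (A.quotientToInvariants q.ker)) :
    h.descIso.inv.hom (h.descIso.hom.hom y) = y := by
  have := h.descIso.hom_inv_id
  exact congrArg (fun ψ => ψ.hom y) this

theorem infl₂_apply (h : IsDesc q φ) (y : H2 (A.quotientToInvariants q.ker)) :
    (infl₂ A q.ker).hom y = (map q φ 2).hom (h.descIso.hom.hom y) := by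
  rw [← h.infl₂_descIso_inv_apply, h.descIso_inv_hom_apply]

/-- the `p`-primary parts correspond. -/
noncomputable def pPrimaryEquiv (h : IsDesc q φ) (p : ℕ) :
    InfRes9.pPrimary p (H2 (A.quotientToInvariants q.ker)) ≃ InfRes9.pPrimary p (H2 B) where
  toFun x := ⟨h.descIso.hom.hom x.1, by
    obtain ⟨j, hj⟩ := x.2
    exact ⟨j, by rw [← map_nsmul, hj, map_zero]⟩⟩
  invFun x := ⟨h.descIso.inv.hom x.1, by
    obtain ⟨j, hj⟩ := x.2
    exact ⟨j, by rw [← map_nsmul, hj, map_zero]⟩⟩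
  left_inv x := Subtype.ext (h.descIso_inv_hom_apply x.1)
  right_inv x := Subtype.ext (h.descIso_hom_inv_apply x.1)

end IsDesc

end Fermat.Agent.S55.GlobalInv91
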