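import Fermat.Agent.S55.GlobalInv91.Gen

/-!
# S55 / 35-GLOBAL-INV (helper91): the double quotient `(G ⧸ V) ⧸ (U ⧸ V) = G ⧸ U` in `H²`

For normal subgroups `V ≤ U` of `G` and `A : Rep k G`:

* `trans₂ A hVU : H²(G ⧸ U, A^U) ⟶ H²(G ⧸ V, A^V)` — the transition (inflation) map, as a
  `groupCohomology.map`;
* `dqIso A hVU : H²((G ⧸ V) ⧸ (U ⧸ V), (A^V)^{U ⧸ V}) ≅ H²(G ⧸ U, A^U)`;
* `infl₂_eq_dqIso_trans₂`: the inflation `infl₂ (A^V) (U ⧸ V)` of the finite quotient `G ⧸ V` is
  `dqIso ≫ trans₂`;
* naturality of both in `A`.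

This turns the statements of `Gen.lean` (group `Γ = G ⧸ V`, normal subgroup `N = U ⧸ V`) into
statements about the layers `A^U`, `A^V` of one big group.
-/

set_option autoImplicit false
set_option linter.unusedSectionVars false

namespace Fermat.Agent.S55.GlobalInv91

open groupCohomology CategoryTheory Rep

universe u

noncomputable section

variable {k G : Type u} [CommRing k] [Group G] (A : Rep.{u, u, u} k G)
  {U V : Subgroup G} [U.Normal] [V.Normal] (hVU : V ≤ U)

/-- `U ⧸ V` as a (normal) subgroup of `G ⧸ V`. -/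
abbrev subQ (U V : Subgroup G) [V.Normal] : Subgroup (G ⧸ V) := U.map (QuotientGroup.mk' V)

/-- the projection `G ⧸ V → G ⧸ U`. -/
def projQ : G ⧸ V →* G ⧸ U :=
  QuotientGroup.map V U (MonoidHom.id G) (by simpa using hVU)

@[simp] lemma projQ_mk (g : G) : projQ hVU (g : G ⧸ V) = (g : G ⧸ U) := rfl

/-- the inclusion `A^U → A^V`, linear. -/
def inclQLin : (A.quotientToInvariants U).V →ₗ[k] (A.quotientToInvariants V).V where
  toFun x := ⟨x.1, fun s => x.2 ⟨s.1, hVU s.2⟩⟩
  map_add' _ _ := rfl
  map_smul' _ _ := rfl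

@[simp] lemma inclQLin_coe (x : (A.quotientToInvariants U).V) :
    ((inclQLin A hVU x : (A.quotientToInvariants V).V) : A.V) = (x : A.V) := rfl

/-- the inclusion `A^U → A^V`, equivariant along `G ⧸ V → G ⧸ U`. -/
noncomputable def inclQ :
    res (projQ hVU) (A.quotientToInvariants U) ⟶ A.quotientToInvariants V :=
  ofHom <| LinearMap.intertwiningMap_of_isIntertwiningMap
    (ρ := (res (projQ hVU) (A.quotientToInvariants U)).ρ)
    (σ := (A.quotientToInvariants V).ρ) (inclQLin A hVU) (fun g x => by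
      induction g using QuotientGroup.induction_on with
      | H g' => exact Subtype.ext rfl)

/-- **the transition map** `H²(G ⧸ U, A^U) ⟶ H²(G ⧸ V, A^V)`. -/
noncomputable abbrev trans₂ : H2 (A.quotientToInvariants U) ⟶ H2 (A.quotientToInvariants V) :=
  map (projQ hVU) (inclQ A hVU) 2

/-- `(A^V)^{U ⧸ V} ≃ A^U`. -/
def dqLinEquiv :
    ((A.quotientToInvariants V).quotientToInvariants (subQ U V)).V ≃ₗ[k]
      (A.quotientToInvariants U).V where
  toFun x := ⟨x.1.1, fun s => by
    have h := x.2 ⟨(s.1 : G ⧸ V), Subgroup.mem_map_of_mem _ s.2⟩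
    exact congrArg (fun y : (A.quotientToInvariants V).V => (y : A.V)) h⟩
  map_add' _ _ := rfl
  map_smul' _ _ := rfl
  invFun y := ⟨inclQLin A hVU y, fun s => by
    obtain ⟨_, ⟨g, hg, rfl⟩⟩ := s
    apply Subtype.ext
    exact y.2 ⟨g, hg⟩⟩
  left_inv _ := rfl
  right_inv _ := rfl

/-- the third isomorphism theorem. -/
noncomputable abbrev dqEquiv : (G ⧸ V) ⧸ subQ U V ≃* G ⧸ U :=
  QuotientGroup.quotientQuotientEquivQuotient V U hVU

lemma dqLinEquiv_comm (g : (G ⧸ V) ⧸ subQ U V) :
    (dqLinEquiv A hVU).toLinearMap ∘ₗ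
        ((A.quotientToInvariants V).quotientToInvariants (subQ U V)).ρ g =
      (A.quotientToInvariants U).ρ (dqEquiv hVU g) ∘ₗ (dqLinEquiv A hVU).toLinearMap := by
  induction g using QuotientGroup.induction_on with
  | H g' =>
    induction g' using QuotientGroup.induction_on with
    | H g'' =>
      apply LinearMap.ext
      intro x
      exact Subtype.ext rfl

/-- **`H²((G ⧸ V) ⧸ (U ⧸ V), (A^V)^{U ⧸ V}) ≅ H²(G ⧸ U, A^U)`.** -/
noncomputable def dqIso :
    H2 ((A.quotientToInvariants V).quotientToInvariants (subQ U V)) ≅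
      H2 (A.quotientToInvariants U) :=
  mapIso (dqEquiv hVU) (dqLinEquiv A hVU) (dqLinEquiv_comm A hVU) 2

/-- **inflation of the finite quotient `G ⧸ V` is the transition map.** -/
theorem infl₂_eq_dqIso_trans₂ :
    infl₂ (A.quotientToInvariants V) (subQ U V) = (dqIso A hVU).hom ≫ trans₂ A hVU := by
  unfold dqIso trans₂
  rw [mapIso_hom, ← map_comp]
  refine map_congr ?_ ?_ 2
  · ext g
    rfl
  · apply LinearMap.ext
    intro x
    exact Subtype.ext rfl

theorem infl₂_apply_eq (x : H2 ((A.quotientToInvariants V).quotientToInvariants (subQ U V))) :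
    (infl₂ (A.quotientToInvariants V) (subQ U V)).hom x =
      (trans₂ A hVU).hom ((dqIso A hVU).hom.hom x) := by
  rw [infl₂_eq_dqIso_trans₂ A hVU]
  rfl

/-- every class of the layer `A^U` is `dqIso` of a class of the double quotient, with the same
torsion, whose inflation is its transition. -/
theorem exists_dq (x : H2 (A.quotientToInvariants U)) :
    ∃ x' : H2 ((A.quotientToInvariants V).quotientToInvariants (subQ U V)),
      (infl₂ (A.quotientToInvariants V) (subQ U V)).hom x' = (trans₂ A hVU).hom x ∧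
      (∀ m : ℕ, m • x = 0 → m • x' = 0) ∧ (dqIso A hVU).hom.hom x' = x := by
  have hinv : (dqIso A hVU).hom.hom ((dqIso A hVU).inv.hom x) = x := by
    have := (dqIso A hVU).inv_hom_id
    exact congrArg (fun φ => φ.hom x) this
  refine ⟨(dqIso A hVU).inv.hom x, ?_, fun m hm => ?_, hinv⟩
  · rw [infl₂_apply_eq A hVU, hinv]
  · rw [← map_nsmul, hm, map_zero]

/-- the transition maps are natural in the module. -/
theorem trans₂_pushQ₂ {B : Rep.{u, u, u} k G} (f : A ⟶ B) (x : H2 (A.quotientToInvariants U)) :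
    (trans₂ B hVU).hom ((pushQ₂ f U).hom x) = (pushQ₂ f V).hom ((trans₂ A hVU).hom x) := by
  have h1 := (map_comp (A := A.quotientToInvariants U) (B := B.quotientToInvariants U)
    (C := B.quotientToInvariants V) (MonoidHom.id (G ⧸ U)) (projQ hVU)
    ((quotientToInvariantsFunctor k U).map f) (inclQ B hVU) 2).symm
  have h2 := (map_comp (A := A.quotientToInvariants U) (B := A.quotientToInvariants V)
    (C := B.quotientToInvariants V) (projQ hVU) (MonoidHom.id (G ⧸ V)) (inclQ A hVU)
    ((quotientToInvariantsFunctor k V).map f) 2).symm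
  have h : pushQ₂ f U ≫ trans₂ B hVU = trans₂ A hVU ≫ pushQ₂ f V := by
    refine h1.trans (Eq.trans ?_ h2.symm)
    refine map_congr ?_ ?_ 2
    · rfl
    · apply LinearMap.ext
      intro y
      exact Subtype.ext rfl
  exact congrArg (fun φ => φ.hom x) h

end

end Fermat.Agent.S55.GlobalInv91
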