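import Fermat.Agent.S55.GlobalInv91.DoubleQuot

/-!
# S55 / 35-GLOBAL-INV (helper91): (35-GEN) in the vocabulary of layers and transition maps

`G` any group, `V ≤ U` normal subgroups (`U ↔ L`, `V ↔ L·K_m`), `E ⟶ J ⟶ C` in `Rep k G`.
The three statements of `Gen.lean` for the finite group `Γ = G ⧸ V`, the modules `X^V` and the
normal subgroup `N = U ⧸ V`, rewritten with the layers `X^U` and the transition maps
`trans₂ X hVU : H²(G ⧸ U, X^U) ⟶ H²(G ⧸ V, X^V)`:

* `alpha_trans`: **(α)** the `p`-primary part of `H²(G ⧸ U, C^U)` is cyclic of order `n` and every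
  `p`-primary class becomes the image of an idele class at the level `V`;
* `reciprocity_trans`: **(β→)**;
* `hasse_trans`: **(β←)**.
-/

set_option autoImplicit false
set_option linter.unusedSectionVars false

namespace Fermat.Agent.S55.GlobalInv91

open groupCohomology CategoryTheory Rep Limits

universe u

variable {k G : Type u} [CommRing k] [Group G] {U V : Subgroup G} [U.Normal] [V.Normal]
  (hVU : V ≤ U)

section Alpha

variable {J C : Rep.{u, u, u} k G} (π : J ⟶ C) {n : ℕ} [NeZero n] {T : Type*} [AddCommGroup T]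

/-- **(α), layer form.**  The hypotheses are those of `exists_fundamental_class_of_inv` for
`Γ = G ⧸ V`, `N = U ⧸ V`, the modules `J^V ⟶ C^V`. -/
theorem alpha_trans (p : ℕ) {e : ℕ} (hn : n = p ^ e)
    (h1N : IsZero (groupCohomology
      (res (subQ U V).subtype (C.quotientToInvariants V)) 1))
    (χ : G ⧸ V →* Multiplicative (ZMod n)) (s : G ⧸ V) (hs : chiVal χ s = 1)
    {m' : ℕ} (hm' : Nat.Coprime m' n)
    (hH1Z : ∀ f : χ.ker → C.quotientToInvariants V,
      (∀ z w : χ.ker, f (z * w) = (C.quotientToInvariants V).ρ (z : G ⧸ V) (f w) + f z) →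
      ∃ y : C.quotientToInvariants V,
        ∀ z : χ.ker, m' • f z = (C.quotientToInvariants V).ρ (z : G ⧸ V) y - y)
    [Finite (InfRes9.pPrimary p (H2 (C.quotientToInvariants U)))]
    (hb : Nat.card (InfRes9.pPrimary p (H2 (C.quotientToInvariants U))) ∣ n)
    (invJ : H2 (J.quotientToInvariants V) →+ T)
    (invJN : H2 (res (subQ U V).subtype (J.quotientToInvariants V)) →+ T)
    (hJ1 : ∀ y : H2 (J.quotientToInvariants V),
      invJN ((res₂ (J.quotientToInvariants V) (subQ U V)).hom y) = (subQ U V).index • invJ y)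
    (invCN : H2 (res (subQ U V).subtype (C.quotientToInvariants V)) →+ T)
    (hinjN : Function.Injective invCN)
    (hcompN : ∀ x : H2 (res (subQ U V).subtype (J.quotientToInvariants V)),
      invCN ((pushS₂ ((quotientToInvariantsFunctor k V).map π) (subQ U V)).hom x) = invJN x)
    (hidx : n ∣ (subQ U V).index)
    (a : (C.quotientToInvariants V).ρ.invariants) (c' : H2 (J.quotientToInvariants V))
    (hc' : n • c' = 0)
    (hπ : (pushQ₂ π V).hom c' = carryH2 (C.quotientToInvariants V) χ a)
    (hc : ∀ m : ℕ, (∃ b : C.quotientToInvariants V,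
      (∀ z : G ⧸ V, χ z = 1 → (C.quotientToInvariants V).ρ z b = b) ∧
      m • (a : C.quotientToInvariants V) = partialNorm (C.quotientToInvariants V) s b n) →
        n ∣ m) :
    (∃ γ : H2 (C.quotientToInvariants U),
      (trans₂ C hVU).hom γ = carryH2 (C.quotientToInvariants V) χ a ∧ addOrderOf γ = n ∧
      ∀ x : H2 (C.quotientToInvariants U), (∃ j : ℕ, p ^ j • x = 0) → ∃ j : ℤ, x = j • γ) ∧
    ∀ x : H2 (C.quotientToInvariants U), (∃ j : ℕ, p ^ j • x = 0) →
      ∃ y : H2 (J.quotientToInvariants V), n • y = 0 ∧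
        (pushQ₂ π V).hom y = (trans₂ C hVU).hom x := by
  -- transport the cardinality hypothesis along `dqIso`
  let eqv : InfRes9.pPrimary p
      (H2 ((C.quotientToInvariants V).quotientToInvariants (subQ U V))) ≃
      InfRes9.pPrimary p (H2 (C.quotientToInvariants U)) :=
    { toFun := fun x => ⟨(dqIso C hVU).hom.hom x.1, by
        obtain ⟨j, hj⟩ := x.2
        exact ⟨j, by rw [← map_nsmul, hj, map_zero]⟩⟩
      invFun := fun x => ⟨(dqIso C hVU).inv.hom x.1, by
        obtain ⟨j, hj⟩ := x.2
        exact ⟨j, by rw [← map_nsmul, hj, map_zero]⟩⟩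
      left_inv := fun x => Subtype.ext (by
        have := (dqIso C hVU).hom_inv_id
        exact congrArg (fun φ => φ.hom x.1) this)
      right_inv := fun x => Subtype.ext (by
        have := (dqIso C hVU).inv_hom_id
        exact congrArg (fun φ => φ.hom x.1) this) }
  have : Finite (InfRes9.pPrimary p
      (H2 ((C.quotientToInvariants V).quotientToInvariants (subQ U V)))) :=
    Finite.of_equiv _ eqv.symm
  have hb' : Nat.card (InfRes9.pPrimary p
      (H2 ((C.quotientToInvariants V).quotientToInvariants (subQ U V)))) ∣ n := by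
    rw [Nat.card_congr eqv]; exact hb
  obtain ⟨γ', hγ', hord', hgen', hα'⟩ := exists_fundamental_class_of_inv
    (J := J.quotientToInvariants V) (C := C.quotientToInvariants V)
    ((quotientToInvariantsFunctor k V).map π) (subQ U V) p hn h1N χ s hs hm' hH1Z hb'
    invJ invJN hJ1 invCN hinjN hcompN hidx a c' hc' hπ hc
  have hinv : ∀ x : H2 (C.quotientToInvariants U),
      (dqIso C hVU).hom.hom ((dqIso C hVU).inv.hom x) = x := fun x => by
    have := (dqIso C hVU).inv_hom_id
    exact congrArg (fun φ => φ.hom x) this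
  have hinv' : ∀ x, (dqIso C hVU).inv.hom ((dqIso C hVU).hom.hom x) = x := fun x => by
    have := (dqIso C hVU).hom_inv_id
    exact congrArg (fun φ => φ.hom x) this
  refine ⟨⟨(dqIso C hVU).hom.hom γ', ?_, ?_, ?_⟩, ?_⟩
  · rw [← infl₂_apply_eq C hVU]; exact hγ'
  · rw [← hord']
    have hinj : Function.Injective ((dqIso C hVU).hom.hom : _ → _) := fun x y hxy => by
      rw [← hinv' x, ← hinv' y, hxy]
    exact addOrderOf_injective ((dqIso C hVU).hom.hom : _ →ₗ[k] _).toAddMonoidHom hinj γ'
  · intro x ⟨j, hj⟩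
    obtain ⟨j', hj'⟩ := hgen' ((dqIso C hVU).inv.hom x) ⟨j, by rw [← map_nsmul, hj, map_zero]⟩
    refine ⟨j', ?_⟩
    rw [← map_zsmul, ← hj', hinv]
  · intro x ⟨j, hj⟩
    obtain ⟨y, hy, hy'⟩ := hα' ((dqIso C hVU).inv.hom x) ⟨j, by rw [← map_nsmul, hj, map_zero]⟩
    refine ⟨y, hy, ?_⟩
    refine Eq.trans hy' ?_
    rw [infl₂_apply_eq C hVU, hinv]

end Alpha

section Beta

variable {E J : Rep.{u, u, u} k G} (i : E ⟶ J) (Z : Subgroup (G ⧸ V)) [Z.Normal]
  {T : Type*} [AddCommGroup T]

/-- **(β→), layer form.** -/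
theorem reciprocity_trans (p : ℕ) {m' : ℕ} (hm' : Nat.Coprime m' p)
    (invJ : H2 (J.quotientToInvariants V) →+ T)
    (h1ZE : IsZero (groupCohomology (res Z.subtype (E.quotientToInvariants V)) 1))
    (hker : ∀ x : H2 (res Z.subtype (E.quotientToInvariants V)),
      (pushS₂ ((quotientToInvariantsFunctor k V).map i) Z).hom x = 0 → m' • x = 0)
    (hrecZ : ∀ y : H2 ((E.quotientToInvariants V).quotientToInvariants Z),
      invJ ((pushQ₂ i V).hom ((infl₂ (E.quotientToInvariants V) Z).hom y)) = 0)
    (e : H2 (E.quotientToInvariants U)) {j : ℕ} (he : p ^ j • e = 0)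
    (hsplit : (res₂ (J.quotientToInvariants V) Z).hom
      ((pushQ₂ i V).hom ((trans₂ E hVU).hom e)) = 0) :
    invJ ((pushQ₂ i V).hom ((trans₂ E hVU).hom e)) = 0 := by
  obtain ⟨e', he'1, he'2, -⟩ := exists_dq E hVU e
  rw [← he'1] at hsplit ⊢
  exact reciprocity_of_tower (E := E.quotientToInvariants V) (J := J.quotientToInvariants V)
    ((quotientToInvariantsFunctor k V).map i) (subQ U V) Z p hm' invJ
    h1ZE hker hrecZ e' (he'2 _ he) hsplit

/-- **(β←), layer form.** -/
theorem hasse_trans (invJ : H2 (J.quotientToInvariants V) →+ T)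
    (h1ZJ : IsZero (groupCohomology (res Z.subtype (J.quotientToInvariants V)) 1))
    (hhasseZ : ∀ y : H2 ((J.quotientToInvariants V).quotientToInvariants Z),
      invJ ((infl₂ (J.quotientToInvariants V) Z).hom y) = 0 →
      ∃ e' : H2 ((E.quotientToInvariants V).quotientToInvariants Z),
        (pushQ₂ ((quotientToInvariantsFunctor k V).map i) Z).hom e' = y)
    (x : H2 (J.quotientToInvariants U)) (hx : invJ ((trans₂ J hVU).hom x) = 0)
    (hsplit : (res₂ (J.quotientToInvariants V) Z).hom ((trans₂ J hVU).hom x) = 0) :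
    ∃ e : H2 (E.quotientToInvariants V), (pushQ₂ i V).hom e = (trans₂ J hVU).hom x := by
  obtain ⟨x', hx'1, -, -⟩ := exists_dq J hVU x
  rw [← hx'1] at hx hsplit ⊢
  exact hasse_of_tower (E := E.quotientToInvariants V) (J := J.quotientToInvariants V)
    ((quotientToInvariantsFunctor k V).map i) (subQ U V) Z invJ h1ZJ hhasseZ
    x' hx hsplit

end Beta

end Fermat.Agent.S55.GlobalInv91
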