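import Fermat.Agent.S55.GlobalInv91.InstFin
import Fermat.Agent.S55.GlobalInv91.InstLev

/-!
# S55 / 35-GLOBAL-INV (helper91): `TowerLayerHyp` is `FinLayerHyp` of the layer complex

`TowerLayerHyp X p V m χ invJ` (layer vocabulary, `G` any group, `V` a normal subgroup) is literally
`FinLayerHyp (X.map (quotientToInvariantsFunctor k V)) p m χ invJ` (the finite group `G ⧸ V`).
-/

set_option autoImplicit false

namespace Fermat.Agent.S55.GlobalInv91

open groupCohomology CategoryTheory Rep Limits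

universe u

variable {k G : Type u} [CommRing k] [Group G] {X : ShortComplex (Rep.{u, u, u} k G)}
  {T : Type*} [AddCommGroup T] {p : ℕ} [Fact p.Prime] {V : Subgroup G} [V.Normal] {m : ℕ}
  {χ : G ⧸ V →* Multiplicative (ZMod (p ^ m))}
  {invJ : H2 (X.X₂.quotientToInvariants V) →+ T}

theorem towerLayerHyp_iff_finLayerHyp :
    TowerLayerHyp X p V m χ invJ ↔
      FinLayerHyp (X.map (quotientToInvariantsFunctor k V)) p m χ invJ :=
  ⟨fun h => ⟨h.finite, h.shortExact, h.exists_s, h.h1E, h.h1ZE, h.h1ZJ, h.h1ZC, h.recT, h.cardZ,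
      h.fullDeg⟩,
   fun h => ⟨h.finite, h.shortExact, h.exists_s, h.h1E, h.h1ZE, h.h1ZJ, h.h1ZC, h.recT, h.cardZ,
      h.fullDeg⟩⟩

end Fermat.Agent.S55.GlobalInv91
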