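import Fermat.Agent.S55.GlobalInv91.InstLev
import Fermat.Agent.S55.LimDesc99.TransferLevel91

/-!
# S55 / 35-GLOBAL-INV (helper91): from the tower layers to the invariant of the class module

One theorem: over any level structure `𝒰` of `G`, for `X : E ⟶ J ⟶ C` short exact and smooth,
an idelic invariant `invJ` on level `H²(J)` computed on the layers by `invJU`, if

* (`hsplit`) every `p`-primary class of a layer `H²(G ⧸ U, J^U)` is split by a crossing tower
  layer `V ≤ U`, `χ : G ⧸ V → ZMod (p ^ m)` satisfying `TowerLayerHyp`;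
* (`halpha`) every level `U` has a crossing tower layer of degree `p ^ m`, the exact power of `p` in
  `[G : U]`, with the degree formula and the cyclic layer over `U`,

then the invariant on the `p`-primary part of level `H²(C)` exists, is compatible with `invJ` and
is injective (helper99's `exists_invCp_of_layers91`, helper14's `LimAlg14`).
-/

set_option autoImplicit false
set_option linter.unusedSectionVars false

open CategoryTheory groupCohomology Limits
open Fermat.Agent.S55.Profin15 Fermat.Agent.S55.LevelColim49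
open Fermat.Agent.S55.PrimaryExt14 Fermat.Agent.S55.LimDesc99

universe u

noncomputable section

namespace Fermat.Agent.S55.GlobalInv91

variable {k G : Type u} [CommRing k] [Group G] {𝒰 : LevelStr G}
  (X : ShortComplex (Rep.{u, u, u} k G))
  (hses : LevelStr.ShortExact (A := X.X₁) (B := X.X₂) (C := X.X₃)
    X.f.hom.toLinearMap X.g.hom.toLinearMap)
  (hJ : 𝒰.IsSmooth X.X₂) {T : Type*} [AddCommGroup T] (p : ℕ) [Fact p.Prime]

include hses hJ in
/-- **35-GEN + 35-LIM.** -/
theorem exists_invCp_of_towerLayers (invJ : 𝒰.H2 X.X₂ →+ T)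
    (invJU : ∀ U : Lev 𝒰, H2 (X.X₂.quotientToInvariants U.1) →+ T)
    (hinvJ : ∀ (U : Lev 𝒰) (x : H2 (X.X₂.quotientToInvariants U.1)),
      invJ (LevelColim49.infl₂ X.X₂ 𝒰 U.2 x) = invJU U x)
    (hsplit : ∀ (U : Lev 𝒰) (x : H2 (X.X₂.quotientToInvariants U.1)) (n : ℕ),
      (p ^ n) • x = 0 →
      ∃ (V : Lev 𝒰) (h : V ≤ U) (m : ℕ) (χ : G ⧸ V.1 →* Multiplicative (ZMod (p ^ m))),
        TowerLayerHyp X p V.1 m χ (invJU V) ∧
        (res₂ (X.X₂.quotientToInvariants V.1) χ.ker).hom
          ((GlobalInv91.trans₂ X.X₂ (show V.1 ≤ U.1 from h)).hom x) = 0)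
    (halpha : ∀ U : Lev 𝒰,
      ∃ (V : Lev 𝒰) (_ : V ≤ U) (m : ℕ) (χ : G ⧸ V.1 →* Multiplicative (ZMod (p ^ m))),
        TowerLayerHyp X p V.1 m χ (invJU V) ∧
        Nat.card (InfRes9.pPrimary p (H2 (X.X₃.quotientToInvariants U.1))) ∣ p ^ m ∧
        p ^ m ∣ (subQ U.1 V.1).index ∧
        IsZero (groupCohomology
          (Rep.res (subQ U.1 V.1).subtype (X.X₃.quotientToInvariants V.1)) 1) ∧
        ∃ invJN : H2 (Rep.res (subQ U.1 V.1).subtype (X.X₂.quotientToInvariants V.1)) →+ T,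
          (∀ y : H2 (X.X₂.quotientToInvariants V.1),
            invJN ((res₂ (X.X₂.quotientToInvariants V.1) (subQ U.1 V.1)).hom y) =
              (subQ U.1 V.1).index • invJU V y) ∧
          ∃ invCN : H2 (Rep.res (subQ U.1 V.1).subtype (X.X₃.quotientToInvariants V.1)) →+ T,
            Function.Injective invCN ∧
            ∀ x : H2 (Rep.res (subQ U.1 V.1).subtype (X.X₂.quotientToInvariants V.1)),
              invCN ((pushS₂ ((Rep.quotientToInvariantsFunctor k V.1).map X.g)
                (subQ U.1 V.1)).hom x) = invJN x) :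
    ∃ invC : primary p (𝒰.H2 X.X₃) →+ T,
      (∀ y : primary p (𝒰.H2 X.X₂),
        invC (mapPrimary p (pushH2 (𝒰 := 𝒰) X.g) y) = invJ (y : 𝒰.H2 X.X₂)) ∧
      (∀ c : primary p (𝒰.H2 X.X₃), invC c = 0 → c = 0) := by
  -- compatibility of the finite-level invariants with the transition maps
  have htr : ∀ (U V : Lev 𝒰) (h : V ≤ U) (x : H2 (X.X₂.quotientToInvariants U.1)),
      invJU V ((GlobalInv91.trans₂ X.X₂ (show V.1 ≤ U.1 from h)).hom x) = invJU U x := by
    intro U V h x
    rw [← hinvJ V, ← hinvJ U, trans₂91_eq, LevelColim49.infl₂_trans₂]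
  refine exists_invCp_of_layers91 X.f X.g hses hJ p invJ invJU hinvJ ?_ ?_ ?_
  · -- (α)
    intro U x n hx
    obtain ⟨V, h, m, χ, hyp, hb, hidx, h1N, invJN, hJ1, invCN, hinjN, hcompN⟩ := halpha U
    obtain ⟨y, hy, hyx⟩ := (hyp.alpha (show V.1 ≤ U.1 from h) hb hidx h1N invJN hJ1 invCN hinjN
      hcompN).2 x ⟨n, hx⟩
    exact ⟨V, h, y, m, hy, hyx⟩
  · -- (β→)
    intro U e n he
    have he' : (p ^ n) • (GlobalInv91.pushQ₂ X.f U.1).hom e = 0 := by
      rw [← map_nsmul, he, map_zero]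
    obtain ⟨V, h, m, χ, hyp, hs⟩ := hsplit U _ n he'
    rw [trans₂_pushQ₂] at hs
    exact ⟨V, h, hyp.beta_to (show V.1 ≤ U.1 from h) e he hs⟩
  · -- (β←)
    intro U x n hx h0
    obtain ⟨V, h, m, χ, hyp, hs⟩ := hsplit U x n hx
    have hx0 : invJU V ((GlobalInv91.trans₂ X.X₂ (show V.1 ≤ U.1 from h)).hom x) = 0 := by
      rw [htr U V h x]; exact h0
    obtain ⟨e, he⟩ := hyp.beta_from (show V.1 ≤ U.1 from h) x hx0 hs
    exact ⟨V, h, e, he⟩

end Fermat.Agent.S55.GlobalInv91
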