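import Fermat.Agent.S55.GlobalInv91.CarryP
import Fermat.Agent.S55.InfRes9.Devissage

/-!
# S55 / 35-GLOBAL-INV (helper91): the tower lemma, `p`-primary form

Same statement as `exists_fundamental_class`, with the two hypotheses that the dévissage (33)
cannot deliver for non-`p`-groups weakened to their `p`-primary forms:

* `H¹(ker χ, C)` is only killed by some `m'` prime to `n = p ^ e`;
* only the `p`-primary part of `H²(Γ ⧸ N, C^N)` has order dividing `n`.

Conclusion: the `p`-primary part of `H²(Γ ⧸ N, C^N)` is cyclic of order `n`, generated by the class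
`γ` whose inflation is the tower class `δχ ∪ a`.
-/

set_option autoImplicit false
set_option linter.unusedSectionVars false

namespace Fermat.Agent.S55.GlobalInv91

open groupCohomology CategoryTheory Rep Limits

universe u

variable {k Γ : Type u} [CommRing k] [Group Γ] (C : Rep.{u, u, u} k Γ) (N : Subgroup Γ) [N.Normal]
  {n : ℕ} [NeZero n]

/-- **The tower lemma, `p`-primary form.** -/
theorem exists_fundamental_class_pPrimary (p : ℕ) {e : ℕ} (hn : n = p ^ e)
    (hmono : Function.Injective (infl₂ C N).hom)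
    (hexact : ∀ x : H2 C, (res₂ C N).hom x = 0 → ∃ y, (infl₂ C N).hom y = x)
    (χ : Γ →* Multiplicative (ZMod n)) (s : Γ) (hs : chiVal χ s = 1)
    {m' : ℕ} (hm' : Nat.Coprime m' n)
    (hH1Z : ∀ f : χ.ker → C, (∀ z w : χ.ker, f (z * w) = C.ρ (z : Γ) (f w) + f z) →
      ∃ y : C, ∀ z : χ.ker, m' • f z = C.ρ (z : Γ) y - y)
    (a : C.ρ.invariants)
    (hd : IsCob₂ (res N.subtype C) (carry (res N.subtype C) (χ.comp N.subtype) (a : C)))
    (hc : ∀ m : ℕ, (∃ b : C, (∀ z : Γ, χ z = 1 → C.ρ z b = b) ∧
      m • (a : C) = partialNorm C s b n) → n ∣ m)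
    [Finite (InfRes9.pPrimary p (H2 (C.quotientToInvariants N)))]
    (hb : Nat.card (InfRes9.pPrimary p (H2 (C.quotientToInvariants N))) ∣ n) :
    ∃ γ : H2 (C.quotientToInvariants N), (infl₂ C N).hom γ = carryH2 C χ a ∧
      addOrderOf γ = n ∧
      ∀ x : H2 (C.quotientToInvariants N), (∃ j : ℕ, p ^ j • x = 0) → ∃ j : ℤ, x = j • γ := by
  have hres : (res₂ C N).hom (carryH2 C χ a) = 0 := by
    have := res₂_carryH2 C N χ a
    rw [show (res₂ C N).hom (carryH2 C χ a) = res₂ C N (carryH2 C χ a) from rfl, this,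
      H2π_eq_zero_iff]
    exact (isCob₂_iff_mem _ _).1 hd
  obtain ⟨γ, hγ⟩ := hexact _ hres
  have hzero : ∀ m : ℕ, m • γ = 0 ↔ n ∣ m := by
    intro m
    constructor
    · intro hm
      apply hc m
      have h1 : carryH2 C χ (m • a) = 0 := by
        rw [map_nsmul, ← hγ, ← map_nsmul, hm, map_zero]
      rw [carryH2_eq_zero_iff] at h1
      obtain ⟨b, hb1, hb2⟩ := exists_norm_of_carry_isCob₂_of_coprime (C := C) hs hm' hH1Z
        (fun g => (m • a).2 g) h1
      exact ⟨b, hb1, hb2⟩
    · rintro ⟨c, rfl⟩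
      apply hmono
      rw [map_nsmul, hγ, map_zero, mul_nsmul']
      have h2 : carryH2 C χ (n • a) = 0 := by
        rw [carryH2_eq_zero_iff]
        have := carry_isCob₂_of_norm (C := C) (χ := χ) (s := s) (b := (a : C)) hs
          (fun z _ => a.2 z)
        rw [partialNorm_self_of_invariant C s (a : C) (fun g => a.2 g)] at this
        exact this
      rw [smul_comm, ← map_nsmul, h2, smul_zero]
  have hord : addOrderOf γ = n := by
    apply Nat.dvd_antisymm
    · exact addOrderOf_dvd_of_nsmul_eq_zero ((hzero n).2 dvd_rfl)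
    · exact (hzero _).1 (addOrderOf_nsmul_eq_zero γ)
  refine ⟨γ, hγ, hord, ?_⟩
  -- generation of the `p`-primary part by counting
  have hγmem : γ ∈ InfRes9.pPrimary p (H2 (C.quotientToInvariants N)) :=
    ⟨e, by rw [← hn]; exact (hzero n).2 dvd_rfl⟩
  set γ' : InfRes9.pPrimary p (H2 (C.quotientToInvariants N)) := ⟨γ, hγmem⟩ with hγ'
  have hord' : addOrderOf γ' = n := by
    rw [← hord]
    exact (addOrderOf_injective (InfRes9.pPrimary p (H2 (C.quotientToInvariants N))).subtype
      Subtype.coe_injective γ').symm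
  have hcard : Nat.card (AddSubgroup.zmultiples γ') = n := by
    rw [Nat.card_zmultiples, hord']
  have hle : Nat.card (AddSubgroup.zmultiples γ') ∣
      Nat.card (InfRes9.pPrimary p (H2 (C.quotientToInvariants N))) :=
    AddSubgroup.card_addSubgroup_dvd_card _
  have heq : Nat.card (AddSubgroup.zmultiples γ') =
      Nat.card (InfRes9.pPrimary p (H2 (C.quotientToInvariants N))) := by
    rw [hcard] at hle ⊢
    exact Nat.dvd_antisymm hle hb
  have htop : AddSubgroup.zmultiples γ' = ⊤ := AddSubgroup.eq_top_of_card_eq _ heq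
  intro x hx
  have hx' : (⟨x, hx⟩ : InfRes9.pPrimary p (H2 (C.quotientToInvariants N))) ∈
      AddSubgroup.zmultiples γ' := htop ▸ AddSubgroup.mem_top _
  obtain ⟨j, hj⟩ := AddSubgroup.mem_zmultiples_iff.1 hx'
  refine ⟨j, ?_⟩
  have := congrArg (fun y : InfRes9.pPrimary p (H2 (C.quotientToInvariants N)) =>
    (y : H2 (C.quotientToInvariants N))) hj
  simp only [AddSubgroup.coe_zsmul] at this
  exact this.symm

end Fermat.Agent.S55.GlobalInv91
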